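import Mathlib

/-!
# Functions invariant under an elliptic element of infinite order vanish

A holomorphic function on the upper half plane which is invariant in weight one under
`(t - 1, b; c, 1)` with `t` rational, not integral, `|t| < 2` and `c > 0` is zero.
-/

set_option autoImplicit false

noncomputable section

open UpperHalfPlane Filter Topology
open scoped ModularForm Manifold

namespace Fermat.Agent.DeligneSerre

/-- A root of `X² - tX + 1`, `t` rational and not an integer, is not a root of unity. -/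
theorem pow_ne_one_of_trace {z : ℂ} {t : ℚ} (hz : z ^ 2 - (t : ℂ) * z + 1 = 0)
    (ht : ∀ n : ℤ, t ≠ n) {r : ℕ} (hr : 0 < r) : z ^ r ≠ 1 := by
  intro h
  have hz0 : z ≠ 0 := by rintro rfl; simp at hz
  have hi : IsIntegral ℤ z := IsIntegral.of_pow hr (by rw [h]; exact isIntegral_one)
  have hi' : IsIntegral ℤ z⁻¹ :=
    IsIntegral.of_pow hr (by rw [inv_pow, h, inv_one]; exact isIntegral_one)
  have hsum : z + z⁻¹ = algebraMap ℚ ℂ t := by
    rw [eq_ratCast]
    field_simp
    linear_combination hz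
  have ht' : IsIntegral ℤ t := by
    have := hi.add hi'
    rw [hsum] at this
    exact (isIntegral_algebraMap_iff (algebraMap ℚ ℂ).injective).mp this
  obtain ⟨n, hn⟩ := IsIntegrallyClosed.isIntegral_iff.mp ht'
  exact ht n hn.symm

/-- A root of `X² - tX + 1` with positive imaginary part. -/
theorem exists_root_im_pos {t : ℝ} (ht : |t| < 2) :
    ∃ z : ℂ, 0 < z.im ∧ z ^ 2 - (t : ℂ) * z + 1 = 0 := by
  obtain ⟨h1, h2⟩ := abs_lt.mp ht
  have hd : 0 < 4 - t ^ 2 := by nlinarith
  refine ⟨⟨t / 2, Real.sqrt (4 - t ^ 2) / 2⟩, by simpa using hd, ?_⟩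
  have hsq : Real.sqrt (4 - t ^ 2) ^ 2 = 4 - t ^ 2 := Real.sq_sqrt hd.le
  have hsq' : Real.sqrt (4 - t * t) * Real.sqrt (4 - t * t) = 4 - t * t :=
    Real.mul_self_sqrt (by nlinarith)
  apply Complex.ext <;> simp [pow_two] <;> nlinarith

/-- A function fixed in weight one by an elliptic element of infinite order is zero. -/
theorem eq_zero_of_slash_elliptic {h : ℍ → ℂ} (hh : MDiff h) (E : GL (Fin 2) ℝ) {t : ℚ}
    (hdet : E.det.val = 1) (hc : 0 < E 1 0) (htr : E 0 0 + E 1 1 = (t : ℝ))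
    (habs : |(t : ℝ)| < 2) (ht : ∀ n : ℤ, t ≠ n) (hE : h ∣[(1 : ℤ)] E = h) : h = 0 := by
  obtain ⟨l, hl, hroot⟩ := exists_root_im_pos habs
  have hroot' : l ^ 2 - (t : ℂ) * l + 1 = 0 := by simpa using hroot
  have hc' : (E 1 0 : ℂ) ≠ 0 := by exact_mod_cast hc.ne'
  have hl0 : l ≠ 0 := fun h0 => by simp [h0] at hroot
  have hdet' : (E 0 0 : ℂ) * E 1 1 - E 0 1 * E 1 0 = 1 := by
    rw [Matrix.GeneralLinearGroup.val_det_apply, Matrix.det_fin_two] at hdet
    exact_mod_cast hdet
  have htr' : (E 0 0 : ℂ) + E 1 1 = (t : ℂ) := by exact_mod_cast htr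
  set z₀ : ℂ := (l - (E 1 1 : ℂ)) / (E 1 0 : ℂ) with hz₀
  have hz₀im : 0 < z₀.im := by
    rw [hz₀, Complex.div_ofReal_im]
    simpa using div_pos hl hc
  have hden₀ : (E 1 0 : ℂ) * z₀ + E 1 1 = l := by rw [hz₀]; field_simp; ring
  have hfix : ((E 0 0 : ℂ) * z₀ + E 0 1) / l = z₀ := by
    rw [div_eq_iff hl0, hz₀]
    field_simp
    linear_combination -1 * hroot' + (-1 : ℂ) * hdet' + l * htr'
  -- the Moebius action near `z₀`
  set den : ℂ → ℂ := fun z => (E 1 0 : ℂ) * z + E 1 1 with hden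
  set act : ℂ → ℂ := fun z => ((E 0 0 : ℂ) * z + E 0 1) / den z with hact
  set G : ℂ → ℂ := h ∘ ofComplex with hG
  have hEdet : 0 < E.det.val := by rw [hdet]; exact one_pos
  have hden_ne : ∀ z : ℂ, 0 < z.im → den z ≠ 0 := fun z hz hzero => by
    have := congrArg Complex.im hzero
    simp [den, hc.ne'] at this
    linarith
  have hfun : ∀ z : ℂ, 0 < z.im → G (act z) = den z * G z := by
    intro z hz
    have h1 := congrFun hE ⟨z, hz⟩
    rw [ModularForm.slash_apply, hdet, UpperHalfPlane.σ, if_pos hEdet] at h1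
    have hcoe : ((E • (⟨z, hz⟩ : ℍ) : ℍ) : ℂ) = act z := by
      rw [coe_smul_of_det_pos hEdet]
      simp [act, den, num, denom]
    have h2 : G (act z) = h (E • (⟨z, hz⟩ : ℍ)) := by
      simp only [G, Function.comp_apply]
      rw [← hcoe, ofComplex_apply]
    have h3 : G z = h ⟨z, hz⟩ := by
      simp only [G, Function.comp_apply]
      rw [ofComplex_apply_of_im_pos hz]
    rw [h2, h3, ← h1]
    have := hden_ne z hz
    simp [denom, den] at this ⊢
    field_simp
  have hGdiff : DifferentiableOn ℂ G {z : ℂ | 0 < z.im} := UpperHalfPlane.mdifferentiable_iff.mp hh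
  have hopen : IsOpen {z : ℂ | 0 < z.im} := isOpen_lt continuous_const Complex.continuous_im
  have hGan : AnalyticOnNhd ℂ G {z : ℂ | 0 < z.im} := hGdiff.analyticOnNhd hopen
  have hGz₀ : AnalyticAt ℂ G z₀ := hGan z₀ hz₀im
  by_cases htop : analyticOrderAt G z₀ = ⊤
  · funext τ
    have hev : G =ᶠ[𝓝 z₀] 0 := analyticOrderAt_eq_top.mp htop
    have h0 := hGan.eqOn_of_preconnected_of_eventuallyEq analyticOnNhd_const
      (convex_halfSpace_im_gt (0 : ℝ)).isPreconnected hz₀im hev τ.im_pos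
    simp only [G, Function.comp_apply, ofComplex_apply, Pi.zero_apply] at h0
    exact h0
  obtain ⟨m, hm⟩ := ENat.ne_top_iff_exists.mp htop
  obtain ⟨u, hu, hu0, hGu⟩ := (hGz₀.analyticOrderAt_eq_natCast).mp hm.symm
  exfalso
  have hden0 : den z₀ ≠ 0 := hden_ne z₀ hz₀im
  have hdl : den z₀ = l := hden₀
  have hactd : ContinuousAt act z₀ := by
    apply ContinuousAt.div (by fun_prop) (by fun_prop) hden0
  have hact0 : act z₀ = z₀ := by simp only [act, hdl]; exact hfix
  have hdiff : ∀ z : ℂ, 0 < z.im → act z - z₀ = (z - z₀) / (den z * l) := by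
    intro z hz
    have h1 := hden_ne z hz
    have h2 : (E 0 0 : ℂ) * z₀ + E 0 1 = z₀ * l := (div_eq_iff hl0).mp hfix
    rw [← hdl] at h2 hl0 ⊢
    simp only [act]
    field_simp
    simp only [den] at h2 ⊢
    linear_combination (z - z₀) * hdet' + ((E 1 0 : ℂ) * z + E 1 1) * h2
  have hev1 : ∀ᶠ z in 𝓝 z₀, G (act z) = (act z - z₀) ^ m • u (act z) := by
    have := hactd.tendsto
    rw [hact0] at this
    exact this.eventually hGu
  have hev : ∀ᶠ z in 𝓝[≠] z₀, u (act z) / (den z * l) ^ m = den z * u z := by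
    filter_upwards [eventually_nhdsWithin_of_eventually_nhds hev1,
      eventually_nhdsWithin_of_eventually_nhds hGu,
      eventually_nhdsWithin_of_eventually_nhds (hopen.eventually_mem hz₀im),
      self_mem_nhdsWithin] with z h1 h2 hz hne
    have h3 := hfun z hz
    rw [h1, h2, hdiff z hz, smul_eq_mul, smul_eq_mul, div_pow] at h3
    have hne' : (z - z₀) ^ m ≠ 0 := pow_ne_zero _ (sub_ne_zero.mpr hne)
    apply mul_left_cancel₀ hne'
    linear_combination h3
  have hcu : ContinuousAt (fun z => u (act z) / (den z * l) ^ m) z₀ := by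
    refine ContinuousAt.div ?_ (by fun_prop) (pow_ne_zero _ (mul_ne_zero hden0 hl0))
    exact ContinuousAt.comp (by rw [hact0]; exact hu.continuousAt) hactd
  have hcv : ContinuousAt (fun z => den z * u z) z₀ :=
    ContinuousAt.mul (by fun_prop) hu.continuousAt
  have hlim := tendsto_nhds_unique
    ((hcu.tendsto.mono_left nhdsWithin_le_nhds).congr' hev)
    (hcv.tendsto.mono_left nhdsWithin_le_nhds)
  simp only [hact0, hdl] at hlim
  refine pow_ne_one_of_trace hroot' ht (r := 2 * m + 1) (by omega) ?_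
  have hll : (l * l) ^ m ≠ 0 := pow_ne_zero _ (mul_ne_zero hl0 hl0)
  rw [div_eq_iff hll] at hlim
  refine (mul_right_cancel₀ hu0 ?_)
  rw [one_mul, show l ^ (2 * m + 1) * u z₀ = l * u z₀ * (l * l) ^ m by ring]
  exact hlim.symm

end Fermat.Agent.DeligneSerre
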