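import Fermat.Agent.HeckeFinite.IntMat
import Fermat.Agent.HeckeFinite.Periods

/-!
# Modular symbols for a finite index subgroup, and operators with coefficients
-/

set_option autoImplicit false

noncomputable section

open UpperHalfPlane CongruenceSubgroup
open scoped MatrixGroups ModularForm

namespace Fermat.Agent.DeligneSerre

open HeckeFinite

variable (Γ : Subgroup SL(2, ℤ)) [Γ.FiniteIndex] (n : ℕ)

/-- The modular symbol `{g'∞, g∞} ⊗ z^m` as a functional on cusp forms of weight `n + 2`. -/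
def symb (g g' : SL(2, ℤ)) (m : Fin (n + 1)) :
    Module.Dual ℂ (CuspForm Γ ((n : ℤ) + 2)) :=
  periodLin g g' (Polynomial.X ^ (m : ℕ)) (by simp; omega)

/-- The `ℤ`-lattice spanned by all symbols. -/
def symbLattice : Submodule ℤ (Module.Dual ℂ (CuspForm Γ ((n : ℤ) + 2))) :=
  Submodule.span ℤ {v | ∃ g g' m, v = symb Γ n g g' m}

variable {Γ n}

theorem symb_apply (g g' : SL(2, ℤ)) (m : Fin (n + 1)) (f : CuspForm Γ ((n : ℤ) + 2)) :
    symb Γ n g g' m f = period f g g' (Polynomial.X ^ (m : ℕ)) := rfl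

theorem symb_mem_symbLattice (g g' : SL(2, ℤ)) (m : Fin (n + 1)) :
    symb Γ n g g' m ∈ symbLattice Γ n :=
  Submodule.subset_span ⟨g, g', m, rfl⟩

@[simp] theorem symb_self (g : SL(2, ℤ)) (m : Fin (n + 1)) : symb Γ n g g m = 0 := by
  ext f
  simp [symb_apply]

theorem symb_eq_add (g g' g'' : SL(2, ℤ)) (m : Fin (n + 1)) :
    symb Γ n g g'' m = symb Γ n g g' m + symb Γ n g' g'' m := by
  ext f
  simp [symb_apply, period_add_period]

theorem symb_neg (g g' : SL(2, ℤ)) (m : Fin (n + 1)) :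
    symb Γ n g' g m = -symb Γ n g g' m := by
  rw [eq_neg_iff_add_eq_zero, ← symb_eq_add, symb_self]

/-- `g` and `g T` define the same cusp. -/
theorem symb_mul_T (g : SL(2, ℤ)) (m : Fin (n + 1)) :
    symb Γ n (g * ModularGroup.T) g m = 0 := by
  ext f
  exact period_eq_zero_of_upper f g (by simp [ModularGroup.coe_T]) (by simp; omega)

/-- Composite of a symbol with a map given by integral matrices and coefficients: a combination
of symbols with coefficients in the `ℤ`-multiples of the coefficients. -/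
theorem exists_symb_comp_eq_sum {ι : Type*} (s : Finset ι) (M : ι → GL (Fin 2) ℝ)
    (hM : ∀ j, IsIntGL (M j)) (a : ι → ℂ) {V : Type*} [AddCommGroup V] [Module ℂ V]
    (i₀ T : V →ₗ[ℂ] CuspForm Γ ((n : ℤ) + 2))
    (hT : ∀ f, ⇑(T f) = ∑ j ∈ s, a j • (⇑(i₀ f) ∣[(n : ℤ) + 2] M j))
    (gM gM' : ι → SL(2, ℤ)) {g g' : SL(2, ℤ)}
    (hg : ∀ j, ∃ u : GL (Fin 2) ℝ, u 1 0 = 0 ∧
      M j * (g : GL (Fin 2) ℝ) = (gM j : GL (Fin 2) ℝ) * u)
    (hg' : ∀ j, ∃ u : GL (Fin 2) ℝ, u 1 0 = 0 ∧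
      M j * (g' : GL (Fin 2) ℝ) = (gM' j : GL (Fin 2) ℝ) * u)
    (m : Fin (n + 1)) :
    ∃ c : ι → Fin (n + 1) → ℤ, (symb Γ n g g' m) ∘ₗ T =
      ∑ j ∈ s, ∑ i, c j i • a j • (symb Γ n (gM j) (gM' j) i ∘ₗ i₀) := by
  choose c hc using fun j => exists_slash_mul_pow_eq_sum (hM j) (Nat.lt_succ_iff.mp m.2) rfl
  refine ⟨fun j i => c j i, LinearMap.ext fun f => ?_⟩
  have hprim : ∀ (h : SL(2, ℤ)) (hh : ι → SL(2, ℤ)),
      (∀ j, ∃ u : GL (Fin 2) ℝ, u 1 0 = 0 ∧
        M j * (h : GL (Fin 2) ℝ) = (hh j : GL (Fin 2) ℝ) * u) →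
      prim h (mulPoly (⇑(T f)) (Polynomial.X ^ (m : ℕ))) = ∑ j ∈ s, ∑ i : Fin (n + 1),
        ((c j i : ℂ) * a j) •
          fun z => prim (hh j) (mulPoly (⇑(i₀ f)) (Polynomial.X ^ (i : ℕ))) (M j • z) := by
    intro h hh hu
    refine IsPrimitiveAt.prim_eq ?_
    have e : mulPoly (⇑(T f)) (Polynomial.X ^ (m : ℕ)) =
        ∑ j ∈ s, ∑ i : Fin (n + 1), ((c j i : ℂ) * a j) •
          fun z => mulPoly (⇑(i₀ f)) (Polynomial.X ^ (i : ℕ)) (M j • z) *
            (((M j).det.val : ℂ) / denom (M j) z ^ 2) := by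
      ext z
      simp only [mulPoly, map_pow, Polynomial.aeval_X, hT, Finset.sum_apply, Pi.smul_apply,
        smul_eq_mul, Finset.sum_mul]
      refine Finset.sum_congr rfl fun j _ => ?_
      rw [mul_assoc, hc j (⇑(i₀ f)) z, Finset.sum_range, Finset.mul_sum]
      exact Finset.sum_congr rfl fun i _ => by ring
    rw [e]
    refine IsPrimitiveAt.sum _ fun j _ => IsPrimitiveAt.sum _ fun i _ =>
      IsPrimitiveAt.const_smul _ ?_
    obtain ⟨u, hu0, hu1⟩ := hu j
    refine IsPrimitiveAt.comp (hM j).1 hu0 ?_ hu1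
      (isPrimitiveAt_prim (i₀ f) (by simp; omega) (hh j))
    have := congrArg (fun A : GL (Fin 2) ℝ => A.det.val) hu1
    simp at this
    simpa [← this] using (hM j).1
  rw [LinearMap.comp_apply, symb_apply, period, hprim g gM hg, hprim g' gM' hg']
  simp only [LinearMap.sum_apply, LinearMap.smul_apply, Finset.sum_apply, Pi.smul_apply,
    smul_eq_mul, zsmul_eq_mul, ← Finset.sum_sub_distrib, ← mul_sub, symb_apply,
    LinearMap.comp_apply]
  refine Finset.sum_congr rfl fun j _ => Finset.sum_congr rfl fun i _ => ?_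
  rw [mul_assoc]
  congr 2
  exact sub_eq_sub_of_hasDerivAt (isPrimitiveAt_prim (i₀ f) (P := Polynomial.X ^ (i : ℕ)) (by simp; omega) (gM j)).1
    (isPrimitiveAt_prim (i₀ f) (P := Polynomial.X ^ (i : ℕ)) (by simp; omega) (gM' j)).1 _ _

/-- Translating a symbol by `γ ∈ Γ`. -/
theorem exists_symb_eq_sum {γ : SL(2, ℤ)} (hγ : γ ∈ Γ)
    (g g' : SL(2, ℤ)) (m : Fin (n + 1)) :
    ∃ c : Fin (n + 1) → ℤ, symb Γ n g g' m = ∑ i, c i • symb Γ n (γ * g) (γ * g') i := by
  obtain ⟨c, hc⟩ := exists_symb_comp_eq_sum ({()} : Finset Unit)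
    (fun _ => (γ : GL (Fin 2) ℝ)) (fun _ => isIntGL_specialLinearGroup γ) (fun _ => 1)
    LinearMap.id LinearMap.id
    (fun f => by
      have h : ⇑f ∣[(n : ℤ) + 2] (γ : GL (Fin 2) ℝ) = ⇑f :=
        SlashInvariantFormClass.slash_action_eq f _ (Subgroup.mem_map_of_mem _ hγ)
      simp [h])
    (fun _ => γ * g) (fun _ => γ * g') (g := g) (g' := g')
    (fun _ => ⟨1, by simp, by simp [map_mul]⟩) (fun _ => ⟨1, by simp, by simp [map_mul]⟩) m
  exact ⟨c (), by simpa using hc⟩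

theorem symbLattice_fg : (symbLattice Γ n).FG := by
  classical
  let rep : SL(2, ℤ) ⧸ Γ → SL(2, ℤ) := fun q => (Quotient.out q)⁻¹
  have : Finite (SL(2, ℤ) ⧸ Γ) := Subgroup.finite_quotient_of_finiteIndex
  let G : Set (Module.Dual ℂ (CuspForm Γ ((n : ℤ) + 2))) :=
    Set.range fun p : (SL(2, ℤ) ⧸ Γ) × Fin (n + 1) =>
      symb Γ n (rep p.1 * ModularGroup.S) (rep p.1) p.2
  suffices symbLattice Γ n = Submodule.span ℤ G by
    rw [this]
    exact Submodule.fg_span (Set.finite_range _)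
  refine le_antisymm ?_ (Submodule.span_mono ?_)
  swap
  · rintro _ ⟨p, rfl⟩
    exact ⟨_, _, p.2, rfl⟩
  have hS : ∀ (g : SL(2, ℤ)) (m : Fin (n + 1)),
      symb Γ n (g * ModularGroup.S) g m ∈ Submodule.span ℤ G := by
    intro g m
    obtain ⟨γ, hγ⟩ := QuotientGroup.mk_out_eq_mul Γ g⁻¹
    have hrep : rep (QuotientGroup.mk g⁻¹) = (γ : SL(2, ℤ))⁻¹ * g := by
      simp only [rep]
      rw [hγ]
      simp
    obtain ⟨c, hc⟩ := exists_symb_eq_sum (n := n) (Γ.inv_mem γ.2)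
      (g * ModularGroup.S) g m
    rw [hc]
    refine Submodule.sum_mem _ fun i _ => Submodule.smul_mem _ _ (Submodule.subset_span ?_)
    exact ⟨(QuotientGroup.mk g⁻¹, i), by simp [hrep, mul_assoc]⟩
  have key : ∀ h : SL(2, ℤ), ∀ (g : SL(2, ℤ)) (m : Fin (n + 1)),
      symb Γ n (g * h) g m ∈ Submodule.span ℤ G := by
    intro h
    have hh : h ∈ Subgroup.closure ({ModularGroup.S, ModularGroup.T} : Set SL(2, ℤ)) := by
      rw [SpecialLinearGroup.SL2Z_generators]
      trivial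
    induction hh using Subgroup.closure_induction with
    | mem x hx =>
      intro g m
      rcases hx with rfl | rfl
      · exact hS g m
      · rw [symb_mul_T]
        exact zero_mem _
    | one =>
      intro g m
      simp
    | mul x y _ _ hx hy =>
      intro g m
      rw [← mul_assoc, symb_eq_add (g * x * y) (g * x) g]
      exact add_mem (hy _ m) (hx _ m)
    | inv x _ hx =>
      intro g m
      rw [symb_neg, Submodule.neg_mem_iff]
      simpa using hx (g * x⁻¹) m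
  refine Submodule.span_le.mpr ?_
  rintro _ ⟨g, g', m, rfl⟩
  simpa using key (g'⁻¹ * g) g' m

variable {V : Type*} [AddCommGroup V] [Module ℂ V]

/-- The `R`-multiples of the symbols, pulled back to `V`. -/
def coeffLattice (R : Submodule ℤ ℂ) (i₀ : V →ₗ[ℂ] CuspForm Γ ((n : ℤ) + 2)) :
    Submodule ℤ (Module.Dual ℂ V) :=
  Submodule.map₂ (LinearMap.mk₂ ℤ (fun (c : ℂ) (v : Module.Dual ℂ V) => c • v)
      (fun a b v => add_smul a b v) (fun r c v => smul_assoc r c v)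
      (fun c v w => smul_add c v w) (fun r c v => smul_comm c r v)) R
    ((symbLattice Γ n).map
      ({ toFun := fun v => v ∘ₗ i₀, map_zero' := LinearMap.zero_comp _,
         map_add' := fun v w => LinearMap.add_comp _ w v } :
        Module.Dual ℂ (CuspForm Γ ((n : ℤ) + 2)) →+ Module.Dual ℂ V).toIntLinearMap)

theorem coeffLattice_fg {R : Submodule ℤ ℂ} (hR : R.FG)
    (i₀ : V →ₗ[ℂ] CuspForm Γ ((n : ℤ) + 2)) : (coeffLattice R i₀).FG := by
  unfold coeffLattice
  exact Submodule.FG.map₂ _ hR (symbLattice_fg.map _)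

theorem smul_comp_mem_coeffLattice {R : Submodule ℤ ℂ} {c : ℂ} (hc : c ∈ R)
    {i₀ : V →ₗ[ℂ] CuspForm Γ ((n : ℤ) + 2)}
    {v : Module.Dual ℂ (CuspForm Γ ((n : ℤ) + 2))} (hv : v ∈ symbLattice Γ n) :
    c • (v ∘ₗ i₀) ∈ coeffLattice R i₀ := by
  unfold coeffLattice
  exact Submodule.apply_mem_map₂ _ hc (Submodule.mem_map_of_mem hv)

/-- An operator given by integral matrices with coefficients in a ring `R` preserves the
lattice of `R`-multiples of symbols. -/
theorem coeffLattice_comp_mem {ι : Type*} (s : Finset ι) (M : ι → GL (Fin 2) ℝ)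
    (hM : ∀ j, IsIntGL (M j)) (a : ι → ℂ) {R : Submodule ℤ ℂ}
    (hRa : ∀ j, ∀ c ∈ R, c * a j ∈ R)
    (i₀ : V →ₗ[ℂ] CuspForm Γ ((n : ℤ) + 2)) (T : Module.End ℂ V)
    (hT : ∀ f, ⇑(i₀ (T f)) = ∑ j ∈ s, a j • (⇑(i₀ f) ∣[(n : ℤ) + 2] M j))
    {v : Module.Dual ℂ V} (hv : v ∈ coeffLattice R i₀) :
    v ∘ₗ T ∈ coeffLattice R i₀ := by
  let pre : Module.Dual ℂ V →ₗ[ℤ] Module.Dual ℂ V :=
    ({ toFun := fun v => v ∘ₗ T, map_zero' := LinearMap.zero_comp _,
       map_add' := fun v w => LinearMap.add_comp _ w v } :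
        Module.Dual ℂ V →+ Module.Dual ℂ V).toIntLinearMap
  suffices coeffLattice R i₀ ≤ (coeffLattice R i₀).comap pre from this hv
  refine Submodule.map₂_le.mpr ?_
  rintro c hc _ ⟨w, hw, rfl⟩
  show (c • (w ∘ₗ i₀)) ∘ₗ T ∈ coeffLattice R i₀
  induction hw using Submodule.span_induction with
  | mem x hx =>
    obtain ⟨g, g', m, rfl⟩ := hx
    choose gM u hu hu' using fun j =>
      ((hM j).mul (isIntGL_specialLinearGroup g)).exists_eq_mul
    choose gM' u' hu0' hu1' using fun j =>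
      ((hM j).mul (isIntGL_specialLinearGroup g')).exists_eq_mul
    obtain ⟨d, hd⟩ := exists_symb_comp_eq_sum s M hM a i₀ (i₀ ∘ₗ T) hT gM gM'
      (g := g) (g' := g') (fun j => ⟨u j, hu j, hu' j⟩) (fun j => ⟨u' j, hu0' j, hu1' j⟩) m
    rw [LinearMap.smul_comp, LinearMap.comp_assoc, hd, Finset.smul_sum]
    refine Submodule.sum_mem _ fun j _ => ?_
    rw [Finset.smul_sum]
    refine Submodule.sum_mem _ fun i _ => ?_
    rw [smul_comm c (d j i), smul_smul]
    exact Submodule.smul_mem _ _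
      (smul_comp_mem_coeffLattice (hRa j c hc) (symb_mem_symbLattice _ _ _))
  | zero => simp
  | add x y _ _ hx hy =>
    rw [LinearMap.add_comp, smul_add, LinearMap.add_comp]
    exact add_mem hx hy
  | smul r x _ hx =>
    have e : (c • ((r • x) ∘ₗ i₀)) ∘ₗ T = r • ((c • (x ∘ₗ i₀)) ∘ₗ T) := by
      ext f
      simp [mul_left_comm]
    rw [e]
    exact Submodule.smul_mem _ _ hx

end Fermat.Agent.DeligneSerre
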