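import Fermat.Agent.DeligneSerre.Nebentypus
import Fermat.Agent.DeligneSerre.SymbLattice
import Fermat.Agent.HeckeFinite.Separating
import Fermat.Agent.HeckeFinite.Finite
import Fermat.Prelude.Def_FLTPrelim_Modularity
import Fermat.Prelude.Thm_ModularFormClass_qCoeff_heckeT
import Fermat.Prelude.Thm_ModularFormClass_qCoeff_heckeU
import Fermat.Prelude.Thm_ModularForm_periodic_heckeT_comp_ofComplex
import Fermat.Prelude.Thm_ModularForm_periodic_heckeU_comp_ofComplex
import Fermat.Prelude.Thm_ModularForm_isBoundedAtImInfty_heckeT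
import Fermat.Prelude.Thm_ModularForm_isBoundedAtImInfty_heckeU

/-!
# The Hecke algebra with nebentypus is finite over `ℤ`, and integrality of Fourier coefficients

The Fourier coefficients of a cusp form of weight `≥ 2` with nebentypus all lie in one finitely
generated subgroup of `ℂ`.
-/

set_option autoImplicit false

noncomputable section

open UpperHalfPlane CongruenceSubgroup ModularFormClass
open scoped MatrixGroups ModularForm Manifold

namespace Fermat.Agent.DeligneSerre

variable {N : ℕ}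

theorem one_mem_strictPeriods_Gamma1 (N : ℕ) :
    (1 : ℝ) ∈ (Gamma1 N : Subgroup (GL (Fin 2) ℝ)).strictPeriods := by
  simp

variable {k : ℤ} {ε : DirichletCharacter ℂ N}

theorem prime_isUnit_or_dvd {p : ℕ} (hp : p.Prime) : ε (p : ZMod N) = 0 ↔ p ∣ N := by
  constructor
  · intro h
    by_contra hpN
    have hu : IsUnit ((p : ℕ) : ZMod N) := by
      rw [ZMod.isUnit_iff_coprime]
      exact hp.coprime_iff_not_dvd.mpr hpN
    exact (hu.map ε).ne_zero h
  · intro h
    refine ε.map_nonunit fun hu => ?_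
    rw [ZMod.isUnit_iff_coprime] at hu
    exact hp.ne_one (Nat.eq_one_of_dvd_coprimes hu dvd_rfl h)

theorem qCoeff_nebHecke (f : CuspForm (Gamma1 N) k) {p : ℕ} (hp : p ≠ 0) (n : ℕ) :
    qCoeff (nebHecke k ε p ⇑f) n = qCoeff f (n * p) +
      ε (p : ZMod N) * (if p ∣ n then (p : ℂ) ^ (k - 1) * qCoeff f (n / p) else 0) := by
  have hΓ := one_mem_strictPeriods_Gamma1 N
  haveI : Fact (IsCusp OnePoint.infty (Gamma1 N : Subgroup (GL (Fin 2) ℝ))) :=
    ⟨Subgroup.isCusp_of_mem_strictPeriods one_pos hΓ⟩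
  have hper := SlashInvariantFormClass.periodic_comp_ofComplex f hΓ
  have hhol := ModularFormClass.holo f
  have hbdd := ModularFormClass.bdd_at_infty f
  have aT : AnalyticAt ℂ (cuspFunction 1 (ModularForm.heckeT k p ⇑f)) 0 :=
    analyticAt_cuspFunction_zero one_pos (ModularForm.periodic_heckeT_comp_ofComplex hper k p)
      (ModularForm.mdifferentiable_heckeT hhol k p) (ModularForm.isBoundedAtImInfty_heckeT hbdd k p)
  have aU : AnalyticAt ℂ (cuspFunction 1 (ModularForm.heckeU k p ⇑f)) 0 :=
    analyticAt_cuspFunction_zero one_pos (ModularForm.periodic_heckeU_comp_ofComplex hper k p)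
      (ModularForm.mdifferentiable_heckeU hhol k p) (ModularForm.isBoundedAtImInfty_heckeU hbdd k p)
  have e : nebHecke k ε p ⇑f = ε (p : ZMod N) • ModularForm.heckeT k p ⇑f +
      (1 - ε (p : ZMod N)) • ModularForm.heckeU k p ⇑f := by
    rw [nebHecke, ModularForm.heckeT]
    module
  have aTs : AnalyticAt ℂ (cuspFunction 1 (ε (p : ZMod N) • ModularForm.heckeT k p ⇑f)) 0 := by
    rw [cuspFunction_smul aT.continuousAt]
    exact analyticAt_const.smul aT
  have aUs : AnalyticAt ℂ
      (cuspFunction 1 ((1 - ε (p : ZMod N)) • ModularForm.heckeU k p ⇑f)) 0 := by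
    rw [cuspFunction_smul aU.continuousAt]
    exact analyticAt_const.smul aU
  have h1 := ModularFormClass.qCoeff_heckeT f hΓ hp n
  have h2 := ModularFormClass.qCoeff_heckeU f hΓ hp n
  simp only [qCoeff] at h1 h2 ⊢
  rw [e, UpperHalfPlane.qExpansion_add aTs aUs, UpperHalfPlane.qExpansion_smul aT,
    UpperHalfPlane.qExpansion_smul aU, map_add, PowerSeries.coeff_smul, PowerSeries.coeff_smul,
    h1, h2, ModularForm.coeffHeckeT_apply, ModularForm.coeffHeckeU_apply]
  simp only [qCoeff, smul_eq_mul]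
  ring

variable [NeZero N]

variable (N k ε) in
/-- The `n`-th coefficient on `nebSpace`. -/
def qCoeffNeb (n : ℕ) : Module.Dual ℂ (nebSpace N k ε) where
  toFun f := qCoeff (⇑(f : CuspForm (Gamma1 N) k)) n
  map_add' f g := by
    simp only [qCoeff, Submodule.coe_add, FunLike.coe_add, map_add,
      ModularForm.qExpansion_add one_pos (one_mem_strictPeriods_Gamma1 N)
        (f : CuspForm (Gamma1 N) k) (g : CuspForm (Gamma1 N) k)]
  map_smul' c f := by
    simp only [qCoeff, Submodule.coe_smul, FunLike.coe_smul, PowerSeries.coeff_smul,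
      ModularForm.qExpansion_smul one_pos (one_mem_strictPeriods_Gamma1 N) c
        (f : CuspForm (Gamma1 N) k), RingHom.id_apply]

theorem qCoeffNeb_apply (n : ℕ) (f : nebSpace N k ε) :
    qCoeffNeb N k ε n f = qCoeff (⇑(f : CuspForm (Gamma1 N) k)) n := rfl

theorem qCoeffNeb_nebOp {p : ℕ} (hp : p.Prime) (f : nebSpace N k ε) (n : ℕ) :
    qCoeffNeb N k ε n (nebOp N k ε hp f) = qCoeffNeb N k ε (n * p) f +
      ε (p : ZMod N) * (if p ∣ n then (p : ℂ) ^ (k - 1) * qCoeffNeb N k ε (n / p) f else 0) := by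
  simp only [qCoeffNeb_apply, coe_nebOp]
  exact qCoeff_nebHecke _ hp.ne_zero n

variable (N k ε)

/-- The ring generated by the values of `ε`. -/
def valueRing : Subalgebra ℤ ℂ := Algebra.adjoin ℤ (Set.range fun a : ZMod N => ε a)

/-- The set of operators generating the Hecke algebra with nebentypus. -/
def nebGenerators : Set (Module.End ℂ (nebSpace N k ε)) :=
  {T | ∃ (p : ℕ) (hp : p.Prime), T = nebOp N k ε hp} ∪
    {T | ∃ a : ZMod N, T = ε a • LinearMap.id}

/-- The Hecke algebra with nebentypus, generated over `ℤ` by all Hecke operators and the values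
of the character. -/
def nebAlgebra : Subalgebra ℤ (Module.End ℂ (nebSpace N k ε)) :=
  Algebra.adjoin ℤ (nebGenerators N k ε)

theorem valueRing_fg : (Subalgebra.toSubmodule (valueRing N ε)).FG := by
  refine fg_adjoin_of_finite (Set.finite_range _) ?_
  rintro _ ⟨a, rfl⟩
  by_cases ha : IsUnit a
  · refine IsIntegral.of_pow (n := orderOf ha.unit) (orderOf_pos _) ?_
    have h : ε a ^ orderOf ha.unit = 1 := by
      have h1 : a ^ orderOf ha.unit = 1 := by
        have h2 : (ha.unit : ZMod N) ^ orderOf ha.unit = 1 := by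
          rw [← Units.val_pow_eq_pow_val, pow_orderOf_eq_one, Units.val_one]
        exact h2
      rw [← map_pow, h1, map_one]
    rw [h]
    exact isIntegral_one
  · simpa [ε.map_nonunit ha] using isIntegral_zero

omit [NeZero N] in
theorem eval_mem_valueRing (a : ZMod N) : ε a ∈ valueRing N ε :=
  Algebra.subset_adjoin ⟨a, rfl⟩

/-- The Hecke algebra with nebentypus is a finite `ℤ`-module in weight `≥ 2`. -/
theorem moduleFinite_nebAlgebra (n : ℕ) :
    Module.Finite ℤ (nebAlgebra N ((n : ℤ) + 2) ε) := by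
  let R : Submodule ℤ ℂ := Subalgebra.toSubmodule (valueRing N ε)
  let i₀ : nebSpace N ((n : ℤ) + 2) ε →ₗ[ℂ] CuspForm (Gamma1 N) ((n : ℤ) + 2) :=
    (nebSpace N ((n : ℤ) + 2) ε).subtype
  refine HeckeFinite.moduleFinite_adjoin_of_separating (coeffLattice R i₀)
    (coeffLattice_fg (valueRing_fg N ε) i₀) ?_ _ ?_
  · intro f hf
    refine Subtype.ext (HeckeFinite.eq_zero_of_period_eq_zero
      (f : CuspForm (Gamma1 N) ((n : ℤ) + 2)) fun g g' m hm => ?_)
    have := hf _ (smul_comp_mem_coeffLattice (R := R) (one_mem (valueRing N ε))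
      (symb_mem_symbLattice g g' ⟨m, Nat.lt_succ_iff.mpr hm⟩))
    simpa [i₀, symb_apply] using this
  · rintro T (⟨p, hp, rfl⟩ | ⟨a, rfl⟩) v hv
    · haveI : Fact p.Prime := ⟨hp⟩
      refine coeffLattice_comp_mem Finset.univ (rep p) (fun j => ⟨?_, fun a b => ?_⟩)
        (repWeight N p ε) (R := R) ?_ i₀ _ ?_ hv
      · rw [Matrix.GeneralLinearGroup.val_det_apply, rep_val,
          show (repInt p j).map (Int.cast : ℤ → ℝ) = (Int.castRingHom ℝ).mapMatrix (repInt p j)
            from rfl, ← RingHom.map_det, det_repInt]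
        simpa using hp.pos
      · exact ⟨repInt p j a b, by rw [rep_val]; rfl⟩
      · intro j c hc
        refine mul_mem (s := valueRing N ε) hc ?_
        cases j
        · exact eval_mem_valueRing N ε _
        · exact one_mem _
      · intro f
        exact nebHecke_eq_sum _
    · have e : v ∘ₗ (ε a • LinearMap.id) = ε a • v := by
        ext f
        simp
      rw [e]
      revert v
      suffices coeffLattice R i₀ ≤ (coeffLattice R i₀).comap
          ((ε a • LinearMap.id : Module.Dual ℂ _ →ₗ[ℂ] Module.Dual ℂ _).restrictScalars ℤ) by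
        exact fun v hv _ => this hv
      refine Submodule.map₂_le.mpr ?_
      rintro c hc _ ⟨w, hw, rfl⟩
      show ε a • (c • (w ∘ₗ i₀)) ∈ coeffLattice R i₀
      rw [smul_smul]
      exact smul_comp_mem_coeffLattice (R := R)
        (Subalgebra.mul_mem (valueRing N ε) (eval_mem_valueRing N ε a) hc) hw

/-- Every coefficient is the first coefficient after applying an element of the Hecke algebra. -/
theorem exists_coeffOp (hk : 1 ≤ k) (m : ℕ) (hm : 0 < m) :
    ∃ t ∈ nebAlgebra N k ε, ∀ f, qCoeffNeb N k ε m f = qCoeffNeb N k ε 1 (t f) := by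
  induction m using Nat.strong_induction_on with
  | _ m ih =>
    rcases Nat.lt_or_ge m 2 with h | h
    · obtain rfl : m = 1 := by omega
      exact ⟨1, one_mem _, fun f => rfl⟩
    obtain ⟨p, hp, l, rfl⟩ := Nat.exists_prime_and_dvd (show m ≠ 1 by omega)
    have hl : 0 < l := Nat.pos_of_ne_zero fun h0 => by simp [h0] at h
    have hlt : l < p * l := lt_mul_of_one_lt_left hl hp.one_lt
    obtain ⟨t, ht, htf⟩ := ih l hlt hl
    have hT : nebOp N k ε hp ∈ nebAlgebra N k ε :=
      Algebra.subset_adjoin (Or.inl ⟨p, hp, rfl⟩)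
    by_cases hpl : p ∣ l
    · obtain ⟨s, hs, hsf⟩ := ih (l / p) ((Nat.div_le_self l p).trans_lt hlt)
        (Nat.div_pos (Nat.le_of_dvd hl hpl) hp.pos)
      have he : (ε (p : ZMod N) • LinearMap.id : Module.End ℂ (nebSpace N k ε)) ∈ nebAlgebra N k ε :=
        Algebra.subset_adjoin (Or.inr ⟨_, rfl⟩)
      obtain ⟨j, hj⟩ : ∃ j : ℕ, k - 1 = j := ⟨(k - 1).toNat, by omega⟩
      refine ⟨t * nebOp N k ε hp - (ε (p : ZMod N) • LinearMap.id) * (((p ^ j : ℕ) : Module.End ℂ (nebSpace N k ε)) * s),
        sub_mem (mul_mem ht hT) (mul_mem he (mul_mem (natCast_mem _ _) hs)), fun f => ?_⟩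
      simp only [LinearMap.sub_apply, Module.End.mul_apply, LinearMap.smul_apply,
        LinearMap.id_apply, map_sub, map_smul, Module.End.natCast_apply, map_nsmul]
      rw [← htf, ← hsf, qCoeffNeb_nebOp, if_pos hpl, hj, zpow_natCast, mul_comm l p]
      simp
      ring
    · refine ⟨t * nebOp N k ε hp, mul_mem ht hT, fun f => ?_⟩
      rw [Module.End.mul_apply, ← htf, qCoeffNeb_nebOp, if_neg hpl, mul_zero, add_zero,
        mul_comm l p]

/-- The coefficients of a form of weight `≥ 2` with nebentypus lie in a finitely generated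
subgroup of `ℂ`. -/
theorem exists_fg_qCoeff_mem (n : ℕ) (f : nebSpace N ((n : ℤ) + 2) ε) :
    ∃ A : Submodule ℤ ℂ, A.FG ∧ ∀ m, qCoeffNeb N ((n : ℤ) + 2) ε m f ∈ A := by
  haveI := moduleFinite_nebAlgebra N ε n
  let φ : nebAlgebra N ((n : ℤ) + 2) ε →ₗ[ℤ] ℂ :=
    { toFun := fun t => qCoeffNeb N ((n : ℤ) + 2) ε 1
          ((t : Module.End ℂ (nebSpace N ((n : ℤ) + 2) ε)) f)
      map_add' := fun t s => by simp
      map_smul' := fun r t => by simp }
  refine ⟨LinearMap.range φ, by rw [← Submodule.map_top]; exact Module.Finite.fg_top.map φ,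
    fun m => ?_⟩
  rcases Nat.eq_zero_or_pos m with rfl | hm
  · rw [qCoeffNeb_apply, qCoeff, CuspFormClass.qExpansion_coeff_zero
      (Subtype.val f) one_pos (one_mem_strictPeriods_Gamma1 N)]
    exact zero_mem _
  · obtain ⟨t, ht, htf⟩ := exists_coeffOp N ((n : ℤ) + 2) ε (by omega) m hm
    exact ⟨⟨t, ht⟩, (htf f).symm⟩

end Fermat.Agent.DeligneSerre
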