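import Fermat.Agent.DeligneSerre.EllipticVanishing
import Fermat.Agent.DeligneSerre.NebFinite

/-!
# A weight one Hecke eigenform has nebentypus

If the coefficients of a cusp form of weight one on `Γ₁(N)` satisfy the Hecke relations with the
character `ε` at the primes not dividing `N`, then the form transforms by `ε` under `Γ₀(N)`.
-/

set_option autoImplicit false

noncomputable section

open UpperHalfPlane CongruenceSubgroup ModularFormClass
open scoped MatrixGroups ModularForm Manifold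

namespace Fermat.Agent.DeligneSerre

variable {N : ℕ}

theorem slash_eq_of_mem_Gamma1 {k : ℤ} (f : CuspForm (Gamma1 N) k) {γ : SL(2, ℤ)}
    (hγ : γ ∈ Gamma1 N) : ⇑f ∣[k] (γ : GL (Fin 2) ℝ) = ⇑f :=
  SlashInvariantFormClass.slash_action_eq f _ (Subgroup.mem_map_of_mem _ hγ)

/-- Elements of `Γ₀(N)` with the same lower right entry mod `N` act equally on forms on `Γ₁(N)`. -/
theorem slash_eq_of_lowerRight_eq {k : ℤ} (f : CuspForm (Gamma1 N) k) {γ γ' : SL(2, ℤ)}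
    (hγ : γ ∈ Gamma0 N) (hγ' : γ' ∈ Gamma0 N)
    (h : ((γ 1 1 : ℤ) : ZMod N) = (γ' 1 1 : ℤ)) :
    ⇑f ∣[k] (γ : GL (Fin 2) ℝ) = ⇑f ∣[k] (γ' : GL (Fin 2) ℝ) := by
  have hmem : γ * γ'⁻¹ ∈ Gamma1 N := by
    have hc : ((γ 1 0 : ℤ) : ZMod N) = 0 := Gamma0_mem.mp hγ
    have hc' : ((γ' 1 0 : ℤ) : ZMod N) = 0 := Gamma0_mem.mp hγ'
    have hd := congrArg (Int.cast : ℤ → ZMod N) γ.det_coe
    have hd' := congrArg (Int.cast : ℤ → ZMod N) γ'.det_coe
    rw [Matrix.det_fin_two] at hd hd'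
    push_cast at hd hd'
    rw [hc, mul_zero, sub_zero] at hd
    rw [hc', mul_zero, sub_zero] at hd'
    rw [Gamma1_mem]
    have hi : ((γ'⁻¹ : SL(2, ℤ)) : Matrix (Fin 2) (Fin 2) ℤ) =
        !![γ' 1 1, -γ' 0 1; -γ' 1 0, γ' 0 0] := by
      rw [Matrix.SpecialLinearGroup.coe_inv, Matrix.adjugate_fin_two]
    refine ⟨?_, ?_, ?_⟩ <;>
      rw [Matrix.SpecialLinearGroup.coe_mul, hi] <;>
      simp [Matrix.mul_apply, Fin.sum_univ_two, hc, hc']
    · rw [← h]; exact hd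
    · rw [h, mul_comm]; exact hd'
  have := slash_eq_of_mem_Gamma1 f hmem
  calc ⇑f ∣[k] (γ : GL (Fin 2) ℝ)
      = (⇑f ∣[k] ((γ * γ'⁻¹ : SL(2, ℤ)) : GL (Fin 2) ℝ)) ∣[k] (γ' : GL (Fin 2) ℝ) := by
        rw [← SlashAction.slash_mul, ← map_mul, ← map_mul, inv_mul_cancel_right]
    _ = _ := by rw [this]

variable [NeZero N]

theorem slash_periodic {k : ℤ} (f : CuspForm (Gamma1 N) k) {σ : SL(2, ℤ)} (hσ : σ ∈ Gamma0 N) :
    (⇑f ∣[k] (σ : GL (Fin 2) ℝ)) ∣[k] ((ModularGroup.T : SL(2, ℤ)) : GL (Fin 2) ℝ) =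
      ⇑f ∣[k] (σ : GL (Fin 2) ℝ) := by
  rw [← SlashAction.slash_mul, ← map_mul, ← map_mul]
  refine slash_eq_of_lowerRight_eq f (mul_mem hσ ?_) hσ ?_
  · simp [Gamma0_mem, ModularGroup.coe_T]
  · have hc : ((σ 1 0 : ℤ) : ZMod N) = 0 := Gamma0_mem.mp hσ
    simp [Matrix.mul_apply, Fin.sum_univ_two, ModularGroup.coe_T, hc]

/-- `σ` for `(p 0; 0 1)`, and `1` for `(1 j; 0 p)`. -/
def lowerTwist (p : ℕ) (σ : SL(2, ℤ)) : Option (Fin p) → SL(2, ℤ) :=
  fun x => x.elim σ fun _ => 1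

/-- The Hecke operator `T_p` on `Γ₁(N)` applied to `f`, in terms of `σ ∈ Γ₀(N)` with lower right
entry `≡ p`, is invariant under `(1 0; N 1)`. -/
theorem heckeGamma1_slash_lower {k : ℤ} (f : CuspForm (Gamma1 N) k) {p : ℕ} [hp : Fact p.Prime]
    (hpN : ¬ p ∣ N) {σ : SL(2, ℤ)} (hσ : σ ∈ Gamma0 N) (hσp : ((σ 1 1 : ℤ) : ZMod N) = p)
    (γ : SL(2, ℤ)) (hγ : γ ∈ Gamma1 N) :
    (∑ x : Option (Fin p), ((⇑f ∣[k] (lowerTwist p σ x : GL (Fin 2) ℝ)) ∣[k] rep p x))
        ∣[k] (γ : GL (Fin 2) ℝ) =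
      ∑ x : Option (Fin p), ((⇑f ∣[k] (lowerTwist p σ x : GL (Fin 2) ℝ)) ∣[k] rep p x) := by
  have hdet : ∀ x, (repInt p x * (γ : Matrix (Fin 2) (Fin 2) ℤ)).det = p := fun x => by
    rw [Matrix.det_mul, det_repInt, γ.det_coe, mul_one]
  choose g e he using fun x => exists_eq_mul_repInt _ (hdet x)
  have hinj : Function.Injective e := by
    intro x y hxy
    refine repInt_eq_of_mul_eq (g := g x * (g y)⁻¹) ?_
    have hy : repInt p y * γ = (g y : Matrix (Fin 2) (Fin 2) ℤ) * repInt p (e x) := by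
      rw [hxy]; exact he y
    have : repInt p x * γ =
        ((g x * (g y)⁻¹ : SL(2, ℤ)) : Matrix (Fin 2) (Fin 2) ℤ) * (repInt p y * γ) := by
      rw [hy, ← Matrix.mul_assoc, ← Matrix.SpecialLinearGroup.coe_mul, inv_mul_cancel_right]
      exact he x
    rw [← Matrix.mul_assoc] at this
    calc repInt p x = repInt p x * γ * ((γ⁻¹ : SL(2, ℤ)) : Matrix (Fin 2) (Fin 2) ℤ) := by
          rw [Matrix.mul_assoc, ← Matrix.SpecialLinearGroup.coe_mul, mul_inv_cancel,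
            Matrix.SpecialLinearGroup.coe_one, mul_one]
      _ = _ := by
          rw [this, Matrix.mul_assoc _ (γ : Matrix (Fin 2) (Fin 2) ℤ),
            ← Matrix.SpecialLinearGroup.coe_mul, mul_inv_cancel,
            Matrix.SpecialLinearGroup.coe_one, mul_one]
  rw [SlashAction.sum_slash]
  refine Eq.trans (Finset.sum_congr rfl fun x _ => ?_)
    (Equiv.sum_comp (Equiv.ofBijective e hinj.bijective_of_finite)
      (fun x => (⇑f ∣[k] (lowerTwist p σ x : GL (Fin 2) ℝ)) ∣[k] rep p x))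
  simp only [Equiv.ofBijective_apply]
  have hmat : rep p x * (γ : GL (Fin 2) ℝ) = (g x : GL (Fin 2) ℝ) * rep p (e x) := by
    apply Units.ext
    rw [Units.val_mul, Units.val_mul, rep_val, rep_val]
    show (repInt p x).map (Int.cast : ℤ → ℝ) * (γ : Matrix (Fin 2) (Fin 2) ℤ).map (Int.cast : ℤ → ℝ)
      = (g x : Matrix (Fin 2) (Fin 2) ℤ).map (Int.cast : ℤ → ℝ) *
        (repInt p (e x)).map (Int.cast : ℤ → ℝ)
    have := congrArg (fun M : Matrix (Fin 2) (Fin 2) ℤ => M.map (Int.castRingHom ℝ)) (he x)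
    rw [Matrix.map_mul, Matrix.map_mul] at this
    simpa using this
  obtain ⟨-, hd1, hc1⟩ := (Gamma1_mem N γ).mp hγ
  have hu : IsUnit ((p : ℕ) : ZMod N) := by
    rw [ZMod.isUnit_iff_coprime]
    exact hp.out.coprime_iff_not_dvd.mpr hpN
  have hu' : ∀ y : Option (Fin p), IsUnit ((repInt p y 0 0 : ℤ) : ZMod N) ∧
      IsUnit ((repInt p y 1 1 : ℤ) : ZMod N) := by
    intro y; cases y <;> simp [repInt, hu]
  have hτ : ∀ y, lowerTwist p σ y ∈ Gamma0 N ∧
      ((lowerTwist p σ y 1 1 : ℤ) : ZMod N) * ((repInt p y 1 1 : ℤ) : ZMod N) = p := by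
    intro y
    cases y <;> simp [lowerTwist, repInt, hσ, hσp, one_mem]
  have h10 := congrArg (Int.cast : ℤ → ZMod N) (congrFun (congrFun (he x) 1) 0)
  have h11 := congrArg (Int.cast : ℤ → ZMod N) (congrFun (congrFun (he x) 1) 1)
  simp only [Matrix.mul_apply, Fin.sum_univ_two, repInt_one_zero] at h10 h11
  push_cast at h10 h11
  rw [hc1, zero_mul, mul_zero, add_zero, mul_zero, add_zero] at h10
  have hg0 : ((g x 1 0 : ℤ) : ZMod N) = 0 := (hu' (e x)).1.mul_left_eq_zero.mp h10.symm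
  have hgN : g x ∈ Gamma0 N := Gamma0_mem.mpr hg0
  rw [hg0, zero_mul, zero_mul, zero_add, zero_add, hd1, mul_one] at h11
  rw [← SlashAction.slash_mul, hmat, SlashAction.slash_mul,
    ← SlashAction.slash_mul k (lowerTwist p σ x : GL (Fin 2) ℝ) (g x : GL (Fin 2) ℝ), ← map_mul,
    ← map_mul, slash_eq_of_lowerRight_eq f (mul_mem (hτ x).1 hgN) (hτ (e x)).1 ?_]
  apply (hu' (e x)).2.mul_right_cancel
  rw [(hτ (e x)).2]
  have hc := Gamma0_mem.mp (hτ x).1
  simp [Matrix.mul_apply, Fin.sum_univ_two]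
  rw [hc, zero_mul, zero_add, mul_assoc, ← h11]
  exact (hτ x).2

theorem periodic_of_slash_T {k : ℤ} {g : ℍ → ℂ}
    (h : g ∣[k] ((ModularGroup.T : SL(2, ℤ)) : GL (Fin 2) ℝ) = g) (τ : ℍ) :
    g ((1 : ℝ) +ᵥ τ) = g τ := by
  have := congrFun h τ
  rw [← ModularForm.SL_slash, ModularForm.SL_slash_apply] at this
  rw [← UpperHalfPlane.modular_T_smul]
  simpa [denom, ModularGroup.coe_T] using this

variable {ε : DirichletCharacter ℂ N}

/-- For a large prime `p`, `f ∣ σ = ε(p) f` when `σ ∈ Γ₀(N)` has lower right entry `≡ p`. -/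
theorem slash_eq_smul_of_large_prime (f : CuspForm (Gamma1 N) 1) {p : ℕ} (hp : p.Prime)
    (hN : N < p) {σ : SL(2, ℤ)} (hσ : σ ∈ Gamma0 N) (hσp : ((σ 1 1 : ℤ) : ZMod N) = p)
    (a : ℂ) (hT : ∀ n : ℕ, qCoeff f (p * n) +
      ε (p : ZMod N) * (if p ∣ n then qCoeff f (n / p) else 0) = a * qCoeff f n) :
    ⇑f ∣[(1 : ℤ)] (σ : GL (Fin 2) ℝ) = ε (p : ZMod N) • ⇑f := by
  haveI : Fact p.Prime := ⟨hp⟩
  have hpN : ¬ p ∣ N := fun h => by
    have := Nat.le_of_dvd (Nat.pos_of_ne_zero (NeZero.ne N)) h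
    omega
  have hΓ := one_mem_strictPeriods_Gamma1 N
  haveI : Fact (IsCusp OnePoint.infty (Gamma1 N : Subgroup (GL (Fin 2) ℝ))) :=
    ⟨Subgroup.isCusp_of_mem_strictPeriods one_pos hΓ⟩
  -- the eigen equation as an equality of functions
  have heig : nebHecke 1 ε p ⇑f = a • ⇑f := by
    have hper := SlashInvariantFormClass.periodic_comp_ofComplex f hΓ
    have hhol := ModularFormClass.holo f
    have hbdd := ModularFormClass.bdd_at_infty f
    have e : nebHecke 1 ε p ⇑f = ε (p : ZMod N) • ModularForm.heckeT 1 p ⇑f +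
        (1 - ε (p : ZMod N)) • ModularForm.heckeU 1 p ⇑f := by
      rw [nebHecke, ModularForm.heckeT]
      module
    have hperN : Function.Periodic (nebHecke 1 ε p ⇑f ∘ ofComplex) 1 := by
      intro z
      have h1 := ModularForm.periodic_heckeT_comp_ofComplex hper 1 p z
      have h2 := ModularForm.periodic_heckeU_comp_ofComplex hper 1 p z
      simp only [Function.comp_apply] at h1 h2
      simp [e, h1, h2]
    have m1 : MDiff (ε (p : ZMod N) • ModularForm.heckeT 1 p ⇑f) :=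
      (ModularForm.mdifferentiable_heckeT hhol 1 p).const_smul _
    have m2 : MDiff ((1 - ε (p : ZMod N)) • ModularForm.heckeU 1 p ⇑f) :=
      (ModularForm.mdifferentiable_heckeU hhol 1 p).const_smul _
    have b1 : IsBoundedAtImInfty (ε (p : ZMod N) • ModularForm.heckeT 1 p ⇑f) :=
      Filter.BoundedAtFilter.smul _ (ModularForm.isBoundedAtImInfty_heckeT hbdd 1 p)
    have b2 : IsBoundedAtImInfty ((1 - ε (p : ZMod N)) • ModularForm.heckeU 1 p ⇑f) :=
      Filter.BoundedAtFilter.smul _ (ModularForm.isBoundedAtImInfty_heckeU hbdd 1 p)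
    refine UpperHalfPlane.eq_of_forall_qCoeff_eq hperN
      (by rw [e]; exact m1.add m2)
      (by rw [e]; exact b1.add b2)
      (fun z => by
        have hz := hper z
        simp only [Function.comp_apply, Pi.smul_apply, Complex.ofReal_one] at hz ⊢
        rw [hz])
      (hhol.const_smul a) (Filter.BoundedAtFilter.smul a hbdd) ?_
    intro n
    rw [qCoeff_nebHecke f hp.ne_zero]
    have hr : qCoeff (a • ⇑f) n = a * qCoeff f n := by
      simp only [qCoeff, ModularForm.qExpansion_smul one_pos hΓ a f, PowerSeries.coeff_smul,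
        smul_eq_mul]
    rw [hr, ← hT n, mul_comm n p]
    simp
  set g : ℍ → ℂ := ⇑f ∣[(1 : ℤ)] (σ : GL (Fin 2) ℝ) - ε (p : ZMod N) • ⇑f with hg
  set D : GL (Fin 2) ℝ := ModularForm.heckeDiagMatrix p with hD
  set h : ℍ → ℂ := g ∣[(1 : ℤ)] D with hh
  suffices h = 0 by
    have hg0 : g = 0 := by
      have := congrArg (fun F : ℍ → ℂ => F ∣[(1 : ℤ)] D⁻¹) this
      simpa [h, ← SlashAction.slash_mul] using this
    exact sub_eq_zero.mp hg0
  set L : SL(2, ℤ) := ⟨!![1, 0; (N : ℤ), 1], by simp [Matrix.det_fin_two]⟩ with hL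
  have hLmem : L ∈ Gamma1 N := by
    rw [Gamma1_mem]; simp [L]
  -- `h = T_p f - a f`
  have hsum : ∑ x : Option (Fin p), ((⇑f ∣[(1 : ℤ)] (lowerTwist p σ x : GL (Fin 2) ℝ)) ∣[(1 : ℤ)]
      rep p x) = (⇑f ∣[(1 : ℤ)] (σ : GL (Fin 2) ℝ)) ∣[(1 : ℤ)] D + ModularForm.heckeU 1 p ⇑f := by
    rw [Fintype.sum_option]
    congr 1
    simp only [ModularForm.heckeU_def, rep, lowerTwist, Option.elim_some, map_one,
      SlashAction.slash_one]
    exact Fin.sum_univ_eq_sum_range (fun j => ⇑f ∣[(1 : ℤ)] ModularForm.heckeMatrix p j) p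
  have hh' : h = (∑ x : Option (Fin p), ((⇑f ∣[(1 : ℤ)] (lowerTwist p σ x : GL (Fin 2) ℝ)) ∣[(1 : ℤ)]
      rep p x)) + (-a) • ⇑f := by
    rw [hsum, _root_.neg_smul, ← heig, nebHecke, hh, hg, sub_eq_add_neg, SlashAction.add_slash,
      SlashAction.neg_slash, ModularForm.smul_slash, hD, ModularForm.σ_heckeDiagMatrix,
      ContinuousAlgEquiv.refl_apply]
    abel
  have hhL : h ∣[(1 : ℤ)] (L : GL (Fin 2) ℝ) = h := by
    rw [hh', SlashAction.add_slash, ModularForm.smul_slash, UpperHalfPlane.σ, if_pos (by simp),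
      ContinuousAlgEquiv.refl_apply, heckeGamma1_slash_lower f hpN hσ hσp L hLmem,
      slash_eq_of_mem_Gamma1 f hLmem]
  -- `h` is invariant under translation by `-1/p`
  set Ti : SL(2, ℤ) := ModularGroup.T⁻¹ with hTi
  have hgT : g ∣[(1 : ℤ)] (Ti : GL (Fin 2) ℝ) = g := by
    have h1 : g ∣[(1 : ℤ)] ((ModularGroup.T : SL(2, ℤ)) : GL (Fin 2) ℝ) = g := by
      rw [hg, sub_eq_add_neg, SlashAction.add_slash, SlashAction.neg_slash, ModularForm.smul_slash,
        UpperHalfPlane.σ, if_pos (by simp), ContinuousAlgEquiv.refl_apply, slash_periodic f hσ,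
        slash_eq_of_mem_Gamma1 f (γ := ModularGroup.T) (by rw [Gamma1_mem]; simp [ModularGroup.coe_T])]
    calc g ∣[(1 : ℤ)] (Ti : GL (Fin 2) ℝ)
        = (g ∣[(1 : ℤ)] ((ModularGroup.T : SL(2, ℤ)) : GL (Fin 2) ℝ)) ∣[(1 : ℤ)]
            (Ti : GL (Fin 2) ℝ) := by rw [h1]
      _ = g := by rw [← SlashAction.slash_mul, ← map_mul, ← map_mul, hTi, mul_inv_cancel]; simp
  set W : GL (Fin 2) ℝ := D⁻¹ * (Ti : GL (Fin 2) ℝ) * D with hW
  have hhW : h ∣[(1 : ℤ)] W = h := by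
    rw [hh, hW, ← SlashAction.slash_mul, ← mul_assoc, mul_inv_cancel_left, SlashAction.slash_mul,
      hgT]
  have hp0 : (p : ℝ) ≠ 0 := by exact_mod_cast hp.ne_zero
  have hWval : (W : Matrix (Fin 2) (Fin 2) ℝ) = !![1, -(p : ℝ)⁻¹; 0, 1] := by
    have hDW : (D : Matrix (Fin 2) (Fin 2) ℝ) * W = ((Ti : GL (Fin 2) ℝ) : Matrix (Fin 2) (Fin 2) ℝ) * D := by
      rw [← Units.val_mul, ← Units.val_mul, hW, ← mul_assoc, mul_inv_cancel_left]
    have hW' : (D : Matrix (Fin 2) (Fin 2) ℝ) * !![1, -(p : ℝ)⁻¹; 0, 1] =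
        ((Ti : GL (Fin 2) ℝ) : Matrix (Fin 2) (Fin 2) ℝ) * D := by
      have hTval : ((Ti : GL (Fin 2) ℝ) : Matrix (Fin 2) (Fin 2) ℝ) = !![1, -1; 0, 1] := by
        show (Ti : Matrix (Fin 2) (Fin 2) ℤ).map (Int.cast : ℤ → ℝ) = _
        rw [hTi, ModularGroup.coe_T_inv]
        ext i j
        fin_cases i <;> fin_cases j <;> simp
      rw [hTval, hD, ModularForm.val_heckeDiagMatrix hp.ne_zero]
      ext i j
      fin_cases i <;> fin_cases j <;>
        simp [Matrix.mul_apply, Fin.sum_univ_two, hp0]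
    exact D.isUnit.mul_left_cancel (hDW.trans hW'.symm)
  set E : GL (Fin 2) ℝ := W * (L : GL (Fin 2) ℝ) with hE
  have hhE : h ∣[(1 : ℤ)] E = h := by rw [hE, SlashAction.slash_mul, hhW, hhL]
  have hEval : (E : Matrix (Fin 2) (Fin 2) ℝ) =
      !![1 - (N : ℝ) / p, -(p : ℝ)⁻¹; (N : ℝ), 1] := by
    have hLval : ((L : GL (Fin 2) ℝ) : Matrix (Fin 2) (Fin 2) ℝ) = !![1, 0; (N : ℝ), 1] := by
      show (L : Matrix (Fin 2) (Fin 2) ℤ).map (Int.cast : ℤ → ℝ) = _
      ext i j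
      fin_cases i <;> fin_cases j <;> simp [L]
    rw [hE, Units.val_mul, hWval, hLval]
    ext i j
    fin_cases i <;> fin_cases j <;> simp [Matrix.mul_apply, Fin.sum_univ_two]
    ring
  have hN0 : (0 : ℝ) < N := by exact_mod_cast Nat.pos_of_ne_zero (NeZero.ne N)
  have hlt : (N : ℝ) / p < 1 := by
    rw [div_lt_one (by exact_mod_cast hp.pos)]; exact_mod_cast hN
  refine eq_zero_of_slash_elliptic (t := 2 - (N : ℚ) / p) ?_ E ?_ ?_ ?_ ?_ ?_ hhE
  · have hhol := ModularFormClass.holo f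
    exact (((hhol.slash 1 _).sub (hhol.const_smul _))).slash 1 _
  · rw [Matrix.GeneralLinearGroup.val_det_apply, hEval, Matrix.det_fin_two_of]
    field_simp
    ring
  · rw [hEval]; simpa using hN0
  · rw [hEval]; simp; ring
  · push_cast
    rw [abs_lt]
    constructor <;> nlinarith [div_pos hN0 (show (0 : ℝ) < p by exact_mod_cast hp.pos)]
  · intro n hn
    have hpos : (0 : ℚ) < (N : ℚ) / p :=
      div_pos (by exact_mod_cast Nat.pos_of_ne_zero (NeZero.ne N)) (by exact_mod_cast hp.pos)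
    have hlt' : (N : ℚ) / p < 1 := by
      rw [div_lt_one (by exact_mod_cast hp.pos)]; exact_mod_cast hN
    have h1 : ((1 : ℤ) : ℚ) < n := by push_cast; linarith
    have h2 : (n : ℚ) < ((2 : ℤ) : ℚ) := by push_cast; linarith
    have := Int.cast_lt.mp h1
    have := Int.cast_lt.mp h2
    omega

/-- A weight one cusp form on `Γ₁(N)` whose coefficients satisfy the Hecke relations with
character `ε` has nebentypus `ε`. -/
theorem hasNeb_of_hecke_relations (f : CuspForm (Gamma1 N) 1)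
    (hT : ∀ p : ℕ, p.Prime → ¬ p ∣ N → ∀ n : ℕ, qCoeff f (p * n) +
      ε (p : ZMod N) * (if p ∣ n then qCoeff f (n / p) else 0) = qCoeff f p * qCoeff f n) :
    HasNeb 1 ε ⇑f := by
  intro γ hγ
  have hu : IsUnit ((γ 1 1 : ℤ) : ZMod N) := by
    have hd := congrArg (Int.cast : ℤ → ZMod N) γ.det_coe
    rw [Matrix.det_fin_two] at hd
    push_cast at hd
    rw [Gamma0_mem.mp hγ, mul_zero, sub_zero] at hd
    exact IsUnit.of_mul_eq_one_right _ hd
  obtain ⟨p, hpN, hp, hpγ⟩ := Nat.forall_exists_prime_gt_and_eq_mod hu N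
  rw [slash_eq_smul_of_large_prime f hp hpN hγ hpγ.symm (qCoeff f p)
    (hT p hp fun h => (Nat.le_of_dvd (Nat.pos_of_ne_zero (NeZero.ne N)) h).not_gt hpN), hpγ]

end Fermat.Agent.DeligneSerre
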