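import Fermat.Agent.DeligneSerre.Periods.Hecke
import Fermat.Prelude.Def_GaloisRep_Residual
import Fermat.Prelude.Def_Deformations_MatrixRepresentation
import Mathlib.RingTheory.Valuation.ValuationSubring

/-!
# Team DS: the definitions shared by the parts of the Deligne–Serre construction

`A` is always a valuation subring of `ℂ` with a prime `ℓ` among its nonunits; congruences "mod `λ`"
are congruences modulo `A.nonunits`, and `IsLocalRing.ResidueField A` is the coefficient field.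
-/

set_option autoImplicit false

noncomputable section

open CongruenceSubgroup
open scoped MatrixGroups

namespace Fermat.Agent.DeligneSerre

local notation "Γℚ" => (AlgebraicClosure ℚ ≃ₐ[ℚ] AlgebraicClosure ℚ)

/-- The hypotheses of `S48` on a weight one form. -/
def IsWeightOneEigen {N : ℕ} (ε : DirichletCharacter ℂ N) (f : CuspForm (Gamma1 N) 1) : Prop :=
  ModularFormClass.qCoeff f 1 = 1 ∧
    ∀ p : ℕ, p.Prime → ¬ p ∣ N → ∀ n : ℕ,
      ModularFormClass.qCoeff f (p * n) +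
          ε (p : ZMod N) * (if p ∣ n then ModularFormClass.qCoeff f (n / p) else 0) =
        ModularFormClass.qCoeff f p * ModularFormClass.qCoeff f n

/-- `g` is an eigenform modulo the maximal ideal of `A`: integral coefficients, one of them a
unit, and `T_p g ≡ a p • g` for the primes `p ∤ M`. -/
def IsModEigenform (A : ValuationSubring ℂ) {M : ℕ} [NeZero M] (ψ : DirichletCharacter ℂ M)
    (g : nebSpace M 2 ψ) (a : ℕ → ℂ) : Prop :=
  (∀ n, ModularFormClass.qCoeff (g : CuspForm (Gamma1 M) 2) n ∈ A) ∧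
  (∃ n, ModularFormClass.qCoeff (g : CuspForm (Gamma1 M) 2) n ∉ A.nonunits) ∧
  ∀ (p : ℕ) (hp : p.Prime), ¬ p ∣ M → a p ∈ A ∧ ∀ n,
    ModularFormClass.qCoeff (nebOp M 2 ψ hp g : CuspForm (Gamma1 M) 2) n -
      a p * ModularFormClass.qCoeff (g : CuspForm (Gamma1 M) 2) n ∈ A.nonunits

/-- The eigensystem `(a, χ)` occurs in the cuspidal cohomology of `Γ₁(M)` with values in `k`. -/
def OccursIn (M : ℕ) (k : Type*) [Field k] (a : ℕ → k) (χ : ZMod M → k) : Prop :=
  ∃ φ ∈ Periods.cuspidalHoms k (Gamma1 M) k, φ ≠ 0 ∧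
    (∀ (p : ℕ) (hp : p.Prime) (hpM : p.Coprime M),
      (haveI : Fact p.Prime := ⟨hp⟩; heckeHom1 hpM k k φ) = a p • φ) ∧
    ∀ δ : Gamma0 M, diamondHom k k δ φ = χ (((δ : SL(2, ℤ)) 1 1 : ℤ) : ZMod M) • φ

/-- Irreducible, or diagonal. -/
def IsSplitOrIrreducible {k : Type} [Field k] (ρ : Γℚ →* GL (Fin 2) k) : Prop :=
  (∀ v : Fin 2 → k, v ≠ 0 → ∃ σ : Γℚ, ∀ c : k,
      ((ρ σ : GL (Fin 2) k) : Matrix (Fin 2) (Fin 2) k).mulVec v ≠ c • v) ∨
    ∀ σ : Γℚ, ((ρ σ : GL (Fin 2) k) : Matrix (Fin 2) (Fin 2) k).IsDiag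

/-- `ρ` is unramified outside `M` with Frobenius trace `a p` and determinant `d p`. -/
def IsAttached {k : Type} [Field k] (ρ : Γℚ →* GL (Fin 2) k) (M : ℕ) (a d : ℕ → k) : Prop :=
  GaloisFactorsThroughFiniteLevel ρ ∧
    ∀ p : ℕ, p.Prime → ¬ p ∣ M →
      ∀ A : ValuationSubring (AlgebraicClosure ℚ), A.LiesOverPrime p →
        (∀ σ ∈ A.inertiaSubgroupIn ℚ, ρ σ = 1) ∧
        ∀ σ : Γℚ, A.IsFrobeniusAt σ p →
          ((ρ σ : GL (Fin 2) k) : Matrix (Fin 2) (Fin 2) k).trace = a p ∧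
          ((ρ σ : GL (Fin 2) k) : Matrix (Fin 2) (Fin 2) k).det = d p

/-- The set `X` of primes has upper density at most `η`. -/
def PrimesDensityLE (X : Set ℕ) (η : ℝ) : Prop :=
  ∃ C : ℝ, ∀ s : ℝ, 1 < s → s ≤ 2 → ∀ P : Finset ℕ, (∀ p ∈ P, p.Prime ∧ p ∈ X) →
    ∑ p ∈ P, (p : ℝ) ^ (-s) ≤ η * Real.log (1 / (s - 1)) + C

end Fermat.Agent.DeligneSerre
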