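import Mathlib.RepresentationTheory.Irreducible
import Mathlib.LinearAlgebra.Matrix.ToLinearEquiv
import Mathlib.NumberTheory.ArithmeticFunction.Moebius
import Mathlib.Analysis.Asymptotics.Lemmas
import Fermat.Prelude.Def_GaloisRep_Residual
import Fermat.Prelude.Def_Deformations_MatrixRepresentation
import Fermat.Agent.Density.FrobeniusDensity
import Fermat.Agent.DeligneSerre.Rankin.Conjugation

/-!
# Irreducibility from the Rankin bound

A two-dimensional Artin representation whose Frobenius traces, and all their Galois conjugates,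
satisfy `∑ |a_p|² p^{-s} ≤ log (1/(s-1)) + O(1)` is irreducible: for a reducible one the average
over conjugates grows like `2 log (1/(s-1))` by the ideal-count asymptotics alone.
-/

set_option autoImplicit false

noncomputable section

open Filter Topology Asymptotics
open scoped Classical ComplexConjugate

namespace Fermat.Agent.DeligneSerre

local notation "ℚ̄" => AlgebraicClosure ℚ
local notation "Γℚ" => (AlgebraicClosure ℚ ≃ₐ[ℚ] AlgebraicClosure ℚ)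

local instance : Algebra.IsAlgebraic ℚ ℚ̄ := AlgebraicClosure.isAlgebraic ℚ

local instance : IsAlgClosure ℚ ℚ̄ := ⟨inferInstance, inferInstance⟩

local instance : Normal ℚ ℚ̄ := IsAlgClosure.normal ℚ ℚ̄

private lemma tendsto_log_pole :
    Tendsto (fun s : ℝ ↦ Real.log (1 / (s - 1))) (𝓝[>] 1) atTop := by
  refine Real.tendsto_log_atTop.comp ?_
  have h : Tendsto (fun s : ℝ ↦ s - 1) (𝓝[>] 1) (𝓝[>] 0) := by
    refine tendsto_nhdsWithin_of_tendsto_nhds_of_eventually_within _ ?_ ?_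
    · exact ((continuous_sub_right (1 : ℝ)).tendsto' 1 0 (sub_self 1)).mono_left
        nhdsWithin_le_nhds
    · filter_upwards [self_mem_nhdsWithin] with s hs
      exact sub_pos.mpr (Set.mem_Ioi.mp hs)
  simpa [one_div, Function.comp_def] using tendsto_inv_nhdsGT_zero.comp h

/-- The primes whose Frobenius lies in a normal subgroup have density `|H| / |G|`. -/
private lemma isBigO_prime_sum_mem {G : Type*} [Group G] [Finite G] {H : Subgroup G} [H.Normal]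
    (h : Nat.Primes → G) (U : Finset Nat.Primes) (cnt : Nat.Primes → ℕ)
    (hcnt : ∀ ℓ ∉ U, cnt ℓ * Nat.card H = Nat.card {a : G // a * h ℓ * a⁻¹ ∈ H})
    (hasymp : ∃ C : ℝ, ∀ᶠ s in 𝓝[>] (1 : ℝ),
      Summable (fun ℓ : Nat.Primes ↦ (cnt ℓ : ℝ) * (ℓ : ℝ) ^ (-s)) ∧
      |(∑' ℓ : Nat.Primes, (cnt ℓ : ℝ) * (ℓ : ℝ) ^ (-s)) - Real.log (1 / (s - 1))| ≤ C) :
    (fun s : ℝ ↦ (∑' ℓ : Nat.Primes, (if ℓ ∉ U ∧ h ℓ ∈ H then (ℓ : ℝ) ^ (-s) else 0)) -
        (Nat.card H : ℝ) / Nat.card G * Real.log (1 / (s - 1))) =O[𝓝[>] 1] fun _ ↦ (1 : ℝ) := by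
  obtain ⟨C, hC⟩ := hasymp
  have hG : (0 : ℝ) < Nat.card G := by exact_mod_cast Nat.card_pos
  set c : ℝ := (Nat.card H : ℝ) / Nat.card G with hc
  refine IsBigO.of_bound (c * C + ∑ ℓ ∈ U, c * cnt ℓ) ?_
  filter_upwards [hC, self_mem_nhdsWithin] with s ⟨hsum, hle⟩ hs
  rw [norm_one, mul_one, Real.norm_eq_abs]
  have heq : ∀ ℓ : Nat.Primes, (if ℓ ∉ U ∧ h ℓ ∈ H then (ℓ : ℝ) ^ (-s) else 0) =
      c * ((cnt ℓ : ℝ) * (ℓ : ℝ) ^ (-s)) -
        (if ℓ ∈ U then c * ((cnt ℓ : ℝ) * (ℓ : ℝ) ^ (-s)) else 0) := by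
    intro ℓ
    by_cases hU : ℓ ∈ U
    · simp [hU]
    have hk : Nat.card {a : G // a * h ℓ * a⁻¹ ∈ H} = if h ℓ ∈ H then Nat.card G else 0 := by
      split_ifs with hm
      · exact Nat.card_congr (Equiv.subtypeUnivEquiv fun a ↦
          Subgroup.Normal.conj_mem inferInstance _ hm a)
      · have : IsEmpty {a : G // a * h ℓ * a⁻¹ ∈ H} := ⟨fun ⟨a, ha⟩ ↦ hm (by
          have := Subgroup.Normal.conj_mem inferInstance _ ha a⁻¹
          simpa [mul_assoc] using this)⟩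
        exact Nat.card_of_isEmpty
    have hcn : c * (cnt ℓ : ℝ) = if h ℓ ∈ H then 1 else 0 := by
      rw [hc, div_mul_eq_mul_div, mul_comm, ← Nat.cast_mul, hcnt ℓ hU, hk]
      split_ifs <;> simp [hG.ne']
    rw [if_neg hU, sub_zero, ← mul_assoc, hcn]
    simp only [hU, not_false_eq_true, true_and, ite_mul, one_mul, zero_mul]
  rw [tsum_congr heq, (hsum.mul_left c).tsum_sub (summable_of_ne_finset_zero (s := U) fun ℓ hℓ ↦
      if_neg hℓ), tsum_mul_left, tsum_eq_sum (s := U) fun ℓ hℓ ↦ if_neg hℓ,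
    Finset.sum_congr rfl fun ℓ hℓ ↦ if_pos hℓ]
  have hc0 : 0 ≤ c := by positivity
  have h1 : ∀ ℓ ∈ U, c * ((cnt ℓ : ℝ) * (ℓ : ℝ) ^ (-s)) ≤ c * cnt ℓ := fun ℓ _ ↦
    mul_le_mul_of_nonneg_left (mul_le_of_le_one_right (Nat.cast_nonneg _)
      (Real.rpow_le_one_of_one_le_of_nonpos (by exact_mod_cast ℓ.2.one_le)
        (by linarith [Set.mem_Ioi.mp hs]))) hc0
  have h2 : 0 ≤ ∑ ℓ ∈ U, c * ((cnt ℓ : ℝ) * (ℓ : ℝ) ^ (-s)) :=
    Finset.sum_nonneg fun ℓ _ ↦ by positivity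
  obtain ⟨hl, hr⟩ := abs_le.mp hle
  have hl' := mul_le_mul_of_nonneg_left hl hc0
  have hr' := mul_le_mul_of_nonneg_left hr hc0
  have h3 := Finset.sum_le_sum h1
  rw [abs_le]
  constructor <;> linarith

private lemma tsum_const_add_sum {ι κ : Type*} {f : ι → ℝ} {g : κ → ι → ℝ} (D : Finset κ) (c : ℝ)
    (μ : κ → ℝ) (hf : Summable f) (hg : ∀ d ∈ D, Summable (g d)) :
    ∑' x, (c * f x + 2 * ∑ d ∈ D, μ d * g d x) =
      c * (∑' x, f x) + 2 * ∑ d ∈ D, μ d * ∑' x, g d x := by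
  have hsd : ∀ d ∈ D, Summable fun x ↦ μ d * g d x := fun d hd ↦ (hg d hd).mul_left _
  rw [Summable.tsum_add (hf.mul_left _) ((summable_sum hsd).mul_left _), tsum_mul_left,
    tsum_mul_left, Summable.tsum_finsetSum hsd]
  exact congrArg _ (congrArg _ (Finset.sum_congr rfl fun d _ ↦ tsum_mul_left))

/-- The residues prime to `M`. -/
private def unitsBelow (M : ℕ) : Finset ℕ := (Finset.range M).filter (·.Coprime M)

private lemma sum_moebius {g : ℕ} (hg : g ≠ 0) :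
    ∑ d ∈ g.divisors, (ArithmeticFunction.moebius d : ℂ) = if g = 1 then 1 else 0 := by
  have h := DFunLike.congr_fun (ArithmeticFunction.moebius_mul_coe_zeta) g
  rw [ArithmeticFunction.coe_mul_zeta_apply, ArithmeticFunction.one_apply] at h
  exact_mod_cast congrArg (Int.cast : ℤ → ℂ) h

/-- A Ramanujan sum in terms of the divisors. -/
private lemma sum_pow_unitsBelow {M : ℕ} (hM : 0 < M) {z : ℂ} (hz : z ^ M = 1) :
    ∑ i ∈ unitsBelow M, z ^ i =
      ∑ d ∈ M.divisors, (ArithmeticFunction.moebius d : ℂ) *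
        (if z ^ d = 1 then ((M / d : ℕ) : ℂ) else 0) := by
  calc ∑ i ∈ unitsBelow M, z ^ i
      = ∑ i ∈ Finset.range M, ∑ d ∈ M.divisors,
          (if d ∣ i then (ArithmeticFunction.moebius d : ℂ) * z ^ i else 0) := by
        rw [unitsBelow, Finset.sum_filter]
        refine Finset.sum_congr rfl fun i _ ↦ ?_
        have hdiv : M.divisors.filter (· ∣ i) = (i.gcd M).divisors := by
          ext d
          simp only [Finset.mem_filter, Nat.mem_divisors, ne_eq, Nat.dvd_gcd_iff,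
            Nat.gcd_eq_zero_iff, hM.ne', and_false, not_false_eq_true, and_true]
          tauto
        rw [← Finset.sum_filter, hdiv, ← Finset.sum_mul,
          sum_moebius (Nat.gcd_pos_of_pos_right i hM).ne']
        simp [Nat.coprime_iff_gcd_eq_one]
    _ = ∑ d ∈ M.divisors, (ArithmeticFunction.moebius d : ℂ) *
          ∑ j ∈ Finset.range (M / d), (z ^ d) ^ j := by
        rw [Finset.sum_comm]
        refine Finset.sum_congr rfl fun d hd ↦ ?_
        have hd0 : 0 < d := Nat.pos_of_mem_divisors hd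
        rw [← Finset.sum_filter, ← Finset.mul_sum]
        congr 1
        refine Finset.sum_nbij' (· / d) (d * ·) ?_ ?_ ?_ ?_ ?_
        · intro i hi
          obtain ⟨hi1, hi2⟩ := Finset.mem_filter.mp hi
          exact Finset.mem_range.mpr
            (Nat.div_lt_div_of_lt_of_dvd (Nat.dvd_of_mem_divisors hd) (Finset.mem_range.mp hi1))
        · intro j hj
          refine Finset.mem_filter.mpr ⟨Finset.mem_range.mpr ?_, dvd_mul_right d j⟩
          calc d * j < d * (M / d) := mul_lt_mul_of_pos_left (Finset.mem_range.mp hj) hd0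
            _ = M := Nat.mul_div_cancel' (Nat.dvd_of_mem_divisors hd)
        · intro i hi
          exact Nat.mul_div_cancel' (Finset.mem_filter.mp hi).2
        · intro j _
          exact Nat.mul_div_cancel_left j hd0
        · intro i hi
          rw [← pow_mul, Nat.mul_div_cancel' (Finset.mem_filter.mp hi).2]
    _ = _ := by
        refine Finset.sum_congr rfl fun d hd ↦ ?_
        congr 1
        split_ifs with h1
        · simp [h1]
        · rw [geom_sum_eq h1, ← pow_mul, Nat.mul_div_cancel' (Nat.dvd_of_mem_divisors hd), hz,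
            sub_self, zero_div]

private lemma sum_char_re_nonneg {G : Type*} [Group G] [Fintype G] (ψ : G →* ℂˣ) :
    0 ≤ (∑ g : G, (ψ g : ℂ)).re := by
  by_cases h : ∀ g, ψ g = 1
  · simp [h]
  push Not at h
  obtain ⟨a, ha⟩ := h
  have key : (ψ a : ℂ) * ∑ g : G, (ψ g : ℂ) = ∑ g : G, (ψ g : ℂ) := by
    rw [Finset.mul_sum]
    exact Fintype.sum_equiv (Equiv.mulLeft a) _ _ fun g ↦ by simp
  have : ∑ g : G, (ψ g : ℂ) = 0 := by
    by_contra h0
    exact ha (Units.ext (mul_eq_right₀ h0 |>.mp key))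
  simp [this]

/-- A pair of characters whose conjugate sums all satisfy the bound cannot exist. -/
private lemma false_of_char_bound {G : Type*} [Group G] [Finite G] (ψ₁ ψ₂ : G →* ℂˣ)
    (h : Nat.Primes → G) (U : Finset Nat.Primes)
    (hdens : ∀ H : Subgroup G, H.Normal →
      (fun s : ℝ ↦ (∑' ℓ : Nat.Primes, (if ℓ ∉ U ∧ h ℓ ∈ H then (ℓ : ℝ) ^ (-s) else 0)) -
        (Nat.card H : ℝ) / Nat.card G * Real.log (1 / (s - 1))) =O[𝓝[>] 1] fun _ ↦ (1 : ℝ))
    (hbound : ∀ i ∈ unitsBelow (Nat.card G), ∃ C : ℝ, ∀ᶠ s in 𝓝[>] (1 : ℝ),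
      ∀ P : Finset Nat.Primes, Disjoint P U →
        ∑ ℓ ∈ P, ‖(ψ₁ (h ℓ) : ℂ) ^ i + (ψ₂ (h ℓ) : ℂ) ^ i‖ ^ 2 * (ℓ : ℝ) ^ (-s) ≤
          Real.log (1 / (s - 1)) + C) : False := by
  have := Fintype.ofFinite G
  set M := Nat.card G with hMdef
  have hM : 0 < M := Nat.card_pos
  have hpow : ∀ (ψ : G →* ℂˣ) (g : G), (ψ g : ℂ) ^ M = 1 := fun ψ g ↦ by
    rw [← Units.val_pow_eq_pow_val, ← map_pow, hMdef, pow_card_eq_one', map_one, Units.val_one]
  have hnorm : ∀ (ψ : G →* ℂˣ) (g : G), ‖(ψ g : ℂ)‖ = 1 := fun ψ g ↦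
    Complex.norm_eq_one_of_pow_eq_one (hpow ψ g) hM.ne'
  set χ : G →* ℂˣ := ψ₁ / ψ₂ with hχ
  set φ : ℝ := ((unitsBelow M).card : ℝ) with hφdef
  set H : ℕ → Subgroup G := fun d ↦ (χ ^ d).ker
  have hmem : ∀ (d : ℕ) (g : G), g ∈ H d ↔ (χ g : ℂ) ^ d = 1 := fun d g ↦ by
    simp only [H, MonoidHom.mem_ker, MonoidHom.pow_apply, ← Units.val_eq_one,
      Units.val_pow_eq_pow_val]
  -- the averaged function
  set F : G → ℝ := fun g ↦
    ∑ i ∈ unitsBelow M, ‖(ψ₁ g : ℂ) ^ i + (ψ₂ g : ℂ) ^ i‖ ^ 2 with hFdef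
  have hF1 : ∀ g, F g = 2 * φ + 2 * (∑ i ∈ unitsBelow M, (χ g : ℂ) ^ i).re := by
    intro g
    rw [hFdef, Complex.re_sum, hφdef, Finset.mul_sum, Finset.card_eq_sum_ones, Nat.cast_sum,
      Finset.mul_sum, ← Finset.sum_add_distrib]
    refine Finset.sum_congr rfl fun i _ ↦ ?_
    set x := (ψ₁ g : ℂ) ^ i
    set y := (ψ₂ g : ℂ) ^ i
    have hx : ‖x‖ = 1 := by simp [x, hnorm]
    have hy : ‖y‖ = 1 := by simp [y, hnorm]
    have hxy : (χ g : ℂ) ^ i = x * conj y := by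
      rw [hχ, MonoidHom.div_apply, Units.val_div_eq_div_val, div_pow, div_eq_mul_inv,
        Complex.inv_eq_conj hy]
    rw [hxy, Complex.sq_norm, Complex.normSq_add]
    simp [Complex.normSq_eq_norm_sq, hx, hy]
    norm_num
  have hF2 : ∀ g, F g = 2 * φ + 2 * ∑ d ∈ M.divisors, (ArithmeticFunction.moebius d : ℝ) *
      ((M / d : ℕ) : ℝ) * (if g ∈ H d then 1 else 0) := by
    intro g
    rw [hF1, sum_pow_unitsBelow hM (hpow χ g), Complex.re_sum]
    congr 2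
    refine Finset.sum_congr rfl fun d _ ↦ ?_
    simp only [hmem]
    split_ifs <;> simp [Complex.mul_re]
  -- the mean is at least `2φ`
  have hmean : 2 * φ * M ≤ 2 * φ * M + 2 * ∑ d ∈ M.divisors, (ArithmeticFunction.moebius d : ℝ) *
      ((M / d : ℕ) : ℝ) * (Nat.card (H d) : ℝ) := by
    have h1 : ∑ g : G, F g = 2 * φ * M + 2 * ∑ d ∈ M.divisors,
        (ArithmeticFunction.moebius d : ℝ) * ((M / d : ℕ) : ℝ) * (Nat.card (H d) : ℝ) := by
      simp only [hF2, Finset.sum_add_distrib, ← Finset.mul_sum]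
      rw [Finset.sum_const, Finset.card_univ, nsmul_eq_mul, hMdef, Nat.card_eq_fintype_card,
        Finset.sum_comm]
      simp only [← Finset.mul_sum, Finset.sum_boole]
      congr 1
      · ring
      · congr 1
        refine Finset.sum_congr rfl fun d _ ↦ ?_
        rw [Nat.card_eq_fintype_card, Fintype.card_subtype, Finset.sum_boole]
    have h3 : ∑ g : G, F g = 2 * φ * M + 2 * (∑ i ∈ unitsBelow M, ∑ g : G, (χ g : ℂ) ^ i).re := by
      rw [Finset.sum_congr rfl fun g _ ↦ hF1 g, Finset.sum_add_distrib, Finset.sum_const,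
        Finset.card_univ, nsmul_eq_mul, ← Finset.mul_sum, ← Complex.re_sum, Finset.sum_comm, hMdef,
        Nat.card_eq_fintype_card]
      ring
    have h2 : 0 ≤ (∑ i ∈ unitsBelow M, ∑ g : G, (χ g : ℂ) ^ i).re := by
      rw [Complex.re_sum]
      exact Finset.sum_nonneg fun i _ ↦ by simpa using sum_char_re_nonneg (χ ^ i)
    linarith
  -- asymptotics of the averaged sum
  set T : ℝ → ℝ := fun s ↦
    ∑' ℓ : Nat.Primes, (if ℓ ∉ U then F (h ℓ) * (ℓ : ℝ) ^ (-s) else 0) with hTdef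
  set L : ℝ → ℝ := fun s ↦ Real.log (1 / (s - 1))
  set μ' : ℕ → ℝ := fun d ↦ (ArithmeticFunction.moebius d : ℝ) * ((M / d : ℕ) : ℝ)
  have hind : ∀ (A : Subgroup G) (s : ℝ), 1 < s →
      Summable fun ℓ : Nat.Primes ↦ (if ℓ ∉ U ∧ h ℓ ∈ A then (ℓ : ℝ) ^ (-s) else 0) :=
    fun A s hs ↦ (Nat.Primes.summable_rpow.mpr (neg_lt_neg hs)).of_nonneg_of_le
      (fun ℓ ↦ by split_ifs <;> positivity) (fun ℓ ↦ by split_ifs; exacts [le_rfl, by positivity])
  have hasT : (fun s ↦ T s - (2 * φ + 2 * ∑ d ∈ M.divisors, μ' d *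
      ((Nat.card (H d) : ℝ) / Nat.card G)) * L s) =O[𝓝[>] 1] fun _ ↦ (1 : ℝ) := by
    have key := ((hdens ⊤ inferInstance).const_mul_left (2 * φ)).add
      ((IsBigO.fun_sum (s := M.divisors) fun d _ ↦
        (hdens (H d) inferInstance).const_mul_left (μ' d)).const_mul_left 2)
    refine key.congr' ?_ .rfl
    filter_upwards [self_mem_nhdsWithin] with s hs
    have hs' : 1 < s := hs
    have hT' : T s = 2 * φ *
        (∑' ℓ : Nat.Primes, (if ℓ ∉ U ∧ h ℓ ∈ (⊤ : Subgroup G) then (ℓ : ℝ) ^ (-s) else 0)) +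
        2 * ∑ d ∈ M.divisors, μ' d *
          ∑' ℓ : Nat.Primes, (if ℓ ∉ U ∧ h ℓ ∈ H d then (ℓ : ℝ) ^ (-s) else 0) := by
      have hpt : T s = ∑' ℓ : Nat.Primes,
          (2 * φ * (if ℓ ∉ U ∧ h ℓ ∈ (⊤ : Subgroup G) then (ℓ : ℝ) ^ (-s) else 0) +
            2 * ∑ d ∈ M.divisors, μ' d * (if ℓ ∉ U ∧ h ℓ ∈ H d then (ℓ : ℝ) ^ (-s) else 0)) := by
        refine tsum_congr fun ℓ ↦ ?_
        by_cases hℓ : ℓ ∈ U
        · simp [hℓ]
        · simp only [hℓ, not_false_eq_true, if_true, true_and, Subgroup.mem_top, hF2, add_mul,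
            mul_assoc, Finset.sum_mul, μ']
          refine congrArg₂ (· + ·) rfl (congrArg _ (Finset.sum_congr rfl fun d _ ↦ ?_))
          split_ifs <;> simp
      rw [hpt]
      exact tsum_const_add_sum M.divisors (2 * φ) μ' (hind ⊤ s hs') fun d _ ↦ by
        convert hind (H d) s hs'
    have hG : (Nat.card (⊤ : Subgroup G) : ℝ) / Nat.card G = 1 := by
      rw [Subgroup.card_top, div_self (by exact_mod_cast hM.ne')]
    have e : ∀ B : ℕ → ℝ, ∑ d ∈ M.divisors, μ' d * (B d -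
        (Nat.card (H d) : ℝ) / Nat.card G * L s) = (∑ d ∈ M.divisors, μ' d * B d) -
        (∑ d ∈ M.divisors, μ' d * ((Nat.card (H d) : ℝ) / Nat.card G)) * L s := fun B ↦ by
      rw [Finset.sum_mul, ← Finset.sum_sub_distrib]
      exact Finset.sum_congr rfl fun d _ ↦ by ring
    rw [hT', hG, e]
    simp only [L]
    generalize ∑ d ∈ M.divisors, μ' d * ((Nat.card (H d) : ℝ) / Nat.card G) = Sc
    ring
  -- the upper bound
  choose! C hC using hbound
  have hupper : ∀ᶠ s in 𝓝[>] (1 : ℝ), T s ≤ φ * L s + ∑ i ∈ unitsBelow M, C i := by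
    filter_upwards [(Finset.eventually_all (unitsBelow M)).mpr hC, self_mem_nhdsWithin] with s hs hs1
    refine Summable.tsum_le_of_sum_le ?_ fun P ↦ ?_
    · refine (summable_sum (s := unitsBelow M) fun i _ ↦
        ((Nat.Primes.summable_rpow.mpr (neg_lt_neg hs1.out)).mul_left 4)).of_nonneg_of_le
        (fun ℓ ↦ by split_ifs <;> positivity) fun ℓ ↦ ?_
      split_ifs
      · exact Finset.sum_nonneg fun i _ ↦ by positivity
      · rw [show F (h ℓ) = ∑ i ∈ unitsBelow M, ‖(ψ₁ (h ℓ) : ℂ) ^ i + (ψ₂ (h ℓ) : ℂ) ^ i‖ ^ 2 from rfl,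
          Finset.sum_mul]
        refine Finset.sum_le_sum fun i _ ↦ mul_le_mul_of_nonneg_right ?_ (by positivity)
        have := norm_add_le ((ψ₁ (h ℓ) : ℂ) ^ i) ((ψ₂ (h ℓ) : ℂ) ^ i)
        rw [norm_pow, norm_pow, hnorm, hnorm, one_pow] at this
        nlinarith [norm_nonneg ((ψ₁ (h ℓ) : ℂ) ^ i + (ψ₂ (h ℓ) : ℂ) ^ i)]
    · rw [← Finset.sum_filter]
      simp only [F, Finset.sum_mul]
      rw [Finset.sum_comm]
      refine (Finset.sum_le_sum fun i hi ↦ hs i hi (P.filter (· ∉ U)) ?_).trans (le_of_eq ?_)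
      · exact Finset.disjoint_left.mpr fun ℓ hℓ ↦ (Finset.mem_filter.mp hℓ).2
      · simp [Finset.sum_add_distrib, hφdef, L]
  obtain ⟨B, hB⟩ := hasT.bound
  have hφ : 0 < φ := by
    rw [hφdef, Nat.cast_pos, Finset.card_pos]
    rcases eq_or_lt_of_le (show 1 ≤ M from hM) with h1 | h1
    · exact ⟨0, by simp [unitsBelow, ← h1]⟩
    · exact ⟨1, by simp [unitsBelow, h1]⟩
  have hmean' : 2 * φ ≤ 2 * φ + 2 * ∑ d ∈ M.divisors, μ' d *
      ((Nat.card (H d) : ℝ) / Nat.card G) := by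
    have : 0 ≤ ∑ d ∈ M.divisors, μ' d * ((Nat.card (H d) : ℝ) / Nat.card G) := by
      simp only [← mul_div_assoc, ← Finset.sum_div, μ']
      exact div_nonneg (by linarith) (Nat.cast_nonneg _)
    linarith
  obtain ⟨s, ⟨hsB, hsU⟩, hsL⟩ := ((hB.and hupper).and
    ((tendsto_log_pole.const_mul_atTop hφ).eventually_gt_atTop
      (max (B + ∑ i ∈ unitsBelow M, C i) 0))).exists
  rw [norm_one, mul_one, Real.norm_eq_abs, abs_le] at hsB
  have hL0 : 0 < L s := (pos_iff_pos_of_mul_pos (lt_of_le_of_lt (le_max_right _ _) hsL)).mp hφ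
  have := mul_le_mul_of_nonneg_right hmean' hL0.le
  have := le_max_left (B + ∑ i ∈ unitsBelow M, C i) 0
  simp only [L] at *
  linarith [hsB.1]

/-- A proper nonzero invariant subspace gives two characters with sum the trace. -/
private lemma exists_chars {G : Type*} [Group G] (ρ : G →* GL (Fin 2) ℂ)
    (W : Submodule ℂ (Fin 2 → ℂ)) (hW : ∀ g, ∀ x ∈ W, (ρ g).val.mulVec x ∈ W) (h0 : W ≠ ⊥)
    (h1 : W ≠ ⊤) :
    ∃ χ₁ χ₂ : G →* ℂˣ, (∀ g, ρ g = 1 → χ₁ g = 1 ∧ χ₂ g = 1) ∧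
      ∀ g, (ρ g).val.trace = (χ₁ g : ℂ) + (χ₂ g : ℂ) := by
  obtain ⟨v, hv, hv0⟩ := Submodule.exists_mem_ne_zero_of_ne_bot h0
  have hWv : W = ℂ ∙ v := by
    refine (Submodule.eq_of_le_of_finrank_le ((Submodule.span_singleton_le_iff_mem _ _).mpr hv)
      ?_).symm
    rw [finrank_span_singleton hv0]
    have := Submodule.finrank_lt (lt_top_iff_ne_top.mpr h1).ne
    simp only [Module.finrank_fin_fun] at this
    omega
  have hev : ∀ g, ∃ c : ℂ, c • v = (ρ g).val.mulVec v := fun g ↦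
    Submodule.mem_span_singleton.mp (hWv ▸ hW g v hv)
  choose c hc using hev
  have huniq : ∀ a b : ℂ, a • v = b • v → a = b := fun a b hab ↦
    smul_left_injective ℂ hv0 hab
  let χ : G →* ℂ :=
    { toFun := c
      map_one' := huniq _ _ (by rw [hc, map_one, one_smul, Units.val_one, Matrix.one_mulVec])
      map_mul' := fun g g' ↦ huniq _ _ (by
        rw [hc, map_mul, Units.val_mul, ← Matrix.mulVec_mulVec, ← hc g', Matrix.mulVec_smul,
          ← hc g, smul_smul, mul_comm]) }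
  let χ₁ : G →* ℂˣ := χ.toHomUnits
  let χ₂ : G →* ℂˣ := Matrix.GeneralLinearGroup.det.comp ρ / χ₁
  refine ⟨χ₁, χ₂, fun g hg ↦ ?_, fun g ↦ ?_⟩
  · have : χ₁ g = 1 := Units.ext (huniq _ _ (by
      show c g • v = (1 : ℂ) • v
      rw [hc, hg, one_smul, Units.val_one, Matrix.one_mulVec]))
    exact ⟨this, by simp [χ₂, this, hg]⟩
  · have hne : c g ≠ 0 := (χ₁ g).ne_zero
    have hdet : ((ρ g).val - c g • 1).det = 0 := by
      refine Matrix.exists_mulVec_eq_zero_iff.mp ⟨v, hv0, ?_⟩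
      rw [Matrix.sub_mulVec, Matrix.smul_mulVec, Matrix.one_mulVec, ← hc g, sub_self]
    show (ρ g).val.trace = c g + (χ₂ g : ℂ)
    have hχ₂ : (χ₂ g : ℂ) = (ρ g).val.det / c g := by
      simp [χ₂, χ₁, χ, Units.val_div_eq_div_val]
    rw [hχ₂, Matrix.trace_fin_two, Matrix.det_fin_two]
    rw [Matrix.det_fin_two] at hdet
    simp only [Matrix.sub_apply, Matrix.smul_apply, Matrix.one_apply_eq, smul_eq_mul, mul_one,
      Matrix.one_apply_ne (show (0 : Fin 2) ≠ 1 by decide),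
      Matrix.one_apply_ne (show (1 : Fin 2) ≠ 0 by decide), mul_zero, sub_zero] at hdet
    field_simp
    linear_combination -hdet

/-- **Irreducibility from the Rankin bound for all conjugates.** -/
theorem isIrreducible_of_prime_sum_le (ρ : Γℚ →* GL (Fin 2) ℂ)
    (hρ : GaloisFactorsThroughFiniteLevel ρ) (S : Finset ℕ) (a : ℕ → ℂ)
    (htr : ∀ p : ℕ, p.Prime → p ∉ S → ∀ A : ValuationSubring ℚ̄, A.LiesOverPrime p →
      ∀ σ : Γℚ, A.IsFrobeniusAt σ p →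
        ((ρ σ : GL (Fin 2) ℂ) : Matrix (Fin 2) (Fin 2) ℂ).trace = a p)
    (hbound : ∀ τ : ℂ ≃+* ℂ, ∃ C : ℝ, ∀ s : ℝ, 1 < s → s ≤ 2 → ∀ P : Finset ℕ,
      (∀ p ∈ P, p.Prime ∧ p ∉ S) →
        ∑ p ∈ P, ‖τ (a p)‖ ^ 2 * (p : ℝ) ^ (-s) ≤ Real.log (1 / (s - 1)) + C) :
    (Deformation.matrixRepresentation ρ).IsIrreducible := by
  have : Nontrivial (Subrepresentation (Deformation.matrixRepresentation ρ)) :=
    ⟨⊥, ⊤, fun h ↦ (bot_ne_top : (⊥ : Submodule ℂ (Fin 2 → ℂ)) ≠ ⊤)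
      (congrArg Subrepresentation.toSubmodule h)⟩
  refine ⟨fun R ↦ ?_⟩
  by_contra hR
  push Not at hR
  obtain ⟨χ₁, χ₂, hker, hsum⟩ := exists_chars ρ R.toSubmodule
    (fun g x hx ↦ by simpa using R.apply_mem_toSubmodule g hx)
    (fun h ↦ hR.1 (Subrepresentation.toSubmodule_injective h))
    (fun h ↦ hR.2 (Subrepresentation.toSubmodule_injective h))
  obtain ⟨L, hL, hLρ⟩ := hρ
  let K : IntermediateField ℚ ℚ̄ := IntermediateField.normalClosure ℚ L ℚ̄
  have : Normal ℚ K := normalClosure.normal ℚ L ℚ̄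
  have : FiniteDimensional ℚ K := normalClosure.is_finiteDimensional ℚ L ℚ̄
  set r := AlgEquiv.restrictNormalHom (F := ℚ) (K₁ := ℚ̄) K
  have hr : Function.Surjective r := AlgEquiv.restrictNormalHom_surjective ℚ̄
  have hkerK : ∀ σ ∈ r.ker, ρ σ = 1 := fun σ hσ ↦ hLρ σ fun x hx ↦ by
    have hxK : x ∈ K := IntermediateField.le_normalClosure L hx
    have := AlgEquiv.restrictNormal_commutes σ K ⟨x, hxK⟩
    rw [show AlgEquiv.restrictNormal σ K = 1 from hσ] at this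
    exact this.symm
  let ψ₁ := MonoidHom.liftOfSurjective r hr ⟨χ₁, fun σ hσ ↦ (hker σ (hkerK σ hσ)).1⟩
  let ψ₂ := MonoidHom.liftOfSurjective r hr ⟨χ₂, fun σ hσ ↦ (hker σ (hkerK σ hσ)).2⟩
  have hψ₁ : ∀ σ, ψ₁ (r σ) = χ₁ σ := fun σ ↦ MonoidHom.liftOfRightInverse_comp_apply _ _ _ _ σ
  have hψ₂ : ∀ σ, ψ₂ (r σ) = χ₂ σ := fun σ ↦ MonoidHom.liftOfRightInverse_comp_apply _ _ _ _ σ
  obtain ⟨S₀, hS₀⟩ := Density.exists_splitting_frobenius K
  choose A σ hA hσ hin hcount using fun ℓ : {ℓ : ℕ // ℓ.Prime ∧ ℓ ∉ S₀} ↦ hS₀ ℓ.1 ℓ.2.1 ℓ.2.2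
  let h : Nat.Primes → (K ≃ₐ[ℚ] K) := fun ℓ ↦
    if hℓ : (ℓ : ℕ) ∈ S₀ then 1 else r (σ ⟨ℓ, ℓ.2, hℓ⟩)
  let U : Finset Nat.Primes := (S ∪ S₀).subtype Nat.Prime
  refine false_of_char_bound ψ₁ ψ₂ h U (fun H hH ↦ ?_) fun i hi ↦ ?_
  · refine isBigO_prime_sum_mem h U
      (fun ℓ ↦ Density.idealCount (IntermediateField.fixedField H) ℓ) (fun ℓ hℓ ↦ ?_)
      (Density.exists_abs_tsum_idealCount_sub_log_le _)
    have hℓ' : (ℓ : ℕ) ∉ S₀ := fun hm ↦
      hℓ (Finset.mem_subtype.mpr (Finset.mem_union_right S hm))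
    simp only [h, dif_neg hℓ']
    exact hcount ⟨ℓ, ℓ.2, hℓ'⟩ H
  · obtain ⟨hilt, hic⟩ := Finset.mem_filter.mp hi
    obtain ⟨τ, hτ⟩ := exists_ringEquiv_pow Nat.card_pos hic
    obtain ⟨C, hC⟩ := hbound τ
    refine ⟨C, ?_⟩
    filter_upwards [Ioo_mem_nhdsGT (show (1 : ℝ) < 2 by norm_num)] with s hs P hP
    have hP' : ∀ ℓ ∈ P, (ℓ : ℕ) ∉ S ∧ (ℓ : ℕ) ∉ S₀ := fun ℓ hℓ ↦ by
      exact ⟨fun hm ↦ Finset.disjoint_left.mp hP hℓ
          (Finset.mem_subtype.mpr (Finset.mem_union_left S₀ hm)),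
        fun hm ↦ Finset.disjoint_left.mp hP hℓ
          (Finset.mem_subtype.mpr (Finset.mem_union_right S hm))⟩
    have := hC s hs.1 hs.2.le (P.map ⟨Subtype.val, Subtype.val_injective⟩) fun p hp ↦ by
      obtain ⟨ℓ, hℓ, rfl⟩ := Finset.mem_map.mp hp
      exact ⟨ℓ.2, (hP' ℓ hℓ).1⟩
    erw [Finset.sum_map] at this
    refine le_of_eq_of_le (Finset.sum_congr rfl fun ℓ hℓ ↦ ?_) this
    obtain ⟨hℓS, hℓS₀⟩ := hP' ℓ hℓ
    have hpowψ : ∀ (ψ : (K ≃ₐ[ℚ] K) →* ℂˣ) g, τ (ψ g : ℂ) = (ψ g : ℂ) ^ i := fun ψ g ↦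
      hτ _ (by rw [← Units.val_pow_eq_pow_val, ← map_pow, pow_card_eq_one', map_one, Units.val_one])
    simp only [Function.Embedding.coeFn_mk, h, dif_neg hℓS₀]
    rw [← htr ℓ ℓ.2 hℓS _ (hA ⟨ℓ, ℓ.2, hℓS₀⟩) _ (hσ ⟨ℓ, ℓ.2, hℓS₀⟩), hsum, map_add, ← hψ₁, ← hψ₂,
      hpowψ ψ₁, hpowψ ψ₂]

end Fermat.Agent.DeligneSerre
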