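import Fermat.Agent.Galois.Frobenius
import Mathlib.LinearAlgebra.Matrix.Charpoly.Eigs
import Mathlib.LinearAlgebra.Matrix.Charpoly.Coeff
import Mathlib.Analysis.Complex.Polynomial.Basic
import Mathlib.RingTheory.RootsOfUnity.Complex
import Mathlib.FieldTheory.IsAlgClosed.Spectrum
import Mathlib.FieldTheory.Minpoly.IsIntegrallyClosed

/-!
# Elementary lemmas for the assembly of the Deligne–Serre argument
-/

set_option autoImplicit false

noncomputable section

open Polynomial

namespace Fermat.Agent.DeligneSerre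

/-- A nonzero algebraic integer is a unit at every place of large residue characteristic. -/
theorem exists_bound_notMem_nonunits {x : ℂ} (hx : IsIntegral ℤ x) (hx0 : x ≠ 0) :
    ∃ L₀ : ℕ, ∀ ℓ : ℕ, ℓ.Prime → L₀ < ℓ → ∀ A : ValuationSubring ℂ, (ℓ : ℂ) ∈ A.nonunits →
      x ∉ A.nonunits := by
  have h0 : (minpoly ℤ x).coeff 0 ≠ 0 := fun h => by
    apply minpoly.coeff_zero_ne_zero (hx.tower_top (A := ℚ)) hx0
    rw [minpoly.isIntegrallyClosed_eq_field_fractions' ℚ hx, coeff_map, h, map_zero]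
  refine ⟨((minpoly ℤ x).coeff 0).natAbs, fun ℓ hℓ hlt A hA hmem => ?_⟩
  have hxA := Galois.mem_valuationSubring_of_isIntegral_int A hx
  have h1 := minpoly.aeval ℤ x
  rw [← Polynomial.X_mul_divX_add (minpoly ℤ x), map_add, map_mul, aeval_X, aeval_C,
    algebraMap_int_eq, eq_intCast] at h1
  have h2 : aeval x (minpoly ℤ x).divX ∈ A := by
    rw [Polynomial.aeval_eq_sum_range]
    exact sum_mem fun i _ => zsmul_mem (pow_mem hxA i) _
  have h3 : (((minpoly ℤ x).coeff 0 : ℤ) : ℂ) ∈ A.nonunits := by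
    obtain ⟨hxA', hxm⟩ := ValuationSubring.mem_nonunits_iff_exists_mem_maximalIdeal.mp hmem
    refine ValuationSubring.mem_nonunits_iff_exists_mem_maximalIdeal.mpr
      ⟨intCast_mem A _, ?_⟩
    have e : (⟨((minpoly ℤ x).coeff 0 : ℤ), intCast_mem A _⟩ : A) =
        -(⟨x, hxA'⟩ * ⟨_, h2⟩) := by
      apply Subtype.ext
      show (((minpoly ℤ x).coeff 0 : ℤ) : ℂ) = -(x * _)
      linear_combination h1
    rw [e]
    exact neg_mem (Ideal.mul_mem_right _ _ hxm)
  have h4 : (ℓ : ℤ) ∣ (minpoly ℤ x).coeff 0 :=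
    (Galois.intCast_mem_nonunits_iff A hℓ hA _).mp h3
  have h5 := Int.natAbs_dvd_natAbs.mpr h4
  rw [Int.natAbs_natCast] at h5
  exact absurd (Nat.le_of_dvd (Int.natAbs_pos.mpr h0) h5) (by omega)

/-- Finitely many algebraic integers stay distinct at every place of large residue
characteristic. -/
theorem exists_bound_injOn (T : Finset ℂ) (hT : ∀ x ∈ T, IsIntegral ℤ x) :
    ∃ L₀ : ℕ, ∀ ℓ : ℕ, ℓ.Prime → L₀ < ℓ → ∀ A : ValuationSubring ℂ, (ℓ : ℂ) ∈ A.nonunits →
      ∀ x ∈ T, ∀ y ∈ T, x - y ∈ A.nonunits → x = y := by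
  classical
  have h : ∀ z ∈ T ×ˢ T, z.1 ≠ z.2 → ∃ L₀ : ℕ, ∀ ℓ : ℕ, ℓ.Prime → L₀ < ℓ →
      ∀ A : ValuationSubring ℂ, (ℓ : ℂ) ∈ A.nonunits → z.1 - z.2 ∉ A.nonunits := fun z hz hne =>
    exists_bound_notMem_nonunits ((hT _ (Finset.mem_product.mp hz).1).sub
      (hT _ (Finset.mem_product.mp hz).2)) (sub_ne_zero.mpr hne)
  choose L hL using h
  refine ⟨∑ z ∈ (T ×ˢ T).attach, if hne : z.1.1 ≠ z.1.2 then L z.1 z.2 hne else 0,
    fun ℓ hℓ hlt A hA x hx y hy hxy => by_contra fun hne => ?_⟩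
  have hz : (x, y) ∈ T ×ˢ T := Finset.mem_product.mpr ⟨hx, hy⟩
  refine hL (x, y) hz hne ℓ hℓ (lt_of_le_of_lt ?_ hlt) A hA hxy
  refine le_trans (le_of_eq (dif_pos hne).symm) (Finset.single_le_sum
    (f := fun z : {z // z ∈ T ×ˢ T} => if hne : z.1.1 ≠ z.1.2 then L z.1 z.2 hne else 0)
    (fun _ _ => Nat.zero_le _) (Finset.mem_attach _ ⟨(x, y), hz⟩))

theorem matrix_fin_two_mul_self {R : Type*} [CommRing R] (M : Matrix (Fin 2) (Fin 2) R) :
    M * M = M.trace • M - M.det • (1 : Matrix (Fin 2) (Fin 2) R) := by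
  ext i j
  fin_cases i <;> fin_cases j <;>
    simp [Matrix.mul_apply, Fin.sum_univ_two, Matrix.trace_fin_two, Matrix.det_fin_two] <;> ring

/-- Traces of powers depend only on trace and determinant. -/
theorem trace_pow_eq_of_eq {R : Type*} [CommRing R] {M M' : Matrix (Fin 2) (Fin 2) R}
    (ht : M.trace = M'.trace) (hd : M.det = M'.det) : ∀ n : ℕ, (M ^ n).trace = (M' ^ n).trace := by
  intro n
  induction n using Nat.twoStepInduction with
  | zero => simp
  | one => simpa using ht
  | more n ih1 ih2 =>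
    have key : ∀ A : Matrix (Fin 2) (Fin 2) R,
        (A ^ (n + 2)).trace = A.trace * (A ^ (n + 1)).trace - A.det * (A ^ n).trace := by
      intro A
      rw [pow_add, sq, matrix_fin_two_mul_self A, mul_sub, Matrix.mul_smul, Matrix.mul_smul, mul_one,
        ← pow_succ, Matrix.trace_sub, Matrix.trace_smul, Matrix.trace_smul, smul_eq_mul, smul_eq_mul]
    rw [key, key, ih1, ih2, ht, hd]

theorem two_mul_det_eq {R : Type*} [CommRing R] (M : Matrix (Fin 2) (Fin 2) R) :
    2 * M.det = M.trace ^ 2 - (M * M).trace := by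
  simp [Matrix.trace_fin_two, Matrix.det_fin_two, Matrix.mul_apply, Fin.sum_univ_two]
  ring

/-- Trace and determinant of a matrix of finite order. -/
theorem exists_roots_of_pow_eq_one {M : Matrix (Fin 2) (Fin 2) ℂ} {n : ℕ} (h : M ^ n = 1) :
    ∃ a b : ℂ, a ^ n = 1 ∧ b ^ n = 1 ∧ M.trace = a + b ∧ M.det = a * b := by
  have hcard : M.charpoly.roots.card = 2 := by
    rw [IsAlgClosed.card_roots_eq_natDegree, Matrix.charpoly_natDegree_eq_dim, Fintype.card_fin]
  obtain ⟨a, b, hab⟩ := Multiset.card_eq_two.mp hcard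
  have key : ∀ x ∈ M.charpoly.roots, x ^ n = 1 := by
    intro x hx
    have hs : x ∈ spectrum ℂ M :=
      Matrix.mem_spectrum_iff_isRoot_charpoly.mpr (isRoot_of_mem_roots hx)
    have := spectrum.pow_mem_pow M n hs
    rwa [h, spectrum.one_eq, Set.mem_singleton_iff] at this
  refine ⟨a, b, key a (by simp [hab]), key b (by simp [hab]), ?_, ?_⟩
  · rw [Matrix.trace_eq_sum_roots_charpoly, hab]; simp
  · rw [Matrix.det_eq_prod_roots_charpoly, hab]; simp

/-- A matrix of finite order and trace `2` is the identity. -/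
theorem eq_one_of_pow_eq_one_of_trace {M : Matrix (Fin 2) (Fin 2) ℂ} {n : ℕ} (hn : n ≠ 0)
    (h : M ^ n = 1) (ht : M.trace = 2) : M = 1 := by
  obtain ⟨a, b, ha, hb, hab, hdet⟩ := exists_roots_of_pow_eq_one h
  have ha' := Complex.norm_eq_one_of_pow_eq_one ha hn
  have hb' := Complex.norm_eq_one_of_pow_eq_one hb hn
  rw [ht] at hab
  have hre : a.re + b.re = 2 := by simpa using congrArg Complex.re hab.symm
  have ha1 := (Complex.re_le_norm a).trans_eq ha'
  have hb1 := (Complex.re_le_norm b).trans_eq hb'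
  have ha2 : a = 1 := by
    have hr : a.re = 1 := by linarith
    have := Complex.normSq_eq_norm_sq a
    rw [Complex.normSq_apply, ha', hr] at this
    exact Complex.ext (by simpa using hr) (by
      simp only [Complex.one_im]; nlinarith)
  have hb2 : b = 1 := by linear_combination -hab - ha2
  have hN : (M - 1) * (M - 1) = 0 := by
    rw [sub_mul, mul_sub, mul_sub, mul_one, one_mul, one_mul, matrix_fin_two_mul_self M, ht, hdet,
      ha2, hb2, mul_one, one_smul, two_smul]
    abel
  have hpow : ∀ m : ℕ, M ^ m = 1 + (m : ℂ) • (M - 1) := by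
    intro m
    induction m with
    | zero => simp
    | succ m ih =>
      have : M = 1 + (M - 1) := by abel
      rw [pow_succ, ih]
      conv_lhs => arg 2; rw [this]
      rw [add_mul, mul_add, mul_add, one_mul, one_mul, mul_one, smul_mul_assoc, hN, smul_zero,
        add_zero]
      push_cast
      rw [add_smul, one_smul]
      abel
  have := hpow n
  rw [h, left_eq_add, smul_eq_zero, or_iff_right (by exact_mod_cast hn), sub_eq_zero] at this
  exact this

end Fermat.Agent.DeligneSerre
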