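import Mathlib.NumberTheory.EulerProduct.Basic
import Mathlib.NumberTheory.DirichletCharacter.Bounds
import Mathlib.Analysis.SpecialFunctions.Pow.Real
import Mathlib.Analysis.PSeries
import Mathlib.Analysis.Convex.SpecificFunctions.Basic
import Mathlib.NumberTheory.ModularForms.CongruenceSubgroups
import Fermat.Agent.DeligneSerre.Rankin.CoeffBound
import Fermat.Agent.DeligneSerre.Rankin.EulerFactor

/-!
# The Rankin bound for weight one eigenforms

`∑_{p ∤ N} |a_p|² p^{-s} ≤ log (1/(s-1)) + O(1)` as `s → 1⁺` (Deligne–Serre, Proposition 5.1).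
-/

set_option autoImplicit false

noncomputable section

open Filter Topology
open scoped MatrixGroups

namespace Fermat.Agent.DeligneSerre

/-- The Hecke relations at good primes for a sequence of coefficients. -/
structure IsHeckeSeq (N : ℕ) (e : ℕ → ℂ) (a : ℕ → ℂ) : Prop where
  one : a 1 = 1
  norm_e : ∀ p : ℕ, p.Prime → ¬ p ∣ N → ‖e p‖ = 1
  rel : ∀ p : ℕ, p.Prime → ¬ p ∣ N → ∀ n : ℕ,
    a (p * n) + e p * (if p ∣ n then a (n / p) else 0) = a p * a n

namespace IsHeckeSeq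

variable {N : ℕ} {e a : ℕ → ℂ}

/-- Multiplicativity. -/
lemma map_mul (h : IsHeckeSeq N e a) : ∀ m n : ℕ, m.Coprime n → m.Coprime N →
    a (m * n) = a m * a n := by
  intro m
  induction m using Nat.strong_induction_on with
  | _ m ih =>
    intro n hmn hmN
    rcases Nat.eq_zero_or_pos m with rfl | hm
    · rw [Nat.coprime_zero_left] at hmn hmN
      subst hmn
      simp [h.one]
    rcases eq_or_ne m 1 with rfl | hm1
    · simp [h.one]
    obtain ⟨p, hp, m', rfl⟩ := Nat.exists_prime_and_dvd hm1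
    have hm'0 : 0 < m' := Nat.pos_of_mul_pos_left hm
    have hlt : m' < p * m' := lt_mul_left hm'0 hp.one_lt
    have hpN : ¬ p ∣ N := hp.coprime_iff_not_dvd.mp (Nat.Coprime.coprime_mul_right hmN)
    have hpn : ¬ p ∣ n := hp.coprime_iff_not_dvd.mp (Nat.Coprime.coprime_mul_right hmn)
    have hm'n : m'.Coprime n := Nat.Coprime.coprime_mul_left hmn
    have hm'N : m'.Coprime N := Nat.Coprime.coprime_mul_left hmN
    have e1 := h.rel p hp hpN (m' * n)
    have e2 := h.rel p hp hpN m'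
    have e3 := ih m' hlt n hm'n hm'N
    rw [mul_assoc]
    by_cases hd : p ∣ m'
    · obtain ⟨m'', rfl⟩ := hd
      have hlt' : m'' < p * (p * m'') := lt_of_le_of_lt
        (Nat.le_mul_of_pos_left m'' hp.pos) hlt
      have e4 := ih m'' hlt' n (Nat.Coprime.coprime_mul_left hm'n) (Nat.Coprime.coprime_mul_left hm'N)
      rw [if_pos (dvd_mul_of_dvd_left (dvd_mul_right p m'') n), mul_assoc p m'' n,
        Nat.mul_div_cancel_left _ hp.pos, e4] at e1
      rw [if_pos (dvd_mul_right p m''), Nat.mul_div_cancel_left _ hp.pos] at e2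
      rw [mul_assoc p m'' n] at e3
      rw [e3] at e1
      rw [mul_assoc p m'' n]
      linear_combination e1 - a n * e2
    · rw [if_neg (fun hpd ↦ (hp.dvd_mul.mp hpd).elim hd hpn), mul_zero, add_zero, e3] at e1
      rw [if_neg hd, mul_zero, add_zero] at e2
      rw [e1, e2, mul_assoc]

lemma map_prime_pow (h : IsHeckeSeq N e a) {p : ℕ} (hp : p.Prime) (hpN : ¬ p ∣ N) (r : ℕ) :
    a (p ^ (r + 2)) = a p * a (p ^ (r + 1)) - e p * a (p ^ r) := by
  have := h.rel p hp hpN (p ^ (r + 1))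
  rw [if_pos (dvd_pow_self p r.succ_ne_zero), pow_succ p r, Nat.mul_div_cancel _ hp.pos] at this
  rw [pow_succ' p (r + 1), pow_succ p r]
  linear_combination this

end IsHeckeSeq

/-- Dyadic bound for a Dirichlet series with linearly bounded partial sums. -/
lemma sum_mul_rpow_le {b : ℕ → ℝ} (hb : ∀ n, 0 ≤ b n) {C : ℝ} (hC : 0 ≤ C)
    (hsum : ∀ M : ℕ, ∑ n ∈ Finset.range M, b n ≤ C * M) {s : ℝ} (hs : 1 < s) (hs2 : s ≤ 2)
    (T : Finset ℕ) : ∑ n ∈ T.filter (0 < ·), b n * (n : ℝ) ^ (-s) ≤ 4 * C / (s - 1) := by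
  set q : ℝ := (2 : ℝ) ^ (-(s - 1)) with hq
  have hq0 : 0 < q := by positivity
  have hq1 : q ≤ 1 - (s - 1) / 2 := by
    have h := rpow_one_add_le_one_add_mul_self (s := (-1 / 2 : ℝ)) (p := s - 1) (by norm_num)
      (by linarith) (by linarith)
    rw [hq, Real.rpow_neg two_pos.le, ← Real.inv_rpow two_pos.le]
    norm_num at h ⊢
    linarith
  set U := T.filter (0 < ·)
  set J := U.image (Nat.log 2) with hJ
  calc ∑ n ∈ U, b n * (n : ℝ) ^ (-s)
      = ∑ j ∈ J, ∑ n ∈ U.filter (Nat.log 2 · = j), b n * (n : ℝ) ^ (-s) :=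
        (Finset.sum_fiberwise_of_maps_to (fun n hn ↦ Finset.mem_image_of_mem _ hn) _).symm
    _ ≤ ∑ j ∈ J, 2 * C * q ^ j := by
        refine Finset.sum_le_sum fun j _ ↦ ?_
        have hsub : U.filter (Nat.log 2 · = j) ⊆ Finset.range (2 ^ (j + 1)) := by
          intro n hn
          obtain ⟨hn, rfl⟩ := Finset.mem_filter.mp hn
          exact Finset.mem_range.mpr (Nat.lt_pow_succ_log_self one_lt_two n)
        calc ∑ n ∈ U.filter (Nat.log 2 · = j), b n * (n : ℝ) ^ (-s)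
            ≤ ∑ n ∈ U.filter (Nat.log 2 · = j), b n * ((2 : ℝ) ^ j) ^ (-s) := by
              refine Finset.sum_le_sum fun n hn ↦ mul_le_mul_of_nonneg_left ?_ (hb n)
              obtain ⟨hnU, hnj⟩ := Finset.mem_filter.mp hn
              subst hnj
              have h0 : 0 < n := (Finset.mem_filter.mp (show n ∈ T.filter (0 < ·) from hnU)).2
              exact Real.rpow_le_rpow_of_nonpos (by positivity)
                (by exact_mod_cast Nat.pow_log_le_self 2 h0.ne') (by linarith)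
          _ ≤ C * (2 ^ (j + 1) : ℕ) * ((2 : ℝ) ^ j) ^ (-s) := by
              rw [← Finset.sum_mul]
              exact mul_le_mul_of_nonneg_right
                ((Finset.sum_le_sum_of_subset_of_nonneg hsub fun i _ _ ↦ hb i).trans (hsum _))
                (by positivity)
          _ = 2 * C * q ^ j := by
              rw [hq, ← Real.rpow_natCast 2 j, ← Real.rpow_mul two_pos.le,
                ← Real.rpow_natCast ((2 : ℝ) ^ (-(s - 1))) j, ← Real.rpow_mul two_pos.le]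
              push_cast
              rw [pow_succ, ← Real.rpow_natCast 2 j,
                show -(s - 1) * (j : ℝ) = (j : ℝ) + (j : ℝ) * -s by ring, Real.rpow_add two_pos]
              ring
    _ ≤ 2 * C * (1 - q)⁻¹ := by
        rw [← Finset.mul_sum]
        refine mul_le_mul_of_nonneg_left ?_ (by positivity)
        exact sum_le_hasSum J (fun j _ ↦ by positivity)
          (hasSum_geometric_of_lt_one hq0.le (by linarith))
    _ ≤ 4 * C / (s - 1) := by
        rw [show 4 * C / (s - 1) = 2 * C * ((s - 1) / 2)⁻¹ by field_simp; ring]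
        exact mul_le_mul_of_nonneg_left
          (inv_anti₀ (by linarith) (by linarith)) (by positivity)

/-- **The Rankin bound**, for abstract coefficient sequences. -/
theorem exists_prime_sum_le_log {N : ℕ} {e a : ℕ → ℂ} (h : IsHeckeSeq N e a)
    {C : ℝ} (hC : 0 ≤ C) (hbd : ∀ M : ℕ, ∑ n ∈ Finset.range M, ‖a n‖ ^ 2 ≤ C * M) :
    ∃ C' : ℝ, ∀ s : ℝ, 1 < s → s ≤ 2 → ∀ P : Finset ℕ, (∀ p ∈ P, p.Prime ∧ ¬ p ∣ N) →
      ∑ p ∈ P, ‖a p‖ ^ 2 * (p : ℝ) ^ (-s) ≤ Real.log (1 / (s - 1)) + C' := by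
  classical
  refine ⟨Real.log (4 * (C + 1)) + 2 * ∑' n : ℕ, 1 / (n : ℝ) ^ 2, fun s hs hs2 P hP ↦ ?_⟩
  set F : ℕ → ℝ := fun n ↦
    if 0 < n ∧ n.Coprime N then ‖a n‖ ^ 2 * (n : ℝ) ^ (-s) else 0 with hF
  have hF0 : ∀ n, 0 ≤ F n := fun n ↦ by simp only [hF]; split_ifs <;> positivity
  have hbound : ∀ T : Finset ℕ, ∑ n ∈ T, F n ≤ 4 * C / (s - 1) := fun T ↦ by
    refine le_trans ?_ (sum_mul_rpow_le (fun n ↦ sq_nonneg ‖a n‖) hC hbd hs hs2 T)
    rw [Finset.sum_filter]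
    refine Finset.sum_le_sum fun n _ ↦ ?_
    simp only [hF]
    split_ifs with h1 h2 h2
    exacts [le_rfl, absurd h1.1 h2, by positivity, le_rfl]
  have hFs : Summable F := summable_of_sum_le hF0 hbound
  have hmul : ∀ {m n : ℕ}, m.Coprime n → F (m * n) = F m * F n := by
    intro m n hmn
    simp only [hF]
    by_cases h' : (0 < m ∧ m.Coprime N) ∧ (0 < n ∧ n.Coprime N)
    · obtain ⟨⟨hm, hmN⟩, hn, hnN⟩ := h'
      rw [if_pos ⟨Nat.mul_pos hm hn, hmN.mul_left hnN⟩, if_pos ⟨hm, hmN⟩, if_pos ⟨hn, hnN⟩,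
        h.map_mul m n hmn hmN, norm_mul, mul_pow, Nat.cast_mul,
        Real.mul_rpow (Nat.cast_nonneg m) (Nat.cast_nonneg n)]
      ring
    · rw [if_neg]
      · rcases not_and_or.mp h' with h'' | h'' <;> simp [h'']
      · rintro ⟨h0, hc⟩
        exact h' ⟨⟨Nat.pos_of_mul_pos_right h0, Nat.Coprime.coprime_mul_right hc⟩,
          Nat.pos_of_mul_pos_left h0, Nat.Coprime.coprime_mul_left hc⟩
  have hF1 : F 1 = 1 := by simp [hF, h.one]
  have hEP := EulerProduct.prod_filter_prime_tsum_eq_tsum_factoredNumbers hF1 hmul hFs.norm P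
  rw [Finset.filter_true_of_mem fun p hp ↦ (hP p hp).1] at hEP
  have hle : ∏ p ∈ P, ∑' r : ℕ, F (p ^ r) ≤ 4 * (C + 1) / (s - 1) := by
    rw [hEP]
    refine ((hFs.tsum_subtype_le _ (Nat.factoredNumbers P) hF0).trans
      (hFs.tsum_le_of_sum_le hbound)).trans ?_
    gcongr <;> linarith
  have hlocal : ∀ p ∈ P, ‖a p‖ ^ 2 * (p : ℝ) ^ (-s) ≤
      Real.log (∑' r : ℕ, F (p ^ r)) + 2 * (1 / (p : ℝ) ^ 2) ∧ 0 < ∑' r : ℕ, F (p ^ r) := by
    intro p hp
    obtain ⟨hpp, hpN⟩ := hP p hp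
    set X : ℝ := (p : ℝ) ^ (-s) with hX
    have hp2 : (2 : ℝ) ≤ p := by exact_mod_cast hpp.two_le
    have hX0 : 0 < X := by positivity
    have hXp : X ≤ 1 / p := by
      rw [hX, one_div, ← Real.rpow_neg_one]
      exact Real.rpow_le_rpow_of_exponent_le (by linarith) (by linarith)
    have hX2 : X ≤ 1 / 2 := hXp.trans (by gcongr)
    have hFp : ∀ r : ℕ, F (p ^ r) = ‖a (p ^ r)‖ ^ 2 * X ^ r := fun r ↦ by
      simp only [hF]
      rw [if_pos ⟨pow_pos hpp.pos r, (hpp.coprime_iff_not_dvd.mpr hpN).pow_left r⟩, hX,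
        Nat.cast_pow, ← Real.rpow_natCast (p : ℝ) r,
        ← Real.rpow_natCast ((p : ℝ) ^ (-s)) r, ← Real.rpow_mul (Nat.cast_nonneg p),
        ← Real.rpow_mul (Nat.cast_nonneg p), mul_comm (r : ℝ)]
    have hsump : Summable fun r ↦ ‖a (p ^ r)‖ ^ 2 * X ^ r :=
      ((hFs.comp_injective (Nat.pow_right_injective hpp.two_le)).congr hFp)
    have hkey := sq_norm_mul_add_log_le (h := fun r ↦ a (p ^ r)) (a := a p)
      (h.norm_e p hpp hpN) (h.map_prime_pow hpp hpN) (by simp [h.one]) (by simp) hX0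
      (by linarith) hsump
    have hX21 : 0 < 1 - X ^ 2 := by nlinarith
    have hlog : -(2 * (1 / (p : ℝ) ^ 2)) ≤ Real.log (1 - X ^ 2) := by
      have h1 := Real.one_sub_inv_le_log_of_pos hX21
      have h2 : X ^ 2 ≤ 1 / (p : ℝ) ^ 2 := by rw [← one_div_pow]; gcongr
      have h3 : (1 - X ^ 2)⁻¹ ≤ 1 + 2 * X ^ 2 := by
        rw [inv_le_iff_one_le_mul₀ hX21]
        nlinarith [mul_nonneg (sq_nonneg X) (show (0 : ℝ) ≤ 1 - 2 * X ^ 2 by nlinarith)]
      linarith
    constructor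
    · rw [tsum_congr hFp]
      linarith
    · refine lt_of_lt_of_le (by norm_num : (0 : ℝ) < 1) ?_
      have := (hsump.congr fun r ↦ (hFp r).symm).le_tsum 0 fun r _ ↦ hF0 _
      simpa [hF1] using this
  have hpos : 0 < ∏ p ∈ P, ∑' r : ℕ, F (p ^ r) := Finset.prod_pos fun p hp ↦ (hlocal p hp).2
  calc ∑ p ∈ P, ‖a p‖ ^ 2 * (p : ℝ) ^ (-s)
      ≤ ∑ p ∈ P, (Real.log (∑' r : ℕ, F (p ^ r)) + 2 * (1 / (p : ℝ) ^ 2)) :=
        Finset.sum_le_sum fun p hp ↦ (hlocal p hp).1
    _ = Real.log (∏ p ∈ P, ∑' r : ℕ, F (p ^ r)) + 2 * ∑ p ∈ P, 1 / (p : ℝ) ^ 2 := by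
        rw [Real.log_prod fun p hp ↦ (hlocal p hp).2.ne', Finset.sum_add_distrib, Finset.mul_sum]
    _ ≤ Real.log (4 * (C + 1) / (s - 1)) + 2 * ∑' n : ℕ, 1 / (n : ℝ) ^ 2 := by
        refine add_le_add (Real.log_le_log hpos hle) (mul_le_mul_of_nonneg_left ?_ two_pos.le)
        exact (Real.summable_one_div_nat_pow.mpr one_lt_two).sum_le_tsum _ fun _ _ ↦ by positivity
    _ = _ := by
        rw [div_eq_mul_one_div, Real.log_mul (by positivity)
          (div_ne_zero one_ne_zero (by linarith))]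
        ring

/-- The Rankin bound for a weight one cusp form on `Γ₁(N)` satisfying the Hecke relations. -/
theorem exists_prime_sum_norm_sq_qCoeff_le_log (N : ℕ) [NeZero N] (ε : DirichletCharacter ℂ N)
    (f : CuspForm (CongruenceSubgroup.Gamma1 N) 1)
    (hf₁ : ModularFormClass.qCoeff f 1 = 1)
    (hT : ∀ p : ℕ, p.Prime → ¬ p ∣ N → ∀ n : ℕ,
        ModularFormClass.qCoeff f (p * n) +
            ε (p : ZMod N) * (if p ∣ n then ModularFormClass.qCoeff f (n / p) else 0) =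
          ModularFormClass.qCoeff f p * ModularFormClass.qCoeff f n) :
    ∃ C : ℝ, ∀ s : ℝ, 1 < s → s ≤ 2 → ∀ P : Finset ℕ, (∀ p ∈ P, p.Prime ∧ ¬ p ∣ N) →
      ∑ p ∈ P, ‖ModularFormClass.qCoeff f p‖ ^ 2 * (p : ℝ) ^ (-s) ≤
        Real.log (1 / (s - 1)) + C := by
  obtain ⟨C, hC, hbd⟩ := exists_sum_norm_sq_qCoeff_le (by simp) f
  refine exists_prime_sum_le_log (e := fun p ↦ ε (p : ZMod N))
    ⟨hf₁, fun p hp hpN ↦ ?_, hT⟩ hC hbd
  exact ε.unit_norm_eq_one (ZMod.unitOfCoprime p (hp.coprime_iff_not_dvd.mpr hpN))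

end Fermat.Agent.DeligneSerre
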