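import Fermat.Agent.DeligneSerre.Interface
import Fermat.Agent.DeligneSerre.XOne.Congruence
import Fermat.Agent.DeligneSerre.Residual.Quadratic
import Fermat.Agent.DeligneSerre.Residual.CoeffExt
import Fermat.Agent.Density.FrobeniusDensity
import Fermat.Agent.EC.Det.CyclotomicChar

/-!
# The mod `ℓ` Galois representation of an eigensystem in the cohomology of `Γ₁(M)`

`Γ_ℚ` acts on the eigenspace of `k ⊗ Kummer`; every Frobenius there is killed by
`X² - a_p X + χ(p) p`, so Frobenius density makes every element quadratic.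
-/

set_option autoImplicit false
set_option synthInstance.maxHeartbeats 200000
set_option backward.isDefEq.respectTransparency false

noncomputable section

open CongruenceSubgroup
open scoped TensorProduct MatrixGroups

namespace Fermat.Agent.DeligneSerre

local notation "ℚ̄" => AlgebraicClosure ℚ
local notation "Γℚ" => (AlgebraicClosure ℚ ≃ₐ[ℚ] AlgebraicClosure ℚ)

namespace Residual

open XOne (Kummer galK heckeK diamondK)

section Transport

variable {M ℓ : ℕ} {K : Type*} [AddZeroClass K] (e : K ≃+ Coh M ℓ)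

/-- An additive operator on a group identified with cohomology, read on cohomology. -/
def transport (f : K →+ K) : Module.End (ZMod ℓ) (Coh M ℓ) :=
  AddMonoidHom.toZModLinearMap ℓ ((e.toAddMonoidHom.comp f).comp e.symm.toAddMonoidHom)

theorem transport_apply (f : K →+ K) (c : Coh M ℓ) : transport e f c = e (f (e.symm c)) :=
  rfl

theorem transport_id : transport e (AddMonoidHom.id K) = 1 :=
  LinearMap.ext fun c => e.apply_symm_apply c

theorem transport_comp (f g : K →+ K) : transport e (f.comp g) = transport e f * transport e g :=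
  LinearMap.ext fun c => by
    rw [Module.End.mul_apply, transport_apply, transport_apply, transport_apply,
      e.symm_apply_apply]
    rfl

theorem transport_commute {f g : K →+ K} (h : ∀ x, f (g x) = g (f x)) :
    transport e f * transport e g = transport e g * transport e f := by
  rw [← transport_comp, ← transport_comp]
  exact congrArg (transport e) (AddMonoidHom.ext h)

theorem transport_relation {f g d : K →+ K} (n : ℕ)
    (h : ∀ x, e (g (f x)) = e (f (f x)) + n • e (d x)) :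
    transport e f * transport e f - transport e g * transport e f + n • transport e d = 0 :=
  LinearMap.ext fun c => by
    simp only [LinearMap.add_apply, LinearMap.sub_apply, Module.End.mul_apply, transport_apply,
      e.symm_apply_apply, LinearMap.zero_apply, LinearMap.smul_apply]
    rw [h]
    abel

end Transport

variable {M ℓ : ℕ} [NeZero M] [Fact ℓ.Prime] (e : Kummer M ℓ ≃+ Coh M ℓ)

theorem map_frobenius_relation {B : Type*} [AddMonoid B] (f : Kummer M ℓ →+ B) (hℓ : 5 ≤ ℓ)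
    (hℓM : ℓ ∣ M) {p : ℕ} [Fact p.Prime] (hp : p.Coprime M) {A : ValuationSubring ℚ̄}
    (hA : A.LiesOverPrime p) {σ : Γℚ} (hσ : A.IsFrobeniusAt σ p) (x : Kummer M ℓ) :
    f (heckeK ℓ hp (galK M ℓ σ x)) =
      f (galK M ℓ σ (galK M ℓ σ x)) + p • f (diamondK M ℓ (ZMod.unitOfCoprime p hp) x) := by
  rw [XOne.Congruence.frobenius_relation hℓ hℓM hp hA hσ x, map_add, map_nsmul]

/-- Galois on cohomology through the Kummer group. -/
def galC : Γℚ →* Module.End (ZMod ℓ) (Coh M ℓ) where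
  toFun σ := transport e (galK M ℓ σ)
  map_one' := by rw [XOne.galK_one, transport_id]
  map_mul' σ τ := by rw [XOne.galK_mul, transport_comp]

theorem galC_apply (σ : Γℚ) : galC e σ = transport e (galK M ℓ σ) :=
  rfl

variable (k : Type) [Field k] [Algebra (ZMod ℓ) k]

/-- Galois on `k ⊗` cohomology. -/
def galV : Γℚ →* Module.End k (k ⊗[ZMod ℓ] Coh M ℓ) :=
  (Module.End.baseChangeHom (ZMod ℓ) k (Coh M ℓ)).toMonoidHom.comp (galC e)

theorem galV_apply (σ : Γℚ) : galV e k σ = (galC e σ).baseChange k :=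
  rfl

variable (M ℓ) in
/-- `T_p` on mod `ℓ` cohomology. -/
def heckeC {p : ℕ} [Fact p.Prime] (hp : p.Coprime M) : Module.End (ZMod ℓ) (Coh M ℓ) :=
  (heckeHom1 hp (ZMod ℓ) (ZMod ℓ)).restrict fun _ h => heckeHom1_mem_cuspidalHoms hp h

variable (M ℓ) in
/-- Diamond operators on mod `ℓ` cohomology. -/
def diamondC (δ : Gamma0 M) : Module.End (ZMod ℓ) (Coh M ℓ) :=
  (diamondHom (ZMod ℓ) (ZMod ℓ) δ).restrict fun _ h => diamondHom_mem_cuspidalHoms δ h

variable {k}

theorem extend_heckeC {p : ℕ} [Fact p.Prime] (hp : p.Coprime M) (z : k ⊗[ZMod ℓ] Coh M ℓ) :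
    extend M ℓ k ((heckeC M ℓ hp).baseChange k z) = heckeHom1 hp k k (extend M ℓ k z) :=
  extend_baseChange (fun φ => heckeHom1_comp hp (R := ℤ)
    (algebraMap (ZMod ℓ) k).toAddMonoidHom (φ : Additive (Gamma1 M) →+ ZMod ℓ)) z

theorem extend_diamondC (δ : Gamma0 M) (z : k ⊗[ZMod ℓ] Coh M ℓ) :
    extend M ℓ k ((diamondC M ℓ δ).baseChange k z) = diamondHom k k δ (extend M ℓ k z) :=
  extend_baseChange (fun _ => rfl) z

theorem isUnit_lowerRight (δ : Gamma0 M) :
    IsUnit ((((δ : SL(2, ℤ)) 1 1 : ℤ) : ZMod M)) := by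
  have h := (δ : SL(2, ℤ)).det_coe
  rw [Matrix.det_fin_two] at h
  have h' := congrArg (Int.cast : ℤ → ZMod M) h
  push_cast at h'
  rw [Gamma0_mem.mp δ.2, mul_zero, sub_zero, mul_comm] at h'
  exact IsUnit.of_mul_eq_one _ h'

variable (k)

/-- The eigenspace of `(a, χ)` in `k ⊗` cohomology. -/
def eigen (a : ℕ → k) (χ : DirichletCharacter k M) :
    Submodule k (k ⊗[ZMod ℓ] Coh M ℓ) where
  carrier := {v | (∀ (p : ℕ) (hp : p.Prime) (hpM : p.Coprime M),
      (haveI : Fact p.Prime := ⟨hp⟩; (heckeC M ℓ hpM).baseChange k v) = a p • v) ∧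
    ∀ δ : Gamma0 M, (diamondC M ℓ δ).baseChange k v =
      χ (((δ : SL(2, ℤ)) 1 1 : ℤ) : ZMod M) • v}
  zero_mem' := ⟨fun p hp hpM => by rw [map_zero, smul_zero],
    fun δ => by rw [map_zero, smul_zero]⟩
  add_mem' := fun {u v} hu hv =>
    ⟨fun p hp hpM => by rw [map_add, hu.1 p hp hpM, hv.1 p hp hpM, smul_add],
      fun δ => by rw [map_add, hu.2 δ, hv.2 δ, smul_add]⟩
  smul_mem' := fun c {v} hv =>
    ⟨fun p hp hpM => by rw [map_smul, hv.1 p hp hpM, smul_comm],
      fun δ => by rw [map_smul, hv.2 δ, smul_comm]⟩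

/-- The equivariant comparison of Kummer group and cohomology. -/
structure IsEquivariant (e : Kummer M ℓ ≃+ Coh M ℓ) : Prop where
  hecke : ∀ (p : ℕ) [Fact p.Prime] (hp : p.Coprime M) (x : Kummer M ℓ),
    ((e (heckeK ℓ hp x) : Coh M ℓ) : Additive (Gamma1 M) →+ ZMod ℓ) =
      heckeHom1 hp (ZMod ℓ) (ZMod ℓ) (e x : Additive (Gamma1 M) →+ ZMod ℓ)
  diamond : ∀ (δ : Gamma0 M) (d : (ZMod M)ˣ),
    (d : ZMod M) = ((((δ : Gamma0 M) : SL(2, ℤ)) 1 1 : ℤ) : ZMod M) → ∀ x : Kummer M ℓ,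
    ((e (diamondK M ℓ d x) : Coh M ℓ) : Additive (Gamma1 M) →+ ZMod ℓ) =
      diamondHom (ZMod ℓ) (ZMod ℓ) δ (e x : Additive (Gamma1 M) →+ ZMod ℓ)

variable {e} (he : IsEquivariant e)
include he

theorem transport_heckeK {p : ℕ} [Fact p.Prime] (hp : p.Coprime M) :
    transport e (heckeK ℓ hp) = heckeC M ℓ hp :=
  LinearMap.ext fun c => Subtype.ext (by
    rw [transport_apply, he.hecke p hp, e.apply_symm_apply]; rfl)

theorem transport_diamondK (δ : Gamma0 M) {d : (ZMod M)ˣ}
    (hd : (d : ZMod M) = (((δ : SL(2, ℤ)) 1 1 : ℤ) : ZMod M)) :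
    transport e (diamondK M ℓ d) = diamondC M ℓ δ :=
  LinearMap.ext fun c => Subtype.ext (by
    rw [transport_apply, he.diamond δ d hd, e.apply_symm_apply]; rfl)

theorem galC_comm_hecke (σ : Γℚ) {p : ℕ} [Fact p.Prime] (hp : p.Coprime M) :
    galC e σ * heckeC M ℓ hp = heckeC M ℓ hp * galC e σ := by
  rw [galC_apply, ← transport_heckeK he hp]
  exact transport_commute e fun x => XOne.galK_heckeK M ℓ hp σ x

theorem galC_comm_diamond (σ : Γℚ) (δ : Gamma0 M) :
    galC e σ * diamondC M ℓ δ = diamondC M ℓ δ * galC e σ := by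
  rw [galC_apply, ← transport_diamondK he δ (d := (isUnit_lowerRight δ).unit) (IsUnit.unit_spec _)]
  exact transport_commute e fun x => XOne.galK_diamondK M ℓ σ _ x

theorem galV_mem_eigen (a : ℕ → k) (χ : DirichletCharacter k M) (σ : Γℚ)
    {v : k ⊗[ZMod ℓ] Coh M ℓ} (hv : v ∈ eigen k a χ) : galV e k σ v ∈ eigen k a χ := by
  refine ⟨fun p hp hpM => ?_, fun δ => ?_⟩
  · haveI : Fact p.Prime := ⟨hp⟩
    rw [galV_apply, ← Module.End.mul_apply, ← LinearMap.baseChange_mul, ← galC_comm_hecke he,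
      LinearMap.baseChange_mul, Module.End.mul_apply, hv.1 p hp hpM, map_smul]
  · rw [galV_apply, ← Module.End.mul_apply, ← LinearMap.baseChange_mul, ← galC_comm_diamond he,
      LinearMap.baseChange_mul, Module.End.mul_apply, hv.2 δ, map_smul]

omit he in
theorem galC_eq_one {σ : Γℚ} (h : ∀ x : Kummer M ℓ, galK M ℓ σ x = x) : galC e σ = 1 := by
  rw [galC_apply, show galK M ℓ σ = AddMonoidHom.id _ from AddMonoidHom.ext h, transport_id]

set_option maxHeartbeats 1000000 in
/-- Frobenius on the eigenspace. -/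
theorem galV_frobenius {a : ℕ → k} {χ : DirichletCharacter k M} (hℓ : 5 ≤ ℓ) (hℓM : ℓ ∣ M)
    {p : ℕ} [Fact p.Prime] (hp : p.Coprime M) {A : ValuationSubring ℚ̄} (hA : A.LiesOverPrime p)
    {σ : Γℚ} (hσ : A.IsFrobeniusAt σ p) {v : k ⊗[ZMod ℓ] Coh M ℓ} (hv : v ∈ eigen k a χ) :
    galV e k σ (galV e k σ v) - a p • galV e k σ v + (χ (p : ZMod M) * (p : k)) • v = 0 := by
  obtain ⟨hδ0, hδ⟩ := gamma0Lift_spec (M := M) (p := p) hp
  set δ : Gamma0 M := ⟨gamma0Lift M p, gamma0Lift_mem hp⟩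
  have hd : ((ZMod.unitOfCoprime p hp : (ZMod M)ˣ) : ZMod M) =
      (((δ : SL(2, ℤ)) 1 1 : ℤ) : ZMod M) := by
    show _ = (((gamma0Lift M p) 1 1 : ℤ) : ZMod M)
    rw [hδ, Int.cast_natCast, ZMod.coe_unitOfCoprime]
  have hC : galC e σ * galC e σ - heckeC M ℓ hp * galC e σ + p • diamondC M ℓ δ = 0 := by
    rw [galC_apply, ← transport_heckeK he hp, ← transport_diamondK he δ hd]
    have h0 := map_frobenius_relation (M := M) (ℓ := ℓ) (B := Coh M ℓ) e.toAddMonoidHom hℓ hℓM hp
      hA hσ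
    have h1 := fun h => transport_relation e (f := galK M ℓ σ) (g := heckeK ℓ hp)
      (d := diamondK M ℓ (ZMod.unitOfCoprime p hp)) p h
    refine h1 ?_
    intro x
    exact h0 x
  have hV := congrArg (Module.End.baseChangeHom (ZMod ℓ) k (Coh M ℓ)) hC
  simp only [map_zero, map_add, map_sub, map_mul, map_nsmul] at hV
  have h := LinearMap.congr_fun hV v
  simp only [LinearMap.add_apply, LinearMap.sub_apply, Module.End.mul_apply,
    LinearMap.zero_apply, LinearMap.smul_apply] at h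
  have hg := galV_mem_eigen k he a χ σ hv
  have h1 := hg.1 p Fact.out hp
  have h2 : (diamondC M ℓ δ).baseChange k v = χ (p : ZMod M) • v := by
    rw [hv.2 δ, ← hd, ZMod.coe_unitOfCoprime]
  rw [← h1, mul_comm, mul_smul, ← h2, Nat.cast_smul_eq_nsmul]
  exact h

omit he

/-- A representation restricted to a stable subspace. -/
def restrictHom {G V : Type*} [Group G] [AddCommGroup V] [Module k V] (r : G →* Module.End k V)
    (U : Submodule k V) (hst : ∀ g, ∀ v ∈ U, r g v ∈ U) : G →* Module.End k U where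
  toFun g := (r g).restrict (hst g)
  map_one' := by ext x; simp
  map_mul' g h := by ext x; simp

/-- Powers of an endomorphism quadratic on a stable subspace are quadratic there. -/
theorem exists_quadratic_pow_on [IsAlgClosed k] {V : Type*} [AddCommGroup V] [Module k V]
    (x : Module.End k V) (U : Submodule k V) (hst : ∀ v ∈ U, x v ∈ U) {a d : k}
    (h : ∀ v ∈ U, x (x v) - a • x v + d • v = 0) (b : ℕ) :
    ∃ t : k, ∀ v ∈ U, (x ^ b) ((x ^ b) v) - t • (x ^ b) v + d ^ b • v = 0 := by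
  set y : Module.End k U := x.restrict hst
  have hy : y * y - a • y + d • (1 : Module.End k U) = 0 := by
    ext u; exact h u u.2
  have hpow : ∀ (n : ℕ) (u : U), (((y ^ n) u : U) : V) = (x ^ n) u := by
    intro n
    induction n with
    | zero => intro u; simp
    | succ n ih =>
      intro u
      rw [pow_succ, pow_succ, Module.End.mul_apply, Module.End.mul_apply, ih]
      rfl
  obtain ⟨t, ht⟩ := exists_quadratic_pow hy b
  refine ⟨t, fun v hv => ?_⟩
  have := congrArg Subtype.val (LinearMap.congr_fun ht ⟨v, hv⟩)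
  simpa [hpow] using this

/-- The two-dimensional representation of a family of quadratic relations on a stable subspace. -/
theorem exists_two_dim_on [IsAlgClosed k] {G V : Type*} [Group G] [AddCommGroup V] [Module k V]
    [FiniteDimensional k V] (r : G →* Module.End k V) (U : Submodule k V) [Nontrivial U]
    (hst : ∀ g, ∀ v ∈ U, r g v ∈ U) (δ : G →* kˣ)
    (hquad : ∀ g, ∃ t : k, ∀ v ∈ U, r g (r g v) - t • r g v + (δ g : k) • v = 0) :
    ∃ ρ : G →* GL (Fin 2) k,
      ((∀ v : Fin 2 → k, v ≠ 0 → ∃ g : G, ∀ c : k,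
          ((ρ g : GL (Fin 2) k) : Matrix (Fin 2) (Fin 2) k).mulVec v ≠ c • v) ∨
        ∀ g : G, ((ρ g : GL (Fin 2) k) : Matrix (Fin 2) (Fin 2) k).IsDiag) ∧
      (∀ g, r g = 1 → δ g = 1 → ρ g = 1) ∧
      ∀ g, ((ρ g : GL (Fin 2) k) : Matrix (Fin 2) (Fin 2) k).det = δ g ∧
        ∀ a : k, (∀ v ∈ U, r g (r g v) - a • r g v + (δ g : k) • v = 0) →
          ((ρ g : GL (Fin 2) k) : Matrix (Fin 2) (Fin 2) k).trace = a := by
  have hconv : ∀ (g : G) (t : k), (∀ v ∈ U, r g (r g v) - t • r g v + (δ g : k) • v = 0) →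
      restrictHom k r U hst g * restrictHom k r U hst g - t • restrictHom k r U hst g +
        (δ g : k) • (1 : Module.End k U) = 0 := fun g t h => by
    ext u; exact h u u.2
  obtain ⟨ρ, h1, h2, h3⟩ := exists_two_dim_rep (restrictHom k r U hst) δ
    fun g => (hquad g).imp fun t h => hconv g t h
  exact ⟨ρ, h1, fun g hr hδ => h2 g (LinearMap.ext fun u => Subtype.ext (by
    show r g u = u; rw [hr]; rfl)) hδ, fun g => ⟨(h3 g).1, fun a ha => (h3 g).2 a (hconv g a ha)⟩⟩

/-- The determinant character. -/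
def detChar (hℓM : ℓ ∣ M) (χ : DirichletCharacter k M) : Γℚ →* kˣ :=
  (χ.toUnitHom * Units.map ((algebraMap (ZMod ℓ) k).comp (ZMod.castHom hℓM (ZMod ℓ))).toMonoidHom).comp
    (EC.cycloChar M)

theorem detChar_frobenius (hℓM : ℓ ∣ M) (χ : DirichletCharacter k M) {p : ℕ} (hpp : p.Prime)
    (hpM : ¬ p ∣ M) {A : ValuationSubring ℚ̄} (hA : A.LiesOverPrime p) {σ : Γℚ}
    (hσ : A.IsFrobeniusAt σ p) :
    (detChar k hℓM χ σ : k) = χ (p : ZMod M) * (p : k) := by
  have h := EC.cycloChar_eq_of_isFrobeniusAt hpp hpM hA hσ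
  show ((χ.toUnitHom (EC.cycloChar M σ) : kˣ) : k) *
    algebraMap (ZMod ℓ) k (ZMod.castHom hℓM (ZMod ℓ) (EC.cycloChar M σ : ZMod M)) = _
  rw [MulChar.coe_toUnitHom, h, map_natCast (ZMod.castHom hℓM (ZMod ℓ)),
    map_natCast (algebraMap (ZMod ℓ) k)]

end Residual

open Residual in
open XOne (Kummer) in
set_option maxHeartbeats 1000000 in
/-- An eigensystem in the cuspidal cohomology of `Γ₁(M)` mod `ℓ`, `ℓ ∣ M`, has an attached
two-dimensional representation. -/
theorem exists_residual_rep (M : ℕ) [NeZero M] (ℓ : ℕ) [Fact ℓ.Prime] (hℓM : ℓ ∣ M) (hℓ : 5 ≤ ℓ)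
    (k : Type) [Field k] [IsAlgClosed k] [CharP k ℓ] (a : ℕ → k) (χ : DirichletCharacter k M)
    (h : OccursIn M k a χ) :
    ∃ ρ : Γℚ →* GL (Fin 2) k, IsSplitOrIrreducible ρ ∧
      IsAttached ρ M a (fun p => χ (p : ZMod M) * (p : k)) := by
  classical
  letI : Algebra (ZMod ℓ) k := ZMod.algebra k ℓ
  obtain ⟨e, he₁, he₂⟩ := XOne.exists_kummerEquiv M ℓ
  have he : IsEquivariant e := ⟨he₁, he₂⟩
  obtain ⟨φ, hφ, hφ0, hT, hD⟩ := h
  obtain ⟨z, rfl⟩ := exists_extend_eq (ℓ := ℓ) hφ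
  have hz : z ∈ eigen k a χ :=
    ⟨fun p hp hpM => extend_injective (by
      haveI : Fact p.Prime := ⟨hp⟩
      rw [extend_heckeC, map_smul]; exact hT p hp hpM),
    fun δ => extend_injective (by rw [extend_diamondC, map_smul]; exact hD δ)⟩
  have : Nontrivial (eigen k a χ : Submodule k (k ⊗[ZMod ℓ] Coh M ℓ)) :=
    ⟨⟨⟨z, hz⟩, 0, fun h0 => hφ0 (by rw [show z = 0 from congrArg Subtype.val h0, map_zero])⟩⟩
  set δ := detChar k hℓM χ
  have : Finite (Kummer M ℓ) := by
    have : Finite (Coh M ℓ) := Module.finite_of_finite (ZMod ℓ)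
    exact Finite.of_equiv _ e.toEquiv.symm
  choose Lx hLx hfix using fun x : Kummer M ℓ => XOne.exists_finite_level M ℓ x
  obtain ⟨Lc, hLc, hc⟩ := EC.cycloChar_factors M
  let L : IntermediateField ℚ ℚ̄ := (⨆ x, Lx x) ⊔ Lc
  have hLfin : FiniteDimensional ℚ L := by
    have := hLx
    have : FiniteDimensional ℚ (⨆ x, Lx x : IntermediateField ℚ ℚ̄) :=
      IntermediateField.finiteDimensional_iSup_of_finite
    exact inferInstanceAs (FiniteDimensional ℚ ((⨆ x, Lx x) ⊔ Lc : IntermediateField ℚ ℚ̄))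
  have hlevel : ∀ σ : Γℚ, (∀ y ∈ L, σ y = y) → galC e σ = 1 ∧ δ σ = 1 := by
    intro σ hσ
    refine ⟨galC_eq_one fun x => hfix x σ fun y hy => hσ y ?_, ?_⟩
    · exact (le_iSup Lx x).trans le_sup_left hy
    · show detChar k hℓM χ σ = 1
      rw [detChar, MonoidHom.comp_apply, hc σ fun y hy => hσ y ((le_sup_right : Lc ≤ L) hy), map_one]
  have hst : ∀ g, ∀ v ∈ eigen k a χ, galV e k g v ∈ eigen k a χ :=
    fun g v hv => galV_mem_eigen k he a χ g hv
  have hquad : ∀ g, ∃ t : k, ∀ v ∈ eigen k a χ,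
      galV e k g (galV e k g v) - t • galV e k g v + (δ g : k) • v = 0 := by
    intro g
    obtain ⟨p, hp, hpS, A, σ, hA, hσ, -, -, b, -, hb⟩ :=
      Density.exists_isFrobeniusAt_map_pow ((galC e).prod δ)
        ⟨L, hLfin, fun σ hσ => Prod.ext (hlevel σ hσ).1 (hlevel σ hσ).2⟩ g M.primeFactors
    have hpM : ¬ p ∣ M := fun hd => hpS (Nat.mem_primeFactors.mpr ⟨hp, hd, NeZero.ne M⟩)
    haveI : Fact p.Prime := ⟨hp⟩
    obtain ⟨t, ht⟩ := exists_quadratic_pow_on k (galV e k σ) (eigen k a χ) (hst σ)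
      (d := (δ σ : k)) (fun v hv => by
        rw [detChar_frobenius k hℓM χ hp hpM hA hσ]
        exact galV_frobenius k he hℓ hℓM ((hp.coprime_iff_not_dvd).mpr hpM) hA hσ hv) b
    refine ⟨t, ?_⟩
    have hb1 : galC e g = galC e σ ^ b := congrArg Prod.fst hb
    have hb2 : δ g = δ σ ^ b := congrArg Prod.snd hb
    rw [show galV e k g = galV e k σ ^ b by
      show (Module.End.baseChangeHom (ZMod ℓ) k (Coh M ℓ)) (galC e g) = _
      rw [hb1, map_pow]; rfl, hb2, Units.val_pow_eq_pow_val]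
    exact ht
  obtain ⟨ρ, hirr, hker, hρ⟩ := exists_two_dim_on k (galV e k) (eigen k a χ) hst δ hquad
  have hone : ∀ σ, galC e σ = 1 → galV e k σ = 1 := fun σ h => by
    show (Module.End.baseChangeHom (ZMod ℓ) k (Coh M ℓ)) (galC e σ) = _
    rw [h, map_one]
  refine ⟨ρ, hirr, ⟨L, hLfin, fun σ hσ => hker σ (hone σ (hlevel σ hσ).1) (hlevel σ hσ).2⟩,
    fun p hp hpM A hA => ?_⟩
  haveI : Fact p.Prime := ⟨hp⟩
  have hcop : p.Coprime M := (hp.coprime_iff_not_dvd).mpr hpM
  refine ⟨fun σ hσ => hker σ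
    (hone σ (galC_eq_one ((XOne.unramified_and_congruence hℓ hℓM hcop A hA).1 σ hσ))) ?_,
    fun σ hσ => ?_⟩
  · show detChar k hℓM χ σ = 1
    rw [detChar, MonoidHom.comp_apply, EC.cycloChar_eq_one_of_mem_inertia hp hpM hA hσ, map_one]
  · have hd := detChar_frobenius k hℓM χ hp hpM hA hσ
    refine ⟨(hρ σ).2 (a p) fun v hv => ?_, (hρ σ).1.trans hd⟩
    rw [hd]
    exact galV_frobenius k he hℓ hℓM hcop hA hσ hv

end Fermat.Agent.DeligneSerre
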