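import Fermat.Agent.DeligneSerre.Interface
import Fermat.Agent.DeligneSerre.HasNebOfEigen
import Fermat.Agent.DeligneSerre.WeightOne.Conjugate
import Fermat.Agent.DeligneSerre.WeightOne.Integral

/-!
# Weight one eigenforms: nebentypus, conjugates, integrality
-/

set_option autoImplicit false

noncomputable section

open CongruenceSubgroup

namespace Fermat.Agent.DeligneSerre

variable {N : ℕ} [NeZero N] {ε : DirichletCharacter ℂ N} {f : CuspForm (Gamma1 N) 1}

theorem IsWeightOneEigen.mem_nebSpace (hf : IsWeightOneEigen ε f) : f ∈ nebSpace N 1 ε :=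
  hasNeb_of_hecke_relations f hf.2

theorem IsWeightOneEigen.exists_conjugate (hf : IsWeightOneEigen ε f) (τ : ℂ ≃+* ℂ) :
    ∃ g : CuspForm (Gamma1 N) 1, IsWeightOneEigen (ε.ringHomComp (τ : ℂ →+* ℂ)) g ∧
      ∀ n, ModularFormClass.qCoeff g n = τ (ModularFormClass.qCoeff f n) := by
  have hne : ⇑f ≠ 0 := fun h => by
    have h1 := hf.1
    simp [ModularFormClass.qCoeff, h, UpperHalfPlane.qExpansion_zero] at h1
  obtain ⟨g, hg⟩ := exists_conjugate_cuspForm f hne τ
  refine ⟨g, ⟨by rw [hg, hf.1, map_one], fun p hp hpN n => ?_⟩, hg⟩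
  have h := congrArg τ (hf.2 p hp hpN n)
  rw [map_add, map_mul, map_mul, apply_ite τ, map_zero] at h
  simpa only [hg, MulChar.ringHomComp_apply, RingHom.coe_coe] using h

theorem IsWeightOneEigen.isIntegral_qCoeff (hf : IsWeightOneEigen ε f) {p : ℕ} (hp : p.Prime)
    (hpN : ¬ p ∣ N) : IsIntegral ℤ (ModularFormClass.qCoeff f p) :=
  isIntegral_of_isWeightOneEigen hf hp hpN

/-- All coefficients lie in one finitely generated subgroup of `ℂ`. -/
theorem IsWeightOneEigen.exists_fg_qCoeff (hf : IsWeightOneEigen ε f) :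
    ∃ S : Submodule ℤ ℂ, S.FG ∧ ∀ n, ModularFormClass.qCoeff f n ∈ S :=
  exists_fg_qCoeff_mem_weightOne (ε := ε) f (hasNeb_of_hecke_relations f hf.2)

end Fermat.Agent.DeligneSerre
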