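import Mathlib
import Fermat.Prelude.Def_ModularForm_HeckeOperator
import Fermat.Prelude.Thm_CuspFormClass_isZeroAt_heckeT
import Fermat.Prelude.Thm_CuspFormClass_isZeroAt_heckeU
import Fermat.Prelude.Thm_ModularForm_mdifferentiable_heckeT
import Fermat.Prelude.Thm_ModularForm_mdifferentiable_heckeU

/-!
# Cusp forms with nebentypus and their Hecke operators

`nebSpace N k ε` is the space of cusp forms on `Γ₁(N)` of weight `k` with `f ∣ γ = ε(d) f` for
`γ = (a b; c d) ∈ Γ₀(N)`. For a prime `p` the Hecke operator is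
`∑_{j < p} f ∣ (1 j; 0 p) + ε(p) f ∣ (p 0; 0 1)`; for `p ∣ N` the second term vanishes.
-/

set_option autoImplicit false

noncomputable section

open UpperHalfPlane CongruenceSubgroup ModularForm
open scoped MatrixGroups ModularForm Manifold

namespace Fermat.Agent.DeligneSerre

variable {N : ℕ} (k : ℤ) (ε : DirichletCharacter ℂ N)

/-- `f` transforms under `Γ₀(N)` by the character `ε`. -/
def HasNeb (f : ℍ → ℂ) : Prop :=
  ∀ γ ∈ Gamma0 N, f ∣[k] (γ : GL (Fin 2) ℝ) = ε ((γ 1 1 : ℤ) : ZMod N) • f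

/-- `∑_{j < p} f ∣ (1 j; 0 p) + ε(p) f ∣ (p 0; 0 1)`. -/
def nebHecke (p : ℕ) (f : ℍ → ℂ) : ℍ → ℂ :=
  ModularForm.heckeU k p f + ε (p : ZMod N) • (f ∣[k] ModularForm.heckeDiagMatrix p)

theorem nebHecke_add (p : ℕ) (f g : ℍ → ℂ) :
    nebHecke k ε p (f + g) = nebHecke k ε p f + nebHecke k ε p g := by
  simp only [nebHecke, ModularForm.heckeU_add, SlashAction.add_slash, smul_add]
  abel

theorem nebHecke_smul (p : ℕ) (c : ℂ) (f : ℍ → ℂ) :
    nebHecke k ε p (c • f) = c • nebHecke k ε p f := by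
  rw [nebHecke, nebHecke, ModularForm.heckeU_smul, ModularForm.smul_slash,
    ModularForm.σ_heckeDiagMatrix, ContinuousAlgEquiv.refl_apply, smul_add, smul_comm]

variable {k ε}

section invariance

variable {p : ℕ} [hp : Fact p.Prime]

/-- `(1 j; 0 p)` for `j < p` and `(p 0; 0 1)`. -/
def rep (p : ℕ) : Option (Fin p) → GL (Fin 2) ℝ :=
  fun x => x.elim (ModularForm.heckeDiagMatrix p) fun j => ModularForm.heckeMatrix p j

/-- The weight attached to a representative. -/
def repWeight (N p : ℕ) (ε : DirichletCharacter ℂ N) : Option (Fin p) → ℂ :=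
  fun x => x.elim (ε (p : ZMod N)) fun _ => 1

theorem nebHecke_eq_sum (f : ℍ → ℂ) :
    nebHecke k ε p f = ∑ x : Option (Fin p), repWeight N p ε x • (f ∣[k] rep p x) := by
  rw [Fintype.sum_option, nebHecke, add_comm]
  congr 1
  simp only [ModularForm.heckeU_def, rep, repWeight, Option.elim_some, one_smul]
  exact (Fin.sum_univ_eq_sum_range (fun j => f ∣[k] ModularForm.heckeMatrix p j) p).symm

/-- Integral entries of the representatives. -/
def repInt (p : ℕ) : Option (Fin p) → Matrix (Fin 2) (Fin 2) ℤ :=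
  fun x => x.elim !![(p : ℤ), 0; 0, 1] fun j => !![1, (j : ℤ); 0, (p : ℤ)]

theorem rep_val (x : Option (Fin p)) :
    (rep p x : Matrix (Fin 2) (Fin 2) ℝ) = (repInt p x).map (Int.cast : ℤ → ℝ) := by
  ext i l
  cases x <;> fin_cases i <;> fin_cases l <;> simp [rep, repInt, hp.out.ne_zero]

theorem det_repInt (x : Option (Fin p)) : (repInt p x).det = p := by
  cases x <;> simp [repInt, Matrix.det_fin_two]

/-- Any integral matrix of determinant `p` has a representative: `M = g * rep x`. -/
theorem exists_eq_mul_repInt (M : Matrix (Fin 2) (Fin 2) ℤ) (hM : M.det = p) :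
    ∃ (g : SL(2, ℤ)) (x : Option (Fin p)), M = (g : Matrix (Fin 2) (Fin 2) ℤ) * repInt p x := by
  have : NeZero p := ⟨hp.out.ne_zero⟩
  rw [Matrix.det_fin_two] at hM
  by_cases hc : (p : ℤ) ∣ M 0 0 ∧ (p : ℤ) ∣ M 1 0
  · obtain ⟨⟨a, ha⟩, ⟨c, hc⟩⟩ := hc
    refine ⟨⟨!![a, M 0 1; c, M 1 1], ?_⟩, none, ?_⟩
    · rw [Matrix.det_fin_two_of]
      have hp0 : (p : ℤ) ≠ 0 := by exact_mod_cast hp.out.ne_zero
      refine mul_left_cancel₀ hp0 ?_
      linear_combination hM - M 1 1 * ha + M 0 1 * hc
    · ext i j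
      fin_cases i <;> fin_cases j <;>
        simp [repInt, Matrix.mul_apply, Fin.sum_univ_two, ha, hc, mul_comm]
  · -- the columns are proportional mod `p`
    have hprod : ((M 0 0 : ℤ) : ZMod p) * (M 1 1 : ℤ) = ((M 0 1 : ℤ) : ZMod p) * (M 1 0 : ℤ) := by
      have := congrArg (Int.cast : ℤ → ZMod p) hM
      push_cast at this
      rw [ZMod.natCast_self] at this
      linear_combination this
    obtain ⟨j, hj0, hj1⟩ : ∃ j : ZMod p, ((M 0 1 : ℤ) : ZMod p) = (M 0 0 : ℤ) * j ∧
        ((M 1 1 : ℤ) : ZMod p) = (M 1 0 : ℤ) * j := by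
      rw [not_and_or, ← ZMod.intCast_zmod_eq_zero_iff_dvd, ← ZMod.intCast_zmod_eq_zero_iff_dvd] at hc
      rcases hc with h | h
      · refine ⟨((M 0 0 : ℤ) : ZMod p)⁻¹ * (M 0 1 : ℤ), (mul_inv_cancel_left₀ h _).symm, ?_⟩
        field_simp
        linear_combination hprod
      · refine ⟨((M 1 0 : ℤ) : ZMod p)⁻¹ * (M 1 1 : ℤ), ?_, (mul_inv_cancel_left₀ h _).symm⟩
        field_simp
        linear_combination -hprod
    have hd : ∀ i, (p : ℤ) ∣ M i 1 - M i 0 * j.val := by
      intro i
      rw [← ZMod.intCast_zmod_eq_zero_iff_dvd]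
      push_cast
      rw [ZMod.natCast_zmod_val]
      fin_cases i
      · simpa [sub_eq_zero] using hj0
      · simpa [sub_eq_zero] using hj1
    obtain ⟨e, he⟩ := hd 0
    obtain ⟨e', he'⟩ := hd 1
    refine ⟨⟨!![M 0 0, e; M 1 0, e'], ?_⟩, some ⟨j.val, j.val_lt⟩, ?_⟩
    · rw [Matrix.det_fin_two_of]
      have hp0 : (p : ℤ) ≠ 0 := by exact_mod_cast hp.out.ne_zero
      refine mul_left_cancel₀ hp0 ?_
      linear_combination hM - M 0 0 * he' + M 1 0 * he
    · ext i l
      fin_cases i <;> fin_cases l <;>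
        simp [repInt, Matrix.mul_apply, Fin.sum_univ_two, -ZMod.natCast_val]
      · linear_combination he
      · linear_combination he'

theorem repInt_eq_of_mul_eq {x x' : Option (Fin p)} {g : SL(2, ℤ)}
    (h : repInt p x = (g : Matrix (Fin 2) (Fin 2) ℤ) * repInt p x') : x = x' := by
  have h00 := congrFun (congrFun h 0) 0
  have h01 := congrFun (congrFun h 0) 1
  have h10 := congrFun (congrFun h 1) 0
  have h11 := congrFun (congrFun h 1) 1
  have hp1 : ¬ (p : ℤ) ∣ 1 := fun hd => hp.out.not_dvd_one (by exact_mod_cast hd)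
  rcases x with - | j <;> rcases x' with - | j' <;>
    simp [repInt, Matrix.mul_apply, Fin.sum_univ_two] at h00 h01 h10 h11 ⊢
  · exact hp1 ⟨g 1 1, by rw [← h10] at h11; linear_combination h11⟩
  · exact hp1 ⟨g 0 0, by linear_combination h00⟩
  · have hj : (p : ℤ) * g 0 1 = (j : ℤ) - j' := by
      rw [← h00] at h01; linear_combination -h01
    have hlt : ((j : ℤ) - j').natAbs < p := by
      have := j.2; have := j'.2; omega
    have := Int.eq_zero_of_dvd_of_natAbs_lt_natAbs ⟨g 0 1, hj.symm⟩ (by simpa using hlt)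
    exact Fin.ext (by omega)

theorem repInt_one_zero (x : Option (Fin p)) : repInt p x 1 0 = 0 := by
  cases x <;> simp [repInt]

theorem repWeight_mul (x : Option (Fin p)) :
    repWeight N p ε x * ε ((repInt p x 1 1 : ℤ) : ZMod N) = ε (p : ZMod N) := by
  cases x <;> simp [repWeight, repInt]

/-- Right multiplication by `γ ∈ Γ₀(N)` permutes the weighted representatives. -/
theorem exists_perm_slash (γ : SL(2, ℤ)) (hγ : γ ∈ Gamma0 N) {f : ℍ → ℂ} (hf : HasNeb k ε f) :
    ∃ e : Equiv.Perm (Option (Fin p)), ∀ x,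
      repWeight N p ε x • ((f ∣[k] rep p x) ∣[k] (γ : GL (Fin 2) ℝ)) =
        ε ((γ 1 1 : ℤ) : ZMod N) • (repWeight N p ε (e x) • (f ∣[k] rep p (e x))) := by
  have hdet : ∀ x, (repInt p x * (γ : Matrix (Fin 2) (Fin 2) ℤ)).det = p := fun x => by
    rw [Matrix.det_mul, det_repInt, γ.det_coe, mul_one]
  choose g e he using fun x => exists_eq_mul_repInt _ (hdet x)
  have hinj : Function.Injective e := by
    intro x y hxy
    refine repInt_eq_of_mul_eq (g := g x * (g y)⁻¹) ?_
    have hy : repInt p y * γ = (g y : Matrix (Fin 2) (Fin 2) ℤ) * repInt p (e x) := by rw [hxy]; exact he y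
    have : repInt p x * γ = ((g x * (g y)⁻¹ : SL(2, ℤ)) : Matrix (Fin 2) (Fin 2) ℤ) * (repInt p y * γ) := by
      rw [hy, ← Matrix.mul_assoc, ← Matrix.SpecialLinearGroup.coe_mul, inv_mul_cancel_right]
      exact he x
    rw [← Matrix.mul_assoc] at this
    calc repInt p x = repInt p x * γ * ((γ⁻¹ : SL(2, ℤ)) : Matrix (Fin 2) (Fin 2) ℤ) := by
          rw [Matrix.mul_assoc, ← Matrix.SpecialLinearGroup.coe_mul, mul_inv_cancel,
            Matrix.SpecialLinearGroup.coe_one, mul_one]
      _ = _ := by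
          rw [this, Matrix.mul_assoc _ (γ : Matrix (Fin 2) (Fin 2) ℤ), ← Matrix.SpecialLinearGroup.coe_mul,
            mul_inv_cancel, Matrix.SpecialLinearGroup.coe_one, mul_one]
  refine ⟨Equiv.ofBijective e hinj.bijective_of_finite, fun x => ?_⟩
  simp only [Equiv.ofBijective_apply]
  have hc : ((γ 1 0 : ℤ) : ZMod N) = 0 := Gamma0_mem.mp hγ
  have hmat : rep p x * (γ : GL (Fin 2) ℝ) = (g x : GL (Fin 2) ℝ) * rep p (e x) := by
    apply Units.ext
    rw [Units.val_mul, Units.val_mul, rep_val, rep_val]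
    show (repInt p x).map (Int.cast : ℤ → ℝ) * (γ : Matrix (Fin 2) (Fin 2) ℤ).map (Int.cast : ℤ → ℝ)
      = (g x : Matrix (Fin 2) (Fin 2) ℤ).map (Int.cast : ℤ → ℝ) *
        (repInt p (e x)).map (Int.cast : ℤ → ℝ)
    have := congrArg (fun M : Matrix (Fin 2) (Fin 2) ℤ => M.map (Int.castRingHom ℝ)) (he x)
    rw [Matrix.map_mul, Matrix.map_mul] at this
    simpa using this
  by_cases hpN : p ∣ N
  · have hsome : ∀ j, e (some j) ≠ none := by
      intro j h
      have h00 := congrFun (congrFun (he (some j)) 0) 0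
      rw [h] at h00
      simp [repInt, Matrix.mul_apply, Fin.sum_univ_two] at h00
      have hpc : (p : ℤ) ∣ γ 1 0 :=
        (Int.natCast_dvd_natCast.mpr hpN).trans ((ZMod.intCast_zmod_eq_zero_iff_dvd _ _).mp hc)
      have hpa : (p : ℤ) ∣ γ 0 0 := by
        have : γ 0 0 = g (some j) 0 0 * p - j * γ 1 0 := by linear_combination h00
        rw [this]
        exact dvd_sub (dvd_mul_left _ _) (dvd_mul_of_dvd_right hpc _)
      have hdγ := γ.det_coe
      rw [Matrix.det_fin_two] at hdγ
      exact hp.out.not_dvd_one (Int.natCast_dvd_natCast.mp (by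
        rw [Nat.cast_one, ← hdγ]
        exact dvd_sub (dvd_mul_of_dvd_left hpa _) (dvd_mul_of_dvd_right hpc _)))
    rcases x with - | j
    · -- the weight of `(p 0; 0 1)` vanishes
      have hw : repWeight N p ε (none : Option (Fin p)) = 0 := by
        refine ε.map_nonunit fun hu => ?_
        rw [ZMod.isUnit_iff_coprime] at hu
        exact hp.out.ne_one (Nat.eq_one_of_dvd_coprimes hu dvd_rfl hpN)
      have hnone : e none = none := by
        obtain ⟨y, hy⟩ := hinj.bijective_of_finite.2 none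
        rcases y with - | i
        · exact hy
        · exact absurd hy (hsome i)
      rw [hw, hnone, hw]
      simp
    · have h10 := congrFun (congrFun (he (some j)) 1) 0
      have h11 := congrFun (congrFun (he (some j)) 1) 1
      rcases h : e (some j) with - | j'
      · exact absurd h (hsome j)
      · rw [h] at h10 h11 hmat
        simp [repInt, Matrix.mul_apply, Fin.sum_univ_two] at h10 h11
        have hgN : g (some j) ∈ Gamma0 N := by
          rw [Gamma0_mem, ← h10]; push_cast; rw [hc, mul_zero]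
        have hg11 : g (some j) 1 1 = γ 1 1 - γ 1 0 * j' := by
          have hp0 : (p : ℤ) ≠ 0 := by exact_mod_cast hp.out.ne_zero
          refine mul_left_cancel₀ hp0 ?_
          linear_combination -h11 + (j' : ℤ) * h10
        rw [← SlashAction.slash_mul, hmat, SlashAction.slash_mul, hf _ hgN, ModularForm.smul_slash,
          hg11]
        simp [repWeight, rep, ModularForm.σ_heckeMatrix, hc]
  · have hu : IsUnit ((p : ℕ) : ZMod N) := by
      rw [ZMod.isUnit_iff_coprime]
      exact hp.out.coprime_iff_not_dvd.mpr hpN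
    have hu' : ∀ y : Option (Fin p), IsUnit ((repInt p y 0 0 : ℤ) : ZMod N) ∧
        IsUnit ((repInt p y 1 1 : ℤ) : ZMod N) := by
      intro y; cases y <;> simp [repInt, hu]
    have h10 := congrArg (Int.cast : ℤ → ZMod N) (congrFun (congrFun (he x) 1) 0)
    have h11 := congrArg (Int.cast : ℤ → ZMod N) (congrFun (congrFun (he x) 1) 1)
    simp only [Matrix.mul_apply, Fin.sum_univ_two, repInt_one_zero] at h10 h11
    push_cast at h10 h11
    rw [hc, zero_mul, mul_zero, add_zero, mul_zero, add_zero] at h10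
    have hg0 : ((g x 1 0 : ℤ) : ZMod N) = 0 :=
      (hu' (e x)).1.mul_left_eq_zero.mp h10.symm
    have hgN : g x ∈ Gamma0 N := Gamma0_mem.mpr hg0
    rw [hg0, zero_mul, zero_mul, zero_add, zero_add] at h11
    have key : repWeight N p ε x * ε ((g x 1 1 : ℤ) : ZMod N) =
        ε ((γ 1 1 : ℤ) : ZMod N) * repWeight N p ε (e x) := by
      refine mul_right_cancel₀ (((hu' (e x)).2.map ε).ne_zero) ?_
      rw [mul_assoc, ← map_mul, ← h11, map_mul, ← mul_assoc, repWeight_mul, mul_assoc (ε _),
        repWeight_mul]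
      ring
    rw [← SlashAction.slash_mul, hmat, SlashAction.slash_mul, hf _ hgN, ModularForm.smul_slash,
      smul_smul, smul_smul, ← key]
    congr 1
    cases e x <;> simp [rep, ModularForm.σ_heckeMatrix, ModularForm.σ_heckeDiagMatrix]

/-- The nebentypus Hecke operator preserves the nebentypus. -/
theorem hasNeb_nebHecke {f : ℍ → ℂ} (hf : HasNeb k ε f) : HasNeb k ε (nebHecke k ε p f) := by
  intro γ hγ
  obtain ⟨e, he⟩ := exists_perm_slash (p := p) γ hγ hf
  rw [nebHecke_eq_sum, SlashAction.sum_slash, Finset.smul_sum]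
  rw [← Equiv.sum_comp e (fun x => ε ((γ 1 1 : ℤ) : ZMod N) •
    (repWeight N p ε x • (f ∣[k] rep p x)))]
  refine Finset.sum_congr rfl fun x _ => ?_
  rw [← he x, ModularForm.smul_slash, UpperHalfPlane.σ, if_pos (by simp)]
  rfl

end invariance

section space

variable (N k ε)

/-- The space of cusp forms on `Γ₁(N)` with nebentypus `ε`. -/
def nebSpace : Submodule ℂ (CuspForm (Gamma1 N) k) where
  carrier := {f | HasNeb k ε ⇑f}
  zero_mem' γ _ := by simp
  add_mem' {f g} hf hg γ hγ := by
    rw [FunLike.coe_add, SlashAction.add_slash, hf γ hγ, hg γ hγ, smul_add]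
  smul_mem' c f hf γ hγ := by
    rw [FunLike.coe_smul, ModularForm.smul_slash, UpperHalfPlane.σ, if_pos (by simp),
      hf γ hγ, ContinuousAlgEquiv.refl_apply, smul_comm]

theorem mem_Gamma1_slash {f : ℍ → ℂ} (hf : HasNeb k ε f) (γ : GL (Fin 2) ℝ)
    (hγ : γ ∈ (Gamma1 N : Subgroup (GL (Fin 2) ℝ))) : f ∣[k] γ = f := by
  obtain ⟨g, hg, rfl⟩ := hγ
  have h := (Gamma1_mem N g).mp hg
  have := hf g (Gamma1_in_Gamma0 N hg)
  rw [h.2.1, map_one, one_smul] at this
  exact this

variable [NeZero N]

/-- The Hecke operator at the prime `p` on `nebSpace N k ε`. -/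
def nebOp {p : ℕ} (hp : p.Prime) : Module.End ℂ (nebSpace N k ε) :=
  haveI : Fact p.Prime := ⟨hp⟩
  { toFun := fun f =>
      ⟨{  toFun := nebHecke k ε p ⇑(f : CuspForm (Gamma1 N) k)
          slash_action_eq' := mem_Gamma1_slash N k ε (hasNeb_nebHecke f.2)
          holo' := by
            have h1 : MDiff (ModularForm.heckeU k p ⇑(f : CuspForm (Gamma1 N) k)) :=
              ModularForm.mdifferentiable_heckeU (CuspFormClass.holo (f : CuspForm (Gamma1 N) k)) k p
            exact h1.add (((CuspFormClass.holo (f : CuspForm (Gamma1 N) k)).slash k _).const_smul _)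
          zero_at_cusps' := fun {c} hc => by
            have h1 := CuspFormClass.isZeroAt_heckeU (f : CuspForm (Gamma1 N) k) p hc
            have h2 := CuspFormClass.isZeroAt_heckeT (f : CuspForm (Gamma1 N) k) p hc
            have e : ε (p : ZMod N) • (⇑(f : CuspForm (Gamma1 N) k) ∣[k]
                ModularForm.heckeDiagMatrix p) = ε (p : ZMod N) •
                (ModularForm.heckeT k p ⇑(f : CuspForm (Gamma1 N) k) +
                  (-1 : ℂ) • ModularForm.heckeU k p ⇑(f : CuspForm (Gamma1 N) k)) := by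
              rw [ModularForm.heckeT]; module
            intro g hg
            have a1 := h1 g hg
            have a2 := h2 g hg
            unfold nebHecke
            rw [e, SlashAction.add_slash, ModularForm.smul_slash, SlashAction.add_slash,
              ModularForm.smul_slash]
            exact a1.add ((a2.add (a1.smul _)).smul _) }, hasNeb_nebHecke f.2⟩
    map_add' := fun f g => Subtype.ext (DFunLike.coe_injective (nebHecke_add k ε p _ _))
    map_smul' := fun c f => Subtype.ext (DFunLike.coe_injective (nebHecke_smul k ε p c _)) }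

@[simp] theorem coe_nebOp {p : ℕ} (hp : p.Prime) (f : nebSpace N k ε) :
    ⇑(nebOp N k ε hp f : CuspForm (Gamma1 N) k) =
      nebHecke k ε p ⇑(f : CuspForm (Gamma1 N) k) := rfl

end space

end Fermat.Agent.DeligneSerre
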