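import Fermat.Agent.DeligneSerre.WeightTwo.Occurs
import Fermat.Agent.DeligneSerre.WeightTwo.Congruence
import Fermat.Agent.DeligneSerre.WeightOne
import Fermat.Agent.DeligneSerre.Residual
import Fermat.Agent.DeligneSerre.Rankin
import Fermat.Agent.DeligneSerre.Irreducible
import Fermat.Agent.DeligneSerre.Group.Bound
import Fermat.Agent.DeligneSerre.Group.Lift
import Fermat.Agent.DeligneSerre.MatrixAux
import Fermat.Agent.EC.Red.ResidueQbar
import Fermat.Agent.Density.FrobeniusDensity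

/-!
# The assembly of the Deligne–Serre theorem

The residual representations at the primes `ℓ` of large size have bounded image (few values of
`a_p` outside a small set of primes and symmetric Chebotarev), hence lift to representations in
characteristic zero with traces in a fixed finite set; two of them at large primes coincide in
trace and give the representation.
-/

set_option autoImplicit false

noncomputable section

open CongruenceSubgroup IsLocalRing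

namespace Fermat.Agent.DeligneSerre

local notation "Γℚ" => (AlgebraicClosure ℚ ≃ₐ[ℚ] AlgebraicClosure ℚ)
local notation "ℚ̄" => AlgebraicClosure ℚ

local instance : Algebra.IsAlgebraic ℚ ℚ̄ := AlgebraicClosure.isAlgebraic ℚ

local instance : IsAlgClosure ℚ ℚ̄ := ⟨inferInstance, inferInstance⟩

local instance : Normal ℚ ℚ̄ := IsAlgClosure.normal ℚ ℚ̄

open scoped Classical in
/-- Reduction modulo the maximal ideal, extended by zero outside the valuation subring. -/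
def resOr (A : ValuationSubring ℂ) (z : ℂ) : ResidueField A :=
  if h : z ∈ A then residue A ⟨z, h⟩ else 0

theorem resOr_eq (A : ValuationSubring ℂ) {z : ℂ} (h : z ∈ A) : resOr A z = residue A ⟨z, h⟩ :=
  dif_pos h

theorem resOr_coe (A : ValuationSubring ℂ) (z : A) : resOr A (z : ℂ) = residue A z :=
  resOr_eq A z.2

theorem resOr_mul (A : ValuationSubring ℂ) {x y : ℂ} (hx : x ∈ A) (hy : y ∈ A) :
    resOr A (x * y) = resOr A x * resOr A y := by
  rw [resOr_eq A hx, resOr_eq A hy, resOr_eq A (mul_mem hx hy), ← map_mul]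
  rfl

theorem resOr_natCast (A : ValuationSubring ℂ) (n : ℕ) :
    resOr A (n : ℂ) = (n : ResidueField A) := by
  rw [resOr_eq A (natCast_mem A n), ← map_natCast (residue A) n]
  rfl

theorem resOr_eq_resOr_iff (A : ValuationSubring ℂ) {x y : ℂ} (hx : x ∈ A) (hy : y ∈ A) :
    resOr A x = resOr A y ↔ x - y ∈ A.nonunits := by
  rw [resOr_eq A hx, resOr_eq A hy, ← sub_eq_zero, ← map_sub, residue_eq_zero_iff,
    ← ValuationSubring.coe_mem_nonunits_iff]
  rfl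

/-- The reduction of a Dirichlet character. -/
def resChar {M : ℕ} [NeZero M] (A : ValuationSubring ℂ) (ψ : DirichletCharacter ℂ M) :
    DirichletCharacter (ResidueField A) M where
  toFun x := resOr A (ψ x)
  map_one' := by rw [map_one, resOr_eq A A.one_mem]; exact map_one (residue A)
  map_mul' x y := by
    rw [map_mul, resOr_mul A (dirichletCharacter_mem ψ A x) (dirichletCharacter_mem ψ A y)]
  map_nonunit' x hx := by
    rw [ψ.map_nonunit hx, resOr_eq A A.zero_mem]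
    exact map_zero (residue A)

theorem isIntegral_of_pow_eq_one {z : ℂ} {n : ℕ} (hn : 0 < n) (h : z ^ n = 1) : IsIntegral ℤ z :=
  IsIntegral.of_pow hn (h ▸ isIntegral_one)

theorem finite_range_of_finiteLevel {G : Type} [Group G] (ρ : Γℚ →* G)
    (h : GaloisFactorsThroughFiniteLevel ρ) : Finite ρ.range := by
  obtain ⟨L, hL, hLρ⟩ := h
  let K : IntermediateField ℚ ℚ̄ := IntermediateField.normalClosure ℚ L ℚ̄
  have : Normal ℚ K := normalClosure.normal ℚ L ℚ̄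
  have : FiniteDimensional ℚ K := normalClosure.is_finiteDimensional ℚ L ℚ̄
  let r := AlgEquiv.restrictNormalHom (F := ℚ) (K₁ := ℚ̄) K
  have hr : Function.Surjective r := AlgEquiv.restrictNormalHom_surjective ℚ̄
  have key : ∀ σ τ, r σ = r τ → ρ σ = ρ τ := by
    intro σ τ h
    have h1 : ρ (τ⁻¹ * σ) = 1 := hLρ _ fun x hx ↦ by
      have hxK : x ∈ K := IntermediateField.le_normalClosure L hx
      have := AlgEquiv.restrictNormal_commutes (τ⁻¹ * σ) K ⟨x, hxK⟩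
      rw [show AlgEquiv.restrictNormal (τ⁻¹ * σ) K = r (τ⁻¹ * σ) from rfl, map_mul, map_inv, h,
        inv_mul_cancel] at this
      exact this.symm
    rwa [map_mul, map_inv, inv_mul_eq_one, eq_comm] at h1
  refine Finite.of_surjective (fun x : K ≃ₐ[ℚ] K => (⟨ρ (hr x).choose, _, rfl⟩ : ρ.range)) ?_
  rintro ⟨_, σ, rfl⟩
  exact ⟨r σ, Subtype.ext (key _ _ (hr (r σ)).choose_spec)⟩

theorem trace_det_inv {k : Type*} [Field k] (h : GL (Fin 2) k) :
    ((h⁻¹ : GL (Fin 2) k) : Matrix (Fin 2) (Fin 2) k).trace =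
        (h : Matrix (Fin 2) (Fin 2) k).det⁻¹ * (h : Matrix (Fin 2) (Fin 2) k).trace ∧
      ((h⁻¹ : GL (Fin 2) k) : Matrix (Fin 2) (Fin 2) k).det =
        (h : Matrix (Fin 2) (Fin 2) k).det⁻¹ := by
  rw [Matrix.coe_units_inv]
  constructor
  · rw [Matrix.inv_def, Ring.inverse_eq_inv', Matrix.trace_smul, smul_eq_mul,
      Matrix.adjugate_fin_two, Matrix.trace_fin_two, Matrix.trace_fin_two]
    simp only [Matrix.of_apply, Matrix.cons_val', Matrix.cons_val_zero, Matrix.cons_val_one,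
      Matrix.empty_val', Matrix.cons_val_fin_one]
    ring
  · rw [Matrix.det_nonsing_inv, Ring.inverse_eq_inv']

theorem trace_det_of_isConj {R : Type*} [CommRing R] {g h : GL (Fin 2) R} (hc : IsConj g h) :
    (g : Matrix (Fin 2) (Fin 2) R).trace = (h : Matrix (Fin 2) (Fin 2) R).trace ∧
      (g : Matrix (Fin 2) (Fin 2) R).det = (h : Matrix (Fin 2) (Fin 2) R).det := by
  obtain ⟨c, hc⟩ := isConj_iff.mp hc
  rw [← hc, Units.val_mul, Units.val_mul]
  exact ⟨(Matrix.trace_units_conj c _).symm, (Matrix.det_units_conj c _).symm⟩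

section Assembly

variable {N : ℕ} [NeZero N] {ε : DirichletCharacter ℂ N} {f : CuspForm (Gamma1 N) 1}

/-- The output of the small exceptional set and symmetric Chebotarev. -/
def HasFewValues (N : ℕ) (f : CuspForm (Gamma1 N) 1) : Prop :=
  ∀ η : ℝ, 0 < η → ∃ Y : Finset ℂ, ∀ {G : Type} [Group G] [Finite G] (ρ : Γℚ →* G),
    Function.Surjective ρ → GaloisFactorsThroughFiniteLevel ρ → ∀ S : Finset ℕ,
      (1 - η) * (Nat.card G : ℝ) ≤ (Nat.card {g : G // ∃ p : ℕ, p.Prime ∧ p ∉ S ∧ ¬ p ∣ N ∧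
        ModularFormClass.qCoeff f p ∈ Y ∧ ∃ (A : ValuationSubring ℚ̄) (σ : Γℚ),
          A.LiesOverPrime p ∧ A.IsFrobeniusAt σ p ∧ (IsConj (ρ σ) g ∨ IsConj (ρ σ) g⁻¹)} : ℝ)

omit [NeZero N] in
theorem natCast_coprime {p : ℕ} (hp : p.Prime) (hpN : ¬ p ∣ N) : p.Coprime N :=
  hp.coprime_iff_not_dvd.mpr hpN

/-- The values `ε p` form a finite set of roots of unity. -/
def epsValues (ε : DirichletCharacter ℂ N) : Finset ℂ :=
  open scoped Classical in
    Finset.image (fun u : (ZMod N)ˣ => ε (u : ZMod N)) Finset.univ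

theorem mem_epsValues {p : ℕ} (hp : p.Prime) (hpN : ¬ p ∣ N) :
    ε (p : ZMod N) ∈ epsValues ε := by
  classical
  rw [epsValues, Finset.mem_image]
  exact ⟨ZMod.unitOfCoprime p (natCast_coprime hp hpN), Finset.mem_univ _,
    congrArg ε (ZMod.coe_unitOfCoprime p _)⟩

theorem isIntegral_of_mem_epsValues {z : ℂ} (hz : z ∈ epsValues ε) : IsIntegral ℤ z := by
  classical
  rw [epsValues, Finset.mem_image] at hz
  obtain ⟨u, -, rfl⟩ := hz
  obtain ⟨n, hn, hpow⟩ := (isOfFinOrder_of_finite u).exists_pow_eq_one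
  refine isIntegral_of_pow_eq_one hn ?_
  rw [← map_pow, ← Units.val_pow_eq_pow_val, hpow, Units.val_one, map_one]

/-- The residual representation at `ℓ`. -/
theorem exists_residual (hf : IsWeightOneEigen ε f) {ℓ : ℕ} (hℓ : ℓ.Prime) (h5 : 5 ≤ ℓ)
    (hℓN : ¬ ℓ ∣ N) (A : ValuationSubring ℂ) (hA : (ℓ : ℂ) ∈ A.nonunits) :
    ∃ ρ : Γℚ →* GL (Fin 2) (ResidueField A), IsSplitOrIrreducible ρ ∧
      GaloisFactorsThroughFiniteLevel ρ ∧ ∀ p : ℕ, p.Prime → ¬ p ∣ N → p ≠ ℓ →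
        ∀ P : ValuationSubring ℚ̄, P.LiesOverPrime p →
          (∀ σ ∈ P.inertiaSubgroupIn ℚ, ρ σ = 1) ∧
          ∀ σ : Γℚ, P.IsFrobeniusAt σ p →
            (ρ σ).val.trace = resOr A (ModularFormClass.qCoeff f p) ∧
            (ρ σ).val.det = resOr A (ε (p : ZMod N)) := by
  have hM : NeZero (N * ℓ) := ⟨Nat.mul_ne_zero (NeZero.ne N) hℓ.ne_zero⟩
  have : Fact ℓ.Prime := ⟨hℓ⟩
  have : CharP (ResidueField A) ℓ := EC.charP_residueField A hℓ hA
  have : IsAlgClosed (ResidueField A) := EC.isAlgClosed_residueField_of_isAlgClosed A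
  obtain ⟨ψ, g, hg, hcong⟩ := exists_modEigenform_of_weightOne hf hℓ h5 hℓN A hA hM
  have hocc := occursIn_of_isModEigenform hℓ (Dvd.intro_left N rfl) A hA hg
    (fun p => resOr A (ModularFormClass.qCoeff f p)) (resChar A ψ)
    (fun p _ _ h => resOr_eq A h) (fun x h => resOr_eq A h)
  obtain ⟨ρ, hsi, hfl, hat⟩ :=
    exists_residual_rep (N * ℓ) ℓ (Dvd.intro_left N rfl) h5 _ _ _ hocc
  refine ⟨ρ, hsi, hfl, fun p hp hpN hpℓ P hP => ?_⟩
  have hpM : ¬ p ∣ N * ℓ := fun h => (hp.dvd_mul.mp h).elim hpN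
    fun h' => hpℓ ((Nat.prime_dvd_prime_iff_eq hp hℓ).mp h')
  obtain ⟨hin, hfr⟩ := hat p hp hpM P hP
  refine ⟨hin, fun σ hσ => ⟨(hfr σ hσ).1, (hfr σ hσ).2.trans ?_⟩⟩
  obtain ⟨h1, h2, h3⟩ := hcong p (hp.coprime_iff_not_dvd.mpr hpM)
  show resOr A (ψ (p : ZMod (N * ℓ))) * (p : ResidueField A) = _
  rw [← resOr_natCast, ← resOr_mul A h1 (natCast_mem A p)]
  exact (resOr_eq_resOr_iff A (mul_mem h1 (natCast_mem A p)) h2).mpr h3

/-- Lifts with image of bounded order. -/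
theorem exists_lifts (hf : IsWeightOneEigen ε f) (hfew : HasFewValues N f) :
    ∃ n L : ℕ, 0 < n ∧ ∀ ℓ : ℕ, ℓ.Prime → L < ℓ → ∀ A : ValuationSubring ℂ,
      (ℓ : ℂ) ∈ A.nonunits → ∃ R : Γℚ →* GL (Fin 2) ℂ, GaloisFactorsThroughFiniteLevel R ∧
        (∀ σ, (R σ).val ^ n = 1) ∧
        ∀ p : ℕ, p.Prime → ¬ p ∣ N → p ≠ ℓ → ∀ P : ValuationSubring ℚ̄, P.LiesOverPrime p →
          (∀ σ ∈ P.inertiaSubgroupIn ℚ, R σ = 1) ∧
          ∀ σ : Γℚ, P.IsFrobeniusAt σ p →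
            (R σ).val.trace - ModularFormClass.qCoeff f p ∈ A.nonunits ∧
            (R σ).val.det - ε (p : ZMod N) ∈ A.nonunits := by
  classical
  obtain ⟨Y, hY⟩ := hfew (1 / 8) (by norm_num)
  let Q := Y ×ˢ epsValues ε
  obtain ⟨B, hB⟩ := card_le_of_few_charpoly (2 * Q.card)
  refine ⟨B.factorial, max N (max 5 B), B.factorial_pos, fun ℓ hℓ hlt A hA => ?_⟩
  have hℓN : ¬ ℓ ∣ N := fun h =>
    absurd (Nat.le_of_dvd (NeZero.pos N) h) (by omega)
  obtain ⟨ρ, hsi, hfl, hρ⟩ := exists_residual hf hℓ (by omega) hℓN A hA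
  have : CharP (ResidueField A) ℓ := EC.charP_residueField A hℓ hA
  have : IsAlgClosed (ResidueField A) := EC.isAlgClosed_residueField_of_isAlgClosed A
  have hfinG : Finite ρ.range := finite_range_of_finiteLevel ρ hfl
  have hirr : (∀ v : Fin 2 → ResidueField A, v ≠ 0 → ∃ g ∈ ρ.range, ∀ c : ResidueField A,
      ((g : GL (Fin 2) (ResidueField A)) : Matrix (Fin 2) (Fin 2) (ResidueField A)).mulVec v ≠ c • v) ∨
      ∀ g ∈ ρ.range, ((g : GL (Fin 2) (ResidueField A)) : Matrix (Fin 2) (Fin 2) (ResidueField A)).IsDiag := by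
    refine hsi.imp (fun h v hv => ?_) (fun h g hg => ?_)
    · obtain ⟨σ, hσ⟩ := h v hv
      exact ⟨ρ σ, ⟨σ, rfl⟩, hσ⟩
    · obtain ⟨σ, rfl⟩ := hg
      exact h σ
  have hfl' : GaloisFactorsThroughFiniteLevel ρ.rangeRestrict := by
    obtain ⟨L, hL, h⟩ := hfl
    exact ⟨L, hL, fun σ hσ => Subtype.ext (h σ hσ)⟩
  let r := resOr A
  let Yk : Finset (ResidueField A × ResidueField A) :=
    Q.image (fun q => (r q.1, r q.2)) ∪ Q.image (fun q => ((r q.2)⁻¹ * r q.1, (r q.2)⁻¹))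
  have hYk : Yk.card ≤ 2 * Q.card := by
    refine (Finset.card_union_le _ _).trans ?_
    rw [two_mul]
    exact add_le_add Finset.card_image_le Finset.card_image_le
  have hgood := hY ρ.rangeRestrict ρ.rangeRestrict_surjective hfl' {ℓ}
  let inY : ρ.range → Prop := fun g =>
    ((g : GL (Fin 2) (ResidueField A)).val.trace,
      (g : GL (Fin 2) (ResidueField A)).val.det) ∈ Yk
  have hsub : ∀ g : ρ.range, (∃ p : ℕ, p.Prime ∧ p ∉ ({ℓ} : Finset ℕ) ∧ ¬ p ∣ N ∧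
      ModularFormClass.qCoeff f p ∈ Y ∧ ∃ (P : ValuationSubring ℚ̄) (σ : Γℚ),
        P.LiesOverPrime p ∧ P.IsFrobeniusAt σ p ∧
          (IsConj (ρ.rangeRestrict σ) g ∨ IsConj (ρ.rangeRestrict σ) g⁻¹)) → inY g := by
    rintro g ⟨p, hp, hpℓ, hpN, hpY, P, σ, hP, hσ, hc⟩
    obtain ⟨ht, hd⟩ := (hρ p hp hpN (by simpa using hpℓ) P hP).2 σ hσ
    have hq : (ModularFormClass.qCoeff f p, ε (p : ZMod N)) ∈ Q :=
      Finset.mem_product.mpr ⟨hpY, mem_epsValues hp hpN⟩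
    rcases hc with hc | hc
    · obtain ⟨e1, e2⟩ := trace_det_of_isConj (ρ.range.subtype.map_isConj hc)
      refine Finset.mem_union_left _ (Finset.mem_image.mpr ⟨_, hq, ?_⟩)
      simp only [Subgroup.subtype_apply, MonoidHom.coe_rangeRestrict] at e1 e2
      rw [← e1, ← e2, ht, hd]
    · obtain ⟨e1, e2⟩ := trace_det_of_isConj (ρ.range.subtype.map_isConj hc)
      refine Finset.mem_union_right _ (Finset.mem_image.mpr ⟨_, hq, ?_⟩)
      simp only [Subgroup.subtype_apply, MonoidHom.coe_rangeRestrict, Subgroup.coe_inv] at e1 e2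
      have i1 := trace_det_inv ((g : GL (Fin 2) (ResidueField A))⁻¹)
      rw [inv_inv] at i1
      rw [i1.1, i1.2, ← e1, ← e2, ht, hd]
  have hbad : (Nat.card {g : ρ.range // ¬ inY g} : ℝ) ≤ (1 / 8 : ℝ) * Nat.card ρ.range := by
    have h1 : Nat.card {g : ρ.range // inY g} + Nat.card {g : ρ.range // ¬ inY g} =
        Nat.card ρ.range := by
      rw [← Nat.card_sum, Nat.card_congr (Equiv.sumCompl inY)]
    have h2 := (Nat.cast_le (α := ℝ)).mpr (Nat.card_le_card_of_injective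
      (Subtype.map id hsub) (Subtype.map_injective _ Function.injective_id))
    have h3 : (Nat.card {g : ρ.range // inY g} : ℝ) + Nat.card {g : ρ.range // ¬ inY g} =
        Nat.card ρ.range := by exact_mod_cast h1
    linarith
  obtain ⟨hcard, hndvd⟩ := hB (ResidueField A) ℓ hℓ (by omega) ρ.range hfinG hirr Yk hYk hbad
  have hne : (Nat.card ρ.range : ResidueField A) ≠ 0 := by
    rwa [Ne, CharP.cast_eq_zero_iff (ResidueField A) ℓ]
  obtain ⟨R, hR⟩ := exists_lift_of_not_dvd_card A hne ρ.range.subtype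
  refine ⟨R.comp ρ.rangeRestrict, ?_, fun σ => ?_, fun p hp hpN hpℓ P hP => ⟨?_, ?_⟩⟩
  · obtain ⟨L, hL, h⟩ := hfl'
    exact ⟨L, hL, fun σ hσ => by rw [MonoidHom.comp_apply, h σ hσ, map_one]⟩
  · have h1 : (ρ.rangeRestrict σ) ^ B.factorial = 1 := by
      obtain ⟨c, hc⟩ := Nat.dvd_factorial Nat.card_pos hcard
      rw [hc, pow_mul, pow_card_eq_one', one_pow]
    rw [MonoidHom.comp_apply, ← Units.val_pow_eq_pow_val, ← map_pow R, h1, map_one,
      Units.val_one]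
  · intro σ hσ
    have h1 : ρ.rangeRestrict σ = 1 := Subtype.ext ((hρ p hp hpN hpℓ P hP).1 σ hσ)
    rw [MonoidHom.comp_apply, h1, map_one]
  · intro σ hσ
    obtain ⟨t, d, ht, hd, rt, rd⟩ := hR (ρ.rangeRestrict σ)
    obtain ⟨ft, fd⟩ := (hρ p hp hpN hpℓ P hP).2 σ hσ
    rw [MonoidHom.comp_apply, ht, hd]
    rw [Subgroup.subtype_apply, MonoidHom.coe_rangeRestrict] at rt rd
    refine ⟨(resOr_eq_resOr_iff A t.2 (Galois.mem_valuationSubring_of_isIntegral_int A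
        (hf.isIntegral_qCoeff hp hpN))).mp ?_,
      (resOr_eq_resOr_iff A d.2 (dirichletCharacter_mem ε A _)).mp ?_⟩
    · rw [resOr_coe, rt, ft]
    · rw [resOr_coe, rd, fd]

/-- The Deligne–Serre theorem. -/
theorem exists_galoisRep (hf : IsWeightOneEigen ε f) (hfew : HasFewValues N f) :
    ∃ ρ : Γℚ →* GL (Fin 2) ℂ, GaloisFactorsThroughFiniteLevel ρ ∧
      (Deformation.matrixRepresentation ρ).IsIrreducible ∧
      ∀ p : ℕ, p.Prime → ¬ p ∣ N →
        ∀ A : ValuationSubring ℚ̄, A.LiesOverPrime p →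
          (∀ σ ∈ A.inertiaSubgroupIn ℚ, ρ σ = 1) ∧
          ∀ σ : Γℚ, A.IsFrobeniusAt σ p →
            (ρ σ).val.trace = ModularFormClass.qCoeff f p ∧
            (ρ σ).val.det = ε (p : ZMod N) := by
  classical
  set a := ModularFormClass.qCoeff f with ha
  obtain ⟨n, L₁, hn, hlift⟩ := exists_lifts hf hfew
  let U := Polynomial.nthRootsFinset n (1 : ℂ)
  let Z : Finset ℂ := (U ×ˢ U).image (fun q => q.1 + q.2)
  let D : Finset ℂ := (U ×ˢ U).image (fun q => q.1 * q.2)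
  have hU : ∀ u ∈ U, IsIntegral ℤ u := fun u hu =>
    isIntegral_of_pow_eq_one hn ((Polynomial.mem_nthRootsFinset hn 1).mp hu)
  have hZi : ∀ z ∈ Z, IsIntegral ℤ z := fun z hz => by
    obtain ⟨q, hq, rfl⟩ := Finset.mem_image.mp hz
    exact (hU _ (Finset.mem_product.mp hq).1).add (hU _ (Finset.mem_product.mp hq).2)
  have hDi : ∀ z ∈ D, IsIntegral ℤ z := fun z hz => by
    obtain ⟨q, hq, rfl⟩ := Finset.mem_image.mp hz
    exact (hU _ (Finset.mem_product.mp hq).1).mul (hU _ (Finset.mem_product.mp hq).2)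
  have hZD : ∀ M : Matrix (Fin 2) (Fin 2) ℂ, M ^ n = 1 → M.trace ∈ Z ∧ M.det ∈ D := by
    intro M hM
    obtain ⟨x, y, hx, hy, ht, hd⟩ := exists_roots_of_pow_eq_one hM
    have hm : (x, y) ∈ U ×ˢ U := Finset.mem_product.mpr
      ⟨(Polynomial.mem_nthRootsFinset hn 1).mpr hx, (Polynomial.mem_nthRootsFinset hn 1).mpr hy⟩
    exact ⟨Finset.mem_image.mpr ⟨_, hm, ht.symm⟩, Finset.mem_image.mpr ⟨_, hm, hd.symm⟩⟩
  -- every `a p` is a sum of two roots of unity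
  have haZ : ∀ p : ℕ, p.Prime → ¬ p ∣ N → a p ∈ Z := by
    intro p hp hpN
    obtain ⟨L₀, hL₀⟩ := exists_bound_injOn (insert (a p) Z) fun z hz =>
      (Finset.mem_insert.mp hz).elim (fun h => h ▸ hf.isIntegral_qCoeff hp hpN) (hZi z)
    obtain ⟨ℓ, hℓle, hℓ⟩ := Nat.exists_infinite_primes (L₀ + L₁ + p + 1)
    obtain ⟨A, hA⟩ := Galois.exists_valuationSubring_liesOverPrime (L := ℂ) hℓ
    obtain ⟨R, -, hRn, hRp⟩ := hlift ℓ hℓ (by omega) A hA
    obtain ⟨P, σ, hP, hσ⟩ := Galois.exists_valuationSubring_isFrobeniusAt hp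
    have h1 := ((hRp p hp hpN (by omega) P hP).2 σ hσ).1
    have h2 := hL₀ ℓ hℓ (by omega) A hA _ (Finset.mem_insert_of_mem (hZD _ (hRn σ)).1) _
      (Finset.mem_insert_self _ _) h1
    exact h2 ▸ (hZD _ (hRn σ)).1
  let T := Z ∪ D ∪ epsValues ε
  obtain ⟨L₂, hL₂⟩ := exists_bound_injOn T fun z hz => by
    rcases Finset.mem_union.mp hz with hz | hz
    · exact (Finset.mem_union.mp hz).elim (hZi z) (hDi z)
    · exact isIntegral_of_mem_epsValues hz
  obtain ⟨ℓ₁, hℓ₁le, hℓ₁⟩ := Nat.exists_infinite_primes (L₁ + L₂ + 1)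
  obtain ⟨ℓ₂, hℓ₂le, hℓ₂⟩ := Nat.exists_infinite_primes (ℓ₁ + 1)
  obtain ⟨A₁, hA₁⟩ := Galois.exists_valuationSubring_liesOverPrime (L := ℂ) hℓ₁
  obtain ⟨A₂, hA₂⟩ := Galois.exists_valuationSubring_liesOverPrime (L := ℂ) hℓ₂
  obtain ⟨R₁, hR₁f, hR₁n, hR₁⟩ := hlift ℓ₁ hℓ₁ (by omega) A₁ hA₁
  obtain ⟨R₂, hR₂f, hR₂n, hR₂⟩ := hlift ℓ₂ hℓ₂ (by omega) A₂ hA₂
  have hexact : ∀ (ℓ : ℕ) (A : ValuationSubring ℂ) (R : Γℚ →* GL (Fin 2) ℂ), ℓ.Prime → L₂ < ℓ →
      (ℓ : ℂ) ∈ A.nonunits → (∀ σ, (R σ).val ^ n = 1) →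
      (∀ p : ℕ, p.Prime → ¬ p ∣ N → p ≠ ℓ → ∀ P : ValuationSubring ℚ̄, P.LiesOverPrime p →
        (∀ σ ∈ P.inertiaSubgroupIn ℚ, R σ = 1) ∧
        ∀ σ : Γℚ, P.IsFrobeniusAt σ p →
          (R σ).val.trace - a p ∈ A.nonunits ∧ (R σ).val.det - ε (p : ZMod N) ∈ A.nonunits) →
      ∀ p : ℕ, p.Prime → ¬ p ∣ N → p ≠ ℓ → ∀ P : ValuationSubring ℚ̄, P.LiesOverPrime p →
        ∀ σ : Γℚ, P.IsFrobeniusAt σ p →
          (R σ).val.trace = a p ∧ (R σ).val.det = ε (p : ZMod N) := by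
    intro ℓ A R hℓ hlt hA hn' hR p hp hpN hpℓ P hP σ hσ
    obtain ⟨ht, hd⟩ := (hR p hp hpN hpℓ P hP).2 σ hσ
    exact ⟨hL₂ ℓ hℓ hlt A hA _ (by simp [T, (hZD _ (hn' σ)).1]) _ (by simp [T, haZ p hp hpN]) ht,
      hL₂ ℓ hℓ hlt A hA _ (by simp [T, (hZD _ (hn' σ)).2]) _
        (by simp [T, mem_epsValues (ε := ε) hp hpN]) hd⟩
  have hex₁ := hexact ℓ₁ A₁ R₁ hℓ₁ (by omega) hA₁ hR₁n hR₁
  have hex₂ := hexact ℓ₂ A₂ R₂ hℓ₂ (by omega) hA₂ hR₂n hR₂
  -- the two lifts have the same traces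
  have hprod : GaloisFactorsThroughFiniteLevel (R₁.prod R₂) := by
    obtain ⟨K₁, hK₁, h₁⟩ := hR₁f
    obtain ⟨K₂, hK₂, h₂⟩ := hR₂f
    refine ⟨K₁ ⊔ K₂, inferInstance, fun σ hσ => Prod.ext ?_ ?_⟩
    · exact h₁ σ fun x hx => hσ x ((le_sup_left : K₁ ≤ K₁ ⊔ K₂) hx)
    · exact h₂ σ fun x hx => hσ x ((le_sup_right : K₂ ≤ K₁ ⊔ K₂) hx)
  have htrace : ∀ g : Γℚ, (R₁ g).val.trace = (R₂ g).val.trace := by
    intro g
    obtain ⟨p, hp, hpS, P, σ, hP, hσ, -, -, b, -, hb⟩ :=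
      Density.exists_isFrobeniusAt_map_pow (R₁.prod R₂) hprod g (N.primeFactors ∪ {ℓ₁, ℓ₂})
    have hpN : ¬ p ∣ N := fun h => hpS (Finset.mem_union_left _
      (Nat.mem_primeFactors.mpr ⟨hp, h, NeZero.ne N⟩))
    have h1 := hex₁ p hp hpN (fun h => hpS (by simp [h])) P hP σ hσ
    have h2 := hex₂ p hp hpN (fun h => hpS (by simp [h])) P hP σ hσ
    have e1 : R₁ g = R₁ σ ^ b := congrArg Prod.fst hb
    have e2 : R₂ g = R₂ σ ^ b := congrArg Prod.snd hb
    rw [e1, e2, Units.val_pow_eq_pow_val, Units.val_pow_eq_pow_val]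
    exact trace_pow_eq_of_eq (h1.1.trans h2.1.symm) (h1.2.trans h2.2.symm) b
  have hdet : ∀ g : Γℚ, (R₁ g).val.det = (R₂ g).val.det := fun g => by
    refine mul_left_cancel₀ (two_ne_zero (α := ℂ)) ?_
    rw [two_mul_det_eq, two_mul_det_eq, ← Units.val_mul, ← Units.val_mul, ← map_mul, ← map_mul,
      htrace, htrace]
  -- everything at every prime not dividing `N`
  have hall : ∀ p : ℕ, p.Prime → ¬ p ∣ N → ∀ P : ValuationSubring ℚ̄, P.LiesOverPrime p →
      (∀ σ ∈ P.inertiaSubgroupIn ℚ, R₁ σ = 1) ∧ ∀ σ : Γℚ, P.IsFrobeniusAt σ p →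
        (R₁ σ).val.trace = a p ∧ (R₁ σ).val.det = ε (p : ZMod N) := by
    intro p hp hpN P hP
    by_cases hpℓ : p = ℓ₁
    · have hp2 : p ≠ ℓ₂ := by omega
      refine ⟨fun σ hσ => ?_, fun σ hσ => ?_⟩
      · refine Units.ext (eq_one_of_pow_eq_one_of_trace hn.ne' (hR₁n σ) ?_)
        rw [htrace, (hR₂ p hp hpN hp2 P hP).1 σ hσ, Units.val_one, Matrix.trace_one,
          Fintype.card_fin, Nat.cast_ofNat]
      · rw [htrace, hdet]
        exact hex₂ p hp hpN hp2 P hP σ hσ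
    · exact ⟨(hR₁ p hp hpN hpℓ P hP).1, fun σ hσ => hex₁ p hp hpN hpℓ P hP σ hσ⟩
  refine ⟨R₁, hR₁f, ?_, hall⟩
  refine isIrreducible_of_prime_sum_le R₁ hR₁f N.primeFactors a (fun p hp hpS P hP σ hσ =>
    ((hall p hp (fun h => hpS (Nat.mem_primeFactors.mpr ⟨hp, h, NeZero.ne N⟩)) P hP).2 σ hσ).1)
    fun τ => ?_
  obtain ⟨g, hg, hgτ⟩ := hf.exists_conjugate τ
  obtain ⟨C, hC⟩ := exists_prime_sum_norm_sq_qCoeff_le_log N _ g hg.1 hg.2
  refine ⟨C, fun s hs hs' P hP => ?_⟩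
  simp only [← hgτ, ha]
  exact hC s hs hs' P fun p hp => ⟨(hP p hp).1, fun h =>
    (hP p hp).2 (Nat.mem_primeFactors.mpr ⟨(hP p hp).1, h, NeZero.ne N⟩)⟩

end Assembly

end Fermat.Agent.DeligneSerre
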