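import Fermat.Agent.DeligneSerre.Rankin
import Fermat.Agent.DeligneSerre.Irreducible
import Fermat.Agent.DeligneSerre.SymmChebotarev.Density
import Fermat.Agent.DeligneSerre.SmallExceptional.Orbit

/-!
# Deligne–Serre, Proposition 5.5 with Chebotarev, and irreducibility

Outside a set of primes of small density `a_p` takes finitely many values, hence in any finite
quotient of `Γ_ℚ` all but a small part consists of elements conjugate, up to inversion, to the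
Frobenius of such a prime.
-/

set_option autoImplicit false

noncomputable section

open CongruenceSubgroup
open scoped Classical

namespace Fermat.Agent.DeligneSerre

local notation "Γℚ" => (AlgebraicClosure ℚ ≃ₐ[ℚ] AlgebraicClosure ℚ)

variable {N : ℕ} [NeZero N] {ε : DirichletCharacter ℂ N} {f : CuspForm (Gamma1 N) 1}

/-- The Rankin bound for every conjugate of `f`. -/
theorem IsWeightOneEigen.exists_prime_sum_norm_sq_conj_le_log (hf : IsWeightOneEigen ε f)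
    (τ : ℂ ≃+* ℂ) : ∃ C : ℝ, ∀ s : ℝ, 1 < s → s ≤ 2 → ∀ P : Finset ℕ,
      (∀ p ∈ P, p.Prime ∧ ¬ p ∣ N) →
      ∑ p ∈ P, ‖τ (ModularFormClass.qCoeff f p)‖ ^ 2 * (p : ℝ) ^ (-s) ≤
        Real.log (1 / (s - 1)) + C := by
  obtain ⟨g, hg, hq⟩ := hf.exists_conjugate τ
  obtain ⟨C, hC⟩ := exists_prime_sum_norm_sq_qCoeff_le_log N _ g hg.1 hg.2
  exact ⟨C, fun s hs hs2 P hP ↦ by simpa only [hq] using hC s hs hs2 P hP⟩

/-- Outside a set of primes of density at most `η` the `a_p` take finitely many values. -/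
theorem IsWeightOneEigen.exists_finset_values (hf : IsWeightOneEigen ε f) {η : ℝ} (hη : 0 < η) :
    ∃ Y : Finset ℂ, PrimesDensityLE
      {p : ℕ | ¬ p ∣ N ∧ ModularFormClass.qCoeff f p ∉ Y} η := by
  obtain ⟨D, hD⟩ := hf.exists_natDegree_le
  obtain ⟨T, hTne, hT⟩ := hf.exists_finset_conjugations
  set B : ℝ := √(T.card / η) with hBdef
  have hTpos : (0 : ℝ) < T.card := by exact_mod_cast hTne.card_pos
  have hB2 : B ^ 2 = T.card / η := Real.sq_sqrt (div_pos hTpos hη).le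
  have hB : 0 < B := Real.sqrt_pos.mpr (div_pos hTpos hη)
  refine ⟨(finite_setOfPred_isIntegral_bounded D B).toFinset, ?_⟩
  choose C hC using hf.exists_prime_sum_norm_sq_conj_le_log
  refine ⟨(∑ τ ∈ T, C τ) / B ^ 2, fun s hs hs2 P hP ↦ ?_⟩
  have key : ∀ p ∈ P, (p : ℝ) ^ (-s) * B ^ 2 ≤
      ∑ τ ∈ T, ‖τ (ModularFormClass.qCoeff f p)‖ ^ 2 * (p : ℝ) ^ (-s) := by
    intro p hp
    obtain ⟨hpp, hpN, hY⟩ := hP p hp
    simp only [Set.Finite.mem_toFinset, Set.mem_ofPred_eq, not_and, not_forall, not_le] at hY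
    obtain ⟨τ, hτ⟩ := hY (hf.isIntegral_qCoeff hpp hpN) (hD p hpp hpN)
    obtain ⟨τ₀, hτ₀, he⟩ := hT τ
    rw [he p hpp hpN] at hτ
    rw [mul_comm, ← Finset.sum_mul]
    refine mul_le_mul_of_nonneg_right ?_ (by positivity)
    exact (pow_le_pow_left₀ hB.le hτ.le 2).trans
      (Finset.single_le_sum (f := fun τ : ℂ ≃+* ℂ ↦ ‖τ (ModularFormClass.qCoeff f p)‖ ^ 2)
        (fun τ _ ↦ by positivity) hτ₀)
  have h1 := Finset.sum_le_sum key
  rw [Finset.sum_comm, ← Finset.sum_mul] at h1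
  have h2 : ∑ τ ∈ T, ∑ p ∈ P, ‖τ (ModularFormClass.qCoeff f p)‖ ^ 2 * (p : ℝ) ^ (-s) ≤
      T.card * Real.log (1 / (s - 1)) + ∑ τ ∈ T, C τ := by
    refine (Finset.sum_le_sum fun τ _ ↦ hC τ s hs hs2 P fun p hp ↦
      ⟨(hP p hp).1, (hP p hp).2.1⟩).trans ?_
    rw [Finset.sum_add_distrib, Finset.sum_const, nsmul_eq_mul]
  have h3 := (le_div_iff₀ (pow_pos hB 2)).mpr (h1.trans h2)
  refine h3.trans_eq ?_
  rw [add_div, hB2]
  field_simp

/-- For every `η > 0` there is a finite set `Y` such that, in every finite quotient of `Γ_ℚ`, all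
but a proportion `η` of the elements are conjugate, up to inversion, to the Frobenius of a prime
`p` (outside any given finite set) with `a_p ∈ Y`. -/
theorem exists_finset_frobenius_card_ge (hf : IsWeightOneEigen ε f) {η : ℝ} (hη : 0 < η) :
    ∃ Y : Finset ℂ, ∀ {G : Type} [Group G] [Finite G] (ρ : Γℚ →* G),
      Function.Surjective ρ → GaloisFactorsThroughFiniteLevel ρ → ∀ S : Finset ℕ,
        (1 - η) * (Nat.card G : ℝ) ≤ (Nat.card {g : G | ∃ p : ℕ, p.Prime ∧ p ∉ S ∧ ¬ p ∣ N ∧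
          ModularFormClass.qCoeff f p ∈ Y ∧ ∃ (A : ValuationSubring (AlgebraicClosure ℚ)) (σ : Γℚ),
            A.LiesOverPrime p ∧ A.IsFrobeniusAt σ p ∧
              (IsConj (ρ σ) g ∨ IsConj (ρ σ) g⁻¹)} : ℝ) := by
  obtain ⟨Y, C, hC⟩ := hf.exists_finset_values hη
  refine ⟨Y, fun {G} _ _ ρ hsurj hρ S ↦ ?_⟩
  set good : Set G := {g : G | ∃ p : ℕ, p.Prime ∧ p ∉ S ∧ ¬ p ∣ N ∧
    ModularFormClass.qCoeff f p ∈ Y ∧ ∃ (A : ValuationSubring (AlgebraicClosure ℚ)) (σ : Γℚ),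
      A.LiesOverPrime p ∧ A.IsFrobeniusAt σ p ∧
        (IsConj (ρ σ) g ∨ IsConj (ρ σ) g⁻¹)} with hgood
  have h := SymmChebotarev.card_le_of_frobenius_mem_imp ρ hρ hsurj goodᶜ ?_ ?_
    {p : ℕ | ¬ p ∣ N ∧ ModularFormClass.qCoeff f p ∉ Y} (S ∪ N.primeFactors) ?_
    (η := η) (C := C) hC
  · have hsum : Nat.card good + Nat.card (goodᶜ : Set G) = Nat.card G := by
      rw [← Nat.card_sum, Nat.card_congr (Equiv.Set.sumCompl good)]
    have : (Nat.card good : ℝ) + Nat.card (goodᶜ : Set G) = Nat.card G := by exact_mod_cast hsum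
    linarith
  · intro g hg a hga
    refine hg ?_
    obtain ⟨p, hp, hpS, hpN, hY, A, σ, hA, hσ, hc⟩ := hga
    refine ⟨p, hp, hpS, hpN, hY, A, σ, hA, hσ, hc.imp (fun hc ↦ hc.trans ?_) (fun hc ↦ hc.trans ?_)⟩
    · exact (isConj_iff.mpr ⟨a, rfl⟩).symm
    · exact (isConj_iff.mpr ⟨a, conj_inv.symm⟩).symm
  · intro g hg hg'
    refine hg ?_
    obtain ⟨p, hp, hpS, hpN, hY, A, σ, hA, hσ, hc⟩ := hg'
    exact ⟨p, hp, hpS, hpN, hY, A, σ, hA, hσ, by rwa [inv_inv, or_comm] at hc⟩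
  · intro ℓ hℓ hℓS A σ hA hσ hmem
    simp only [Finset.mem_union, Nat.mem_primeFactors, not_or, not_and] at hℓS
    have hℓN : ¬ ℓ ∣ N := fun hd ↦ hℓS.2 hℓ hd (NeZero.ne N)
    refine ⟨hℓN, fun hY ↦ hmem ?_⟩
    exact ⟨ℓ, hℓ, hℓS.1, hℓN, hY, A, σ, hA, hσ, Or.inl (IsConj.refl _)⟩

/-- A representation with Frobenius traces `a_p` is irreducible. -/
theorem IsWeightOneEigen.isIrreducible_of_trace_eq (hf : IsWeightOneEigen ε f)
    (ρ : Γℚ →* GL (Fin 2) ℂ) (hρ : GaloisFactorsThroughFiniteLevel ρ) (S : Finset ℕ)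
    (hS : N.primeFactors ⊆ S)
    (htr : ∀ p : ℕ, p.Prime → p ∉ S → ∀ A : ValuationSubring (AlgebraicClosure ℚ),
      A.LiesOverPrime p → ∀ σ : Γℚ, A.IsFrobeniusAt σ p →
        ((ρ σ : GL (Fin 2) ℂ) : Matrix (Fin 2) (Fin 2) ℂ).trace = ModularFormClass.qCoeff f p) :
    (Deformation.matrixRepresentation ρ).IsIrreducible := by
  refine isIrreducible_of_prime_sum_le ρ hρ S _ htr fun τ ↦ ?_
  obtain ⟨C, hC⟩ := hf.exists_prime_sum_norm_sq_conj_le_log τ
  exact ⟨C, fun s hs hs2 P hP ↦ hC s hs hs2 P fun p hp ↦ ⟨(hP p hp).1, fun hd ↦ (hP p hp).2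
    (hS (Nat.mem_primeFactors.mpr ⟨(hP p hp).1, hd, NeZero.ne N⟩))⟩⟩

end Fermat.Agent.DeligneSerre
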